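import Fermat.Agent.S19.Geo0.Rat
import Fermat.Agent.S37.Mod.Normal
import Fermat.Agent.Crux.GM.CoordH
import Fermat.Agent.S36.Base.Residue
import Fermat.Agent.ES.B.Red

/-!
# S19 / Geo0 / Inst : the rational structure on the modular function field

`K = ℚ̄`, `F = FF M`, `V = gaussVFF M A`, `Γ =` the inertia group of `A`, acting coefficientwise on `q`-expansions (`αI M A`), `ϖ = ℓ`.
Main result: `ratStr : RatStr (αI M A) (gaussVFF M A) (ℓ : Qb) y` for every `Γ`-fixed `y`.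
-/

set_option autoImplicit false
set_option linter.unusedSectionVars false

open AlgebraicCurve ModularCurve

namespace Fermat.Agent.S19.Geo0

section generic

variable {K F : Type*} [Field K] [Field F] [Algebra K F] {Γ : Type*} [Group Γ]

/-- the subfield of fixed functions. -/
def fixSubfield (α : Γ →* SemilinearAut K F) : Subfield F where
  carrier := {u | FixF α u}
  mul_mem' := FixF.mul
  one_mem' := FixF.one
  add_mem' := FixF.add
  zero_mem' := FixF.zero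
  neg_mem' := FixF.neg
  inv_mem' := fun _ h => FixF.inv h

variable {α : Γ →* SemilinearAut K F}

theorem mem_fixSubfield {u : F} : u ∈ fixSubfield α ↔ FixF α u := Iff.rfl

/-- the span of the fixed functions is closed under multiplication. -/
theorem mul_mem_span_fix {x y : F} (hx : x ∈ Submodule.span K {u : F | FixF α u})
    (hy : y ∈ Submodule.span K {u : F | FixF α u}) :
    x * y ∈ Submodule.span K {u : F | FixF α u} := by
  have h := Submodule.mul_mem_mul hx hy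
  rw [Submodule.span_mul_span] at h
  refine Submodule.span_mono ?_ h
  rintro _ ⟨a, ha, b, hb, rfl⟩
  exact FixF.mul ha hb

/-- a constant which is algebraic over the fixed constants is integral over the fixed functions. -/
theorem isIntegral_algebraMap_fix {c : K}
    (h : ∃ p : Polynomial K, p.Monic ∧ (∀ i, FixK α (p.coeff i)) ∧ p.eval c = 0) :
    IsIntegral (fixSubfield α) (algebraMap K F c) := by
  obtain ⟨p, hp, hfix, hc⟩ := h
  have hl : p.map (algebraMap K F) ∈ Polynomial.lifts (algebraMap (fixSubfield α) F) := by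
    rw [Polynomial.lifts_iff_coeff_lifts]
    intro i
    rw [Polynomial.coeff_map]
    exact ⟨⟨_, FixF.algebraMap (hfix i)⟩, rfl⟩
  obtain ⟨q, hq, -, hqm⟩ := Polynomial.lifts_and_degree_eq_and_monic hl (hp.map _)
  refine ⟨q, hqm, ?_⟩
  rw [← Polynomial.eval_map, hq, Polynomial.eval_map, Polynomial.eval₂_at_apply, hc, map_zero]

/-- **`F = K · F^Γ`** as soon as `K` is algebraic over `K^Γ` and `F` is generated by `K` and fixed functions. -/
theorem span_fix_eq_top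
    (halg : ∀ c : K, ∃ p : Polynomial K, p.Monic ∧ (∀ i, FixK α (p.coeff i)) ∧ p.eval c = 0)
    (hgen : ∀ f : F, ∃ a b : F, a ∈ Submodule.span K {u : F | FixF α u} ∧
      b ∈ Submodule.span K {u : F | FixF α u} ∧ f = a / b) :
    Submodule.span K {u : F | FixF α u} = ⊤ := by
  set T : Subalgebra (fixSubfield α) F :=
    Algebra.adjoin (fixSubfield α) (Set.range (algebraMap K F)) with hT
  have hint : ∀ x ∈ T, IsIntegral (fixSubfield α) x := by
    have hle : T ≤ integralClosure (fixSubfield α) F := by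
      refine Algebra.adjoin_le ?_
      rintro _ ⟨c, rfl⟩
      exact isIntegral_algebraMap_fix (halg c)
    exact fun x hx => hle hx
  have hinv : ∀ x ∈ T, x⁻¹ ∈ T := fun x hx =>
    Subalgebra.inv_mem_of_algebraic (x := ⟨x, hx⟩) T (hint x hx).isAlgebraic
  have h1 : ∀ x ∈ Submodule.span K {u : F | FixF α u}, x ∈ T := by
    intro x hx
    induction hx using Submodule.span_induction with
    | mem u hu => exact T.algebraMap_mem ⟨u, hu⟩
    | zero => exact T.zero_mem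
    | add x y _ _ hx hy => exact T.add_mem hx hy
    | smul c x _ hx =>
      rw [Algebra.smul_def]
      exact T.mul_mem (Algebra.subset_adjoin ⟨c, rfl⟩) hx
  have h2 : ∀ x ∈ T, x ∈ Submodule.span K {u : F | FixF α u} := by
    intro x hx
    induction hx using Algebra.adjoin_induction with
    | mem x hx =>
      obtain ⟨c, rfl⟩ := hx
      rw [Algebra.algebraMap_eq_smul_one]
      exact Submodule.smul_mem _ _ (Submodule.subset_span FixF.one)
    | algebraMap u => exact Submodule.subset_span u.2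
    | add x y _ _ hx hy => exact Submodule.add_mem _ hx hy
    | mul x y _ _ hx hy => exact mul_mem_span_fix hx hy
  rw [eq_top_iff]
  intro f _
  obtain ⟨a, b, ha, hb, rfl⟩ := hgen f
  rw [div_eq_mul_inv]
  exact h2 _ (T.mul_mem (h1 a ha) (hinv b (h1 b hb)))

/-- **descent of fractions**: a fixed function which is a fraction of elements of a stable subalgebra `B` is a fraction of FIXED elements of `B`. -/
theorem exists_fix_fraction (hspan : Submodule.span K {u : F | FixF α u} = ⊤) (B : Subalgebra K F)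
    (hB : ∀ (σ : Γ), ∀ b ∈ B, α σ • b ∈ B) {f : F} (hf : FixF α f)
    (hfr : ∃ b ∈ B, b ≠ 0 ∧ f * b ∈ B) :
    ∃ b ∈ B, b ≠ 0 ∧ FixF α b ∧ f * b ∈ B ∧ FixF α (f * b) := by
  let W : Submodule K F :=
    { carrier := {b | b ∈ B ∧ f * b ∈ B}
      add_mem' := fun {a b} ha hb => ⟨B.add_mem ha.1 hb.1, by rw [mul_add]; exact B.add_mem ha.2 hb.2⟩
      zero_mem' := ⟨B.zero_mem, by rw [mul_zero]; exact B.zero_mem⟩
      smul_mem' := fun c b hb => ⟨B.smul_mem hb.1 c, by rw [mul_smul_comm]; exact B.smul_mem hb.2 c⟩ }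
  have hW : ∀ (σ : Γ), ∀ w ∈ W, α σ • w ∈ W := by
    intro σ w hw
    refine ⟨hB σ w hw.1, ?_⟩
    have := hB σ _ hw.2
    rwa [smul_mul', hf σ] at this
  have hs := span_fix_eq hspan W hW
  by_contra hcon
  have hzero : ∀ w ∈ {w : F | w ∈ W ∧ FixF α w}, w ∈ (⊥ : Submodule K F) := by
    rintro w ⟨hw, hwf⟩
    rw [Submodule.mem_bot]
    by_contra hw0
    exact hcon ⟨w, hw.1, hw0, hwf, hw.2, hf.mul hwf⟩
  have hbot : W = ⊥ := by
    rw [← hs, eq_bot_iff]
    exact Submodule.span_le.2 hzero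
  obtain ⟨b, hb, hb0, hfb⟩ := hfr
  have : b ∈ W := ⟨hb, hfb⟩
  rw [hbot, Submodule.mem_bot] at this
  exact hb0 this

end generic

end Fermat.Agent.S19.Geo0

namespace Fermat.Agent.S19.Geo0.Inst

open Fermat.Agent.ES (Qb GQ FF)
open Fermat.Agent.S37.Mod Fermat.Agent.S37.Red Fermat.Agent.S19.Geo0
open Fermat.Agent.S55.Places (nrm)

noncomputable section

variable (M : ℕ) (A : ValuationSubring Qb)

/-- the inertia group of `A` acting on `FF M`. -/
def αI : ↥(A.inertiaSubgroupIn ℚ) →* SemilinearAut Qb (FF M) :=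
  (arithmeticGalois (modularFunctionFieldFull M)).comp (A.inertiaSubgroupIn ℚ).subtype

variable {M A}

theorem coe_αI_smul (σ : ↥(A.inertiaSubgroupIn ℚ)) (f : FF M) :
    ((αI M A σ • f : FF M) : LaurentSeries Qb)
      = coeffMap (((σ : GQ) : Qb →+* Qb)) (f : LaurentSeries Qb) := rfl

theorem baseAut_αI (σ : ↥(A.inertiaSubgroupIn ℚ)) (c : Qb) :
    SemilinearAut.baseAut (αI M A σ) c = (σ : GQ) c := rfl

theorem fixK_iff {c : Qb} : FixK (αI M A) c ↔ ∀ σ ∈ A.inertiaSubgroupIn ℚ, σ c = c :=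
  ⟨fun h σ hσ => h ⟨σ, hσ⟩, fun h σ => h σ σ.2⟩

theorem fixK_iff_mem_L0 {c : Qb} : FixK (αI M A) c ↔ c ∈ Fermat.Agent.S36.Base.L0 A := by
  rw [fixK_iff, Fermat.Agent.S36.Base.mem_L0_iff]

/-- a function is fixed iff all its `q`-coefficients are. -/
theorem fixF_iff_coeff {f : FF M} :
    FixF (αI M A) f ↔ ∀ n, FixK (αI M A) ((f : LaurentSeries Qb).coeff n) := by
  constructor
  · intro h n σ
    have h1 := congrArg (fun g : FF M => (g : LaurentSeries Qb).coeff n) (h σ)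
    simp only [coe_αI_smul, coeffMap_coeff] at h1
    exact h1
  · intro h σ
    apply Subtype.ext
    rw [coe_αI_smul]
    ext n
    rw [coeffMap_coeff]
    exact h n σ

/-! ### the constants -/

section consts

variable {ℓ : ℕ}

theorem exists_pow_mul_mem (hℓ : ℓ.Prime) (hA : A.LiesOverPrime ℓ) (c : Qb) :
    ∃ N : ℕ, (ℓ : Qb) ^ N * c ∈ A := by
  have : Fact ℓ.Prime := ⟨hℓ⟩
  obtain ⟨g, rfl⟩ := Fermat.Agent.S55.Places.exists_smul_padicPlace_eq ℓ A hA
  have hlt : ((ℓ : ℝ)⁻¹) < 1 := inv_lt_one_of_one_lt₀ (by exact_mod_cast hℓ.one_lt)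
  have hpos : (0 : ℝ) < (ℓ : ℝ)⁻¹ := inv_pos.2 (by exact_mod_cast hℓ.pos)
  obtain ⟨N, hN⟩ : ∃ N : ℕ, ((ℓ : ℝ)⁻¹) ^ N * nrm ℓ (g⁻¹ c) ≤ 1 := by
    obtain ⟨N, hN⟩ := exists_pow_lt_of_lt_one (show (0 : ℝ) < (nrm ℓ (g⁻¹ c) + 1)⁻¹ from
      inv_pos.2 (by have := Fermat.Agent.S55.Places.nrm_nonneg ℓ (g⁻¹ c); linarith)) hlt
    refine ⟨N, ?_⟩
    have h0 := Fermat.Agent.S55.Places.nrm_nonneg ℓ (g⁻¹ c)
    have h1 : ((ℓ : ℝ)⁻¹) ^ N * nrm ℓ (g⁻¹ c) ≤ (nrm ℓ (g⁻¹ c) + 1)⁻¹ * (nrm ℓ (g⁻¹ c) + 1) :=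
      mul_le_mul hN.le (by linarith) h0 (inv_nonneg.2 (by linarith))
    rwa [inv_mul_cancel₀ (by linarith)] at h1
  refine ⟨N, ?_⟩
  rw [Fermat.Agent.S55.Places.transitive_mem_smul_iff, Fermat.Agent.S55.Places.mem_padicPlace_iff_nrm,
    map_mul, map_pow, map_natCast, Fermat.Agent.S55.Places.nrm_mul, Fermat.Agent.S55.Places.nrm_pow,
    Fermat.Agent.S55.Places.nrm_natCast_self]
  exact hN

theorem exists_pow_eq_mul (hℓ : ℓ.Prime) (hA : A.LiesOverPrime ℓ) {a : Qb} (ha : a ∈ A.nonunits) :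
    ∃ N : ℕ, ∃ b ∈ A, a ^ N = (ℓ : Qb) * b := by
  have : Fact ℓ.Prime := ⟨hℓ⟩
  obtain ⟨g, rfl⟩ := Fermat.Agent.S55.Places.exists_smul_padicPlace_eq ℓ A hA
  have hℓ0 : (ℓ : Qb) ≠ 0 := by exact_mod_cast hℓ.ne_zero
  rw [Fermat.Agent.S55.Places.transitive_mem_nonunits_smul_iff,
    Fermat.Agent.S55.Places.mem_nonunits_iff_nrm] at ha
  have hpos : (0 : ℝ) < (ℓ : ℝ)⁻¹ := inv_pos.2 (by exact_mod_cast hℓ.pos)
  obtain ⟨N, hN⟩ := exists_pow_lt_of_lt_one hpos ha
  refine ⟨N, (ℓ : Qb)⁻¹ * a ^ N, ?_, by rw [mul_inv_cancel_left₀ hℓ0]⟩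
  rw [Fermat.Agent.S55.Places.transitive_mem_smul_iff, Fermat.Agent.S55.Places.mem_padicPlace_iff_nrm,
    map_mul, map_pow, map_inv₀, map_natCast, Fermat.Agent.S55.Places.nrm_mul,
    Fermat.Agent.S55.Places.nrm_pow, Fermat.Agent.S55.Places.nrm_inv,
    Fermat.Agent.S55.Places.nrm_natCast_self, inv_inv]
  have h1 : (ℓ : ℝ) * nrm ℓ (g⁻¹ a) ^ N ≤ (ℓ : ℝ) * (ℓ : ℝ)⁻¹ :=
    mul_le_mul_of_nonneg_left hN.le (by positivity)
  rwa [mul_inv_cancel₀ (by exact_mod_cast hℓ.ne_zero)] at h1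

theorem fixK_natCast (n : ℕ) : FixK (αI M A) (n : Qb) := fun σ => by
  rw [baseAut_αI, map_natCast]

theorem exists_fix_res (hℓ : ℓ.Prime) (hA : A.LiesOverPrime ℓ) (x : kA A) :
    ∃ a : Qb, a ∈ A ∧ FixK (αI M A) a ∧ res (IsLocalRing.residue A) a = x := by
  obtain ⟨⟨⟨b, hbL⟩, hbA⟩, hb⟩ := Fermat.Agent.S36.Base.resA0_surjective hℓ hA x
  refine ⟨b, hbA, fixK_iff_mem_L0.2 hbL, ?_⟩
  rw [res_of_mem (show b ∈ A from hbA)]
  exact hb

end consts

/-! ### inertia acts trivially on the reduction -/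

theorem redRel_smul {σ : GQ} (hσ : σ ∈ A.inertiaSubgroupIn ℚ) {f : LaurentSeries Qb}
    {u : LaurentSeries (kA A)} (h : RedRel M A f u) :
    RedRel M A (coeffMap ((σ : Qb →+* Qb)) f) u := by
  obtain ⟨g, rfl, hg⟩ := Fermat.Agent.ES.res_galA_of_inertia hσ
  obtain ⟨a, b, ha, hb, hrb, hf, hu⟩ := h
  have hio : ∀ x : LaurentSeries A, io A (coeffMap (Fermat.Agent.ES.galA g) x)
      = coeffMap (((g : GQ) : Qb →+* Qb)) (io A x) :=
    fun x => Fermat.Agent.ES.coeffMap_subtype_galA g x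
  have hrd : ∀ x : LaurentSeries A, rd A (coeffMap (Fermat.Agent.ES.galA g) x) = rd A x := by
    intro x
    rw [coeffMap_coeffMap]
    exact coeffMap_congr hg x
  have hI : ∀ x : LaurentSeries A, IsI M A x → IsI M A (coeffMap (Fermat.Agent.ES.galA g) x) := by
    intro x hx
    rw [IsI, hio]
    exact coeffMap_mem_laurentBaseChange (g : GQ) hx
  refine ⟨coeffMap (Fermat.Agent.ES.galA g) a, coeffMap (Fermat.Agent.ES.galA g) b, hI a ha, hI b hb,
    ?_, ?_, ?_⟩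
  · rw [hrd]; exact hrb
  · rw [hio, hio, ← map_mul, hf]
  · rw [hrd, hrd]; exact hu

theorem red_smul [NeZero M] (σ : ↥(A.inertiaSubgroupIn ℚ)) (f : FF M) (ft : resF M A)
    (h : (gaussVFF M A).Red f ft) : (gaussVFF M A).Red (αI M A σ • f) ft := by
  rw [red_iff] at h ⊢
  rw [coe_αI_smul]
  exact redRel_smul σ.2 h

/-! ### the polynomial ring `B = ℚ̄[j_d]` -/

section B

variable [NeZero M]

theorem fixF_jF (d : Fermat.Agent.S24.Dv M) :
    FixF (αI M A) (Fermat.Agent.S24.jF M d.1 d.2) := by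
  intro σ
  apply Subtype.ext
  rw [coe_αI_smul]
  exact coeffMap_coeffEmb _ _

/-- `σ (P(j_d)) = (σ P)(j_d)`, at the level of series. -/
theorem coeffMap_aeval_jSer (σ : GQ) (p : MvPolynomial (Fermat.Agent.S24.Dv M) Qb) :
    coeffMap ((σ : Qb →+* Qb))
        (MvPolynomial.aeval (fun d : Fermat.Agent.S24.Dv M => Fermat.Agent.S24.jSer d.1) p)
      = MvPolynomial.aeval (fun d : Fermat.Agent.S24.Dv M => Fermat.Agent.S24.jSer d.1)
          (MvPolynomial.map ((σ : Qb →+* Qb)) p) := by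
  induction p using MvPolynomial.induction_on with
  | C c =>
    rw [MvPolynomial.map_C, MvPolynomial.aeval_C, MvPolynomial.aeval_C, coeffMap_algebraMap]
  | add p q hp hq => rw [map_add, map_add, hp, hq, map_add, map_add]
  | mul_X p d hp =>
    rw [map_mul, map_mul, hp, map_mul, map_mul, MvPolynomial.map_X, MvPolynomial.aeval_X,
      Fermat.Agent.S24.jSer, coeffMap_coeffEmb]

theorem smul_phiF (σ : ↥(A.inertiaSubgroupIn ℚ)) (p : MvPolynomial (Fermat.Agent.S24.Dv M) Qb) :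
    αI M A σ • Fermat.Agent.S24.phiF M p
      = Fermat.Agent.S24.phiF M (MvPolynomial.map (((σ : GQ) : Qb →+* Qb)) p) := by
  apply Subtype.ext
  rw [coe_αI_smul, Fermat.Agent.S24.Gen.coe_phiF, Fermat.Agent.S24.Gen.coe_phiF]
  exact coeffMap_aeval_jSer _ p

/-- `B = ℚ̄[j_d : d ∣ M]`. -/
def Bsub (M : ℕ) [NeZero M] : Subalgebra Qb (FF M) := (Fermat.Agent.S24.phiF M).range

theorem smul_mem_Bsub (σ : ↥(A.inertiaSubgroupIn ℚ)) {b : FF M} (hb : b ∈ Bsub M) :
    αI M A σ • b ∈ Bsub M := by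
  obtain ⟨p, rfl⟩ := hb
  exact ⟨_, (smul_phiF σ p).symm⟩

theorem fgCoeff_of_mem_Bsub {b : FF M} (hb : b ∈ Bsub M) :
    Fermat.Agent.ES.Pivot.FGCoeff (b : LaurentSeries Qb) := by
  obtain ⟨p, rfl⟩ := hb
  show Fermat.Agent.ES.Pivot.FGCoeff ((Fermat.Agent.S24.phiF M p : FF M) : LaurentSeries Qb)
  rw [Fermat.Agent.S24.Gen.coe_phiF]
  exact Fermat.Agent.ES.Pivot.FGCoeff.aeval M p

/-- the span of the fixed functions, as a subalgebra. -/
def spanAlg (M : ℕ) (A : ValuationSubring Qb) : Subalgebra Qb (FF M) where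
  carrier := {x | x ∈ Submodule.span Qb {u : FF M | FixF (αI M A) u}}
  mul_mem' := mul_mem_span_fix
  add_mem' := fun {a b} ha hb =>
    Submodule.add_mem (Submodule.span Qb {u : FF M | FixF (αI M A) u}) ha hb
  algebraMap_mem' := fun c => by
    show algebraMap Qb (FF M) c ∈ Submodule.span Qb {u : FF M | FixF (αI M A) u}
    rw [Algebra.algebraMap_eq_smul_one]
    exact Submodule.smul_mem _ _ (Submodule.subset_span FixF.one)

theorem Bsub_le_spanAlg : Bsub M ≤ spanAlg M A := by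
  have h : Bsub M = Algebra.adjoin Qb (Set.range fun d : Fermat.Agent.S24.Dv M =>
      Fermat.Agent.S24.jF M d.1 d.2) := by
    rw [Bsub, Fermat.Agent.S24.phiF, ← Algebra.adjoin_range_eq_range_aeval]
  rw [h]
  refine Algebra.adjoin_le ?_
  rintro _ ⟨d, rfl⟩
  exact Submodule.subset_span (s := {u : FF M | FixF (αI M A) u}) (fixF_jF d)

attribute [local instance] Fermat.Agent.S55.Places.isAlgClosureQbar in
theorem exists_fix_poly (c : Qb) :
    ∃ p : Polynomial Qb, p.Monic ∧ (∀ i, FixK (αI M A) (p.coeff i)) ∧ p.eval c = 0 := by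
  have hc : IsIntegral ℚ c := Algebra.IsIntegral.isIntegral c
  refine ⟨(minpoly ℚ c).map (algebraMap ℚ Qb), (minpoly.monic hc).map _, fun i σ => ?_, ?_⟩
  · rw [Polynomial.coeff_map, baseAut_αI]
    exact (σ : GQ).commutes _
  · rw [Polynomial.eval_map, ← Polynomial.aeval_def, minpoly.aeval]

/-- **`F = ℚ̄ · F^I`.** -/
theorem fix_span : Submodule.span Qb {u : FF M | FixF (αI M A) u} = ⊤ := by
  refine span_fix_eq_top exists_fix_poly fun f => ?_
  obtain ⟨p, q, -, hf⟩ := Fermat.Agent.S24.exists_phiF_div M f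
  have hp : Fermat.Agent.S24.phiF M p ∈ spanAlg M A := Bsub_le_spanAlg (A := A) ⟨p, rfl⟩
  have hq : Fermat.Agent.S24.phiF M q ∈ spanAlg M A := Bsub_le_spanAlg (A := A) ⟨q, rfl⟩
  exact ⟨_, _, hp, hq, hf⟩

/-- **Pivot**: a nonzero fixed element of `B` can be scaled by a FIXED constant to a Gauss unit. -/
theorem exists_scale_of_mem_Bsub {b : FF M} (hb : b ∈ Bsub M) (hb0 : b ≠ 0)
    (hfix : FixF (αI M A) b) :
    ∃ (c : Qb) (u : LaurentSeries (kA A)), FixK (αI M A) c ∧ c ≠ 0 ∧ u ≠ 0 ∧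
      RedRel M A (algebraMap Qb (LaurentSeries Qb) c * (b : LaurentSeries Qb)) u := by
  classical
  set x : LaurentSeries Qb := (b : LaurentSeries Qb) with hx
  have hx0 : x ≠ 0 := fun h => hb0 (Subtype.ext h)
  obtain ⟨N, hN, hxN⟩ := fgCoeff_of_mem_Bsub hb
  obtain ⟨n₁, hn₁⟩ : ∃ n, x.coeff n ≠ 0 := by
    by_contra hcon
    push Not at hcon
    exact hx0 (HahnSeries.ext (funext hcon))
  obtain ⟨y₀, ⟨⟨n₀, rfl⟩, hy₀⟩, hmax⟩ := Fermat.Agent.ES.Pivot.exists_max A N hN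
    {y | (∃ n, x.coeff n = y) ∧ y ≠ 0}
    ⟨x.coeff n₁, ⟨n₁, rfl⟩, hn₁⟩ (by rintro _ ⟨⟨n, rfl⟩, -⟩; exact hxN n) (fun y hy => hy.2)
  have hmem : ∀ n, x.coeff n / x.coeff n₀ ∈ A := by
    intro n
    by_cases hn : x.coeff n = 0
    · rw [hn, zero_div]
      exact A.zero_mem
    · exact hmax _ ⟨⟨n, rfl⟩, hn⟩
  let a : LaurentSeries A :=
    { coeff := fun n => ⟨x.coeff n / x.coeff n₀, hmem n⟩
      isPWO_support' := by
        refine x.isPWO_support.mono ?_
        intro n hn hn0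
        apply hn
        apply Subtype.ext
        show x.coeff n / x.coeff n₀ = 0
        rw [hn0, zero_div] }
  have hio : io A a = algebraMap Qb (LaurentSeries Qb) (x.coeff n₀)⁻¹ * x := by
    ext n
    rw [coeffMap_coeff, Fermat.Agent.S24.Gen.coeff_algebraMap_mul]
    show x.coeff n / x.coeff n₀ = _
    rw [div_eq_inv_mul]
  have hrd : rd A a ≠ 0 := by
    intro h
    have h1 := congrArg (fun s => s.coeff n₀) h
    simp only [coeffMap_coeff, HahnSeries.coeff_zero] at h1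
    have h2 : a.coeff n₀ = 1 := by
      apply Subtype.ext
      show x.coeff n₀ / x.coeff n₀ = 1
      exact div_self hy₀
    rw [h2, map_one] at h1
    exact one_ne_zero h1
  have hI : IsI M A a := by
    rw [IsI, hio]
    exact mul_mem (IntermediateField.algebraMap_mem _ _) b.2
  refine ⟨(x.coeff n₀)⁻¹, rd A a, (fixF_iff_coeff.1 hfix n₀).inv, inv_ne_zero hy₀, hrd, ?_⟩
  rw [← hio]
  exact RedRel.of_isI hI

/-- **the Gauss norm of a fixed function lies in `|L0|`.** -/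
theorem scale (f : FF M) (hf : FixF (αI M A) f) (hf0 : f ≠ 0) :
    ∃ c : Qb, FixK (αI M A) c ∧ c ≠ 0 ∧ ∃ ft : resF M A, ft ≠ 0 ∧
      (gaussVFF M A).Red (algebraMap Qb (FF M) c * f) ft := by
  obtain ⟨p, q, hq, hfpq⟩ := Fermat.Agent.S24.exists_phiF_div M f
  obtain ⟨b, hbB, hb0, hbfix, haB, hafix⟩ := exists_fix_fraction (fix_span (M := M) (A := A)) (Bsub M)
    (fun σ b hb => smul_mem_Bsub σ hb) hf
    ⟨Fermat.Agent.S24.phiF M q, ⟨q, rfl⟩, hq, ⟨p, by
      show Fermat.Agent.S24.phiF M p = f * Fermat.Agent.S24.phiF M q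
      rw [hfpq, div_mul_cancel₀ _ hq]⟩⟩
  obtain ⟨c₁, u₁, hc₁, hc₁0, hu₁, h₁⟩ := exists_scale_of_mem_Bsub haB (mul_ne_zero hf0 hb0) hafix
  obtain ⟨c₂, u₂, hc₂, hc₂0, hu₂, h₂⟩ := exists_scale_of_mem_Bsub hbB hb0 hbfix
  have h := h₁.mul (h₂.inv hu₂)
  have hb0' : (b : LaurentSeries Qb) ≠ 0 := fun h => hb0 (Subtype.ext h)
  have hc₂' : algebraMap Qb (LaurentSeries Qb) c₂ ≠ 0 := (map_ne_zero _).2 hc₂0
  have heq : algebraMap Qb (LaurentSeries Qb) c₁ * ((f * b : FF M) : LaurentSeries Qb) *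
      (algebraMap Qb (LaurentSeries Qb) c₂ * (b : LaurentSeries Qb))⁻¹
      = ((algebraMap Qb (FF M) (c₁ / c₂) * f : FF M) : LaurentSeries Qb) := by
    have e1 : ((f * b : FF M) : LaurentSeries Qb) = (f : LaurentSeries Qb) * (b : LaurentSeries Qb) := rfl
    have e2 : ((algebraMap Qb (FF M) (c₁ / c₂) * f : FF M) : LaurentSeries Qb)
        = algebraMap Qb (LaurentSeries Qb) (c₁ / c₂) * (f : LaurentSeries Qb) := rfl
    rw [e1, e2, map_div₀]
    field_simp
  rw [heq] at h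
  refine ⟨c₁ / c₂, hc₁.mul hc₂.inv |> (by rw [div_eq_mul_inv]; exact ·), div_ne_zero hc₁0 hc₂0,
    ⟨u₁ * u₂⁻¹, ⟨_, h⟩⟩, ?_, red_iff.2 h⟩
  intro h0
  exact mul_ne_zero hu₁ (inv_ne_zero hu₂) (congrArg Subtype.val h0)

/-- **The rational structure on the modular function field.** -/
theorem ratStr {ℓ : ℕ} (hℓ : ℓ.Prime) (hA : A.LiesOverPrime ℓ) {y : FF M}
    (hy : FixF (αI M A) y) : RatStr (αI M A) (gaussVFF M A) (ℓ : Qb) y where
  red_smul := red_smul
  fix_y := hy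
  fix_span := fix_span
  unif_fix := fixK_natCast ℓ
  unif_nonunit := hA
  unif_ne := by exact_mod_cast hℓ.ne_zero
  unif := fun c hc hc0 =>
    Fermat.Agent.S36.Base.exists_zpow_mul_mem hℓ hA (fixK_iff_mem_L0.1 hc) hc0
  arch := exists_pow_mul_mem hℓ hA
  nilp := fun a ha => exists_pow_eq_mul hℓ hA ha
  res_surj := exists_fix_res hℓ hA
  scale := scale

/-! ### the good coordinate -/

open Fermat.Agent.Crux (GM.GoodCoord GM.castS)

variable {ℓ : ℕ} {xh : LaurentSeries ℤ} {β : ℤ} {n : ℕ}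

theorem fixF_xQ (hx : GM.GoodCoord M ℓ xh β n) : FixF (αI M A) (xQ hx) := by
  intro σ
  apply Subtype.ext
  rw [coe_αI_smul, coe_xQ]
  exact Fermat.Agent.Crux.GM.coeffMap_castS _ xh

theorem good_goodCoord (hℓ : ℓ.Prime) (hx : GM.GoodCoord M ℓ xh β n) (hA : A.LiesOverPrime ℓ) :
    Good (gaussVFF M A) (xQ hx) (xk hx A) :=
  ⟨isChart_goodCoord hℓ hx hA, isChart_goodCoord_inv hℓ hx hA⟩

theorem ratStr_goodCoord (hℓ : ℓ.Prime) (hx : GM.GoodCoord M ℓ xh β n) (hA : A.LiesOverPrime ℓ) :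
    RatStr (αI M A) (gaussVFF M A) (ℓ : Qb) (xQ hx) :=
  ratStr hℓ hA (fixF_xQ hx)

/-- **The modular instance of `Geo0`** at an admissible level prime to `ℓ`. -/
theorem exists_good_ratStr (hℓ : ℓ.Prime) (hM : ¬ ℓ ∣ M) (hadm : Fermat.Agent.Crux.Admissible ℓ M)
    (hA : A.LiesOverPrime ℓ) :
    ∃ (y : FF M) (yt : resF M A), Good (gaussVFF M A) y yt ∧
      RatStr (αI M A) (gaussVFF M A) (ℓ : Qb) y := by
  obtain ⟨xh, β, n, hx⟩ := Fermat.Agent.Crux.GM.exists_goodCoord M ℓ hℓ hM hadm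
  exact ⟨xQ hx, xk hx A, good_goodCoord hℓ hx hA, ratStr_goodCoord hℓ hx hA⟩

end B

end

end Fermat.Agent.S19.Geo0.Inst
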