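import Fermat.Agent.S37.Red.Conv

/-!
# S19 / Geo0 : the reduction map on places (chart free interface on top of `S37/Red`)

Setting of `S37/Red`: `K`, `k` algebraically closed, `A` ANY valuation subring of `K`, `π : A →+* k`,
`F/K`, `Ft/k` function fields, `V : VFF A π F Ft`, and a coordinate `y` such that `y` and `y⁻¹` are charts.

* `Good V y yt`       : `IsChart V y yt ∧ IsChart V y⁻¹ yt⁻¹`;
* `IsCen V y yt v Q`  : `Q` is the centre (reduction) of the place `v`;
* `rP hG : Place K F → Place k Ft` : the reduction map, `rD hG` the induced map on divisors;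
* `ord_red` (GR)      : `ord_Q (red W) = ∑_{rP v = Q} ord_v W`;
* `val_red` (EV)      : evaluation commutes with reduction;
* `exists_unique_val` : a function whose reduction is a local parameter at `Q` is a coordinate on the residue class of `Q`.
  (Existence of such functions: `exists_param` in `Lift.lean`.)

After this file NO chart should be mentioned any more (except in `Genus.lean`).
-/

set_option autoImplicit false
set_option linter.unusedSectionVars false

namespace Fermat.Agent.S19.Geo0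

open AlgebraicCurve Fermat.Agent.S26 Fermat.Agent.S37.Red Polynomial IntermediateField

variable {K k : Type*} [Field K] [Field k] {A : ValuationSubring K} {π : A →+* k}
variable {F Ft : Type*} [Field F] [Field Ft] [Algebra K F] [Algebra k Ft]

/-- `y` and `y⁻¹` are charts. -/
structure Good (V : VFF A π F Ft) (y : F) (yt : Ft) : Prop where
  h₀ : IsChart V y yt
  h₁ : IsChart V y⁻¹ yt⁻¹

/-- `Q` is the centre of `v` in the chart `y` (`v` in the chart). -/
def IsCenIn (V : VFF A π F Ft) (y : F) (yt : Ft) (v : Place K F) (Q : Place k Ft) : Prop :=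
  InChart A y v ∧ Reg Q yt ∧
    ∀ (b : F) (bt : Ft), IntA A y b → V.Red b bt → val Q bt = res π (val v b)

/-- `Q` is the centre of `v`: in the chart `y` if `y(v) ∈ A`, in the chart `y⁻¹` otherwise. -/
def IsCen (V : VFF A π F Ft) (y : F) (yt : Ft) (v : Place K F) (Q : Place k Ft) : Prop :=
  IsCenIn V y yt v Q ∨ (InDisc π y⁻¹ 0 v ∧ IsCenIn V y⁻¹ yt⁻¹ v Q)

variable [IsAlgClosed K] [FF1 K F] [IsAlgClosed k] [FF1 k Ft]
variable {V : VFF A π F Ft} {y : F} {yt : Ft}

/-! ### one chart -/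

/-- `IsPreChart.exists_center`. -/
theorem exists_isCenIn (pc : IsPreChart V y yt) {v : Place K F} (hv : InChart A y v) :
    ∃ Q : Place k Ft, IsCenIn V y yt v Q := by
  obtain ⟨Q, hover, hval⟩ := pc.exists_center hv
  exact ⟨Q, hv, hover.1, hval⟩

theorem IsCenIn.over {v : Place K F} {Q : Place k Ft} (h : IsCenIn V y yt v Q)
    (hy : V.Red y yt) : Over yt (res π (val v y)) Q := by
  exact ⟨h.2.1, h.2.2 y yt intA_self hy⟩

/-- a function of order `0` has a nonzero value. -/
theorem cenA_val_ne_zero_of_ord_eq_zero {Q : Place k Ft} {Zt : Ft} (h0 : Zt ≠ 0) (h : Q.ord Zt = 0) :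
    val Q Zt ≠ 0 := by
  intro hval
  have hreg : Reg Q Zt := (reg_iff_ord Q).mpr h.ge
  have hvan := (val_eq_zero_iff Q hreg).mp hval
  have := ord_pos_of_van Q hvan h0
  omega

/-- Uniqueness of the centre (uses (N2): the uniformisers `IsChart.exists_unif` separate the places over `c`).
If `Q ≠ Q'` are both centres of `v` they lie over the same `c = res (y(v))`; take `(Z, Zt)` from `exists_unif` for `Q`:
`val Q Zt = 0` but `val Q' Zt ≠ 0` (order `0`), while both are `res (Z(v))`. -/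
theorem IsCenIn.unique (hc : IsChart V y yt) {v : Place K F} {Q Q' : Place k Ft}
    (h : IsCenIn V y yt v Q) (h' : IsCenIn V y yt v Q') : Q = Q' := by
  by_contra hne
  obtain ⟨Z, Zt, hZ, hZt, h1, h0⟩ := hc.exists_unif (h.over hc.red_y)
  have hZt0 : Zt ≠ 0 := by
    intro h
    rw [h, Place.ord_zero] at h1
    exact zero_ne_one h1
  have e1 : val Q Zt = 0 := val_eq_zero_of_van Q (van_of_ord_pos Q (by omega))
  have e2 : val Q' Zt ≠ 0 :=
    cenA_val_ne_zero_of_ord_eq_zero hZt0 (h0 Q' (h'.over hc.red_y) (fun e => hne e.symm))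
  exact e2 ((h'.2.2 Z Zt hZ hZt).trans ((h.2.2 Z Zt hZ hZt).symm.trans e1))

/-- Two places of the chart have the same centre iff they are related.
(`⇐`: `IsPreChart.rel_of_center`; `⇒`: the centre of `v` is also a centre of `v'` by `rel_iff_res`, then `unique`.) -/
theorem IsCenIn.rel_iff (hc : IsChart V y yt) {v v' : Place K F} {Q Q' : Place k Ft}
    (h : IsCenIn V y yt v Q) (h' : IsCenIn V y yt v' Q') : Rel A y v v' ↔ Q = Q' := by
  constructor
  · intro hrel
    have hres := ((rel_iff_res V.π_surjective).mp hrel).2.2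
    have h2 : IsCenIn V y yt v' Q :=
      ⟨h'.1, h.2.1, fun b bt hb hr => (h.2.2 b bt hb hr).trans (hres b hb)⟩
    exact h2.unique hc h'
  · rintro rfl
    exact hc.pre.rel_of_center h.1 h'.1 h.2.2 h'.2.2

/-- Every place of `Ft` at which `yt` is regular is a centre.
(`c = val Q yt`, `(Z, Zt)` from `exists_unif`; `IsPreChart.sum_ord_disc` gives `∑_{disc c} ord_v Z = 1`, so some `v` in the disc of `c`
has `ord_v Z > 0` (all orders are `≥ 0` by `IntA.reg`); its centre `Q'` lies over `c` and `val Q' Zt = res 0 = 0`, so `Q' = Q`.) -/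
theorem exists_isCenIn_of_reg (hc : IsChart V y yt) {Q : Place k Ft} (hQ : Reg Q yt) :
    ∃ v : Place K F, IsCenIn V y yt v Q := by
  classical
  have hQo : Over yt (val Q yt) Q := ⟨hQ, rfl⟩
  obtain ⟨Z, Zt, hZ, hZt, h1, h0⟩ := hc.exists_unif hQo
  have hZt0 : Zt ≠ 0 := by
    intro h
    rw [h, Place.ord_zero] at h1
    exact zero_ne_one h1
  have hR : ∑ᶠ (Q' : Place k Ft) (_ : Over yt (val Q yt) Q'), Q'.ord Zt = 1 := by
    rw [finsum_eq_single _ Q, finsum_eq_if, if_pos hQo, h1]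
    intro Q' hQ'
    rw [finsum_eq_if]
    split_ifs with h
    · exact h0 Q' h hQ'
    · rfl
  have hsum := hc.pre.sum_ord_disc hZ hZt hZt0 (val Q yt)
  rw [hR] at hsum
  obtain ⟨v, hv, hvord⟩ : ∃ v : Place K F, InDisc π y (val Q yt) v ∧ v.ord Z ≠ 0 := by
    by_contra hcon
    push Not at hcon
    rw [finsum_eq_zero_of_forall_eq_zero] at hsum
    · exact zero_ne_one hsum
    · intro v
      rw [finsum_eq_if]
      split_ifs with h
      · exact hcon v h
      · rfl
  have hpos : 0 < v.ord Z := lt_of_le_of_ne ((reg_iff_ord v).mp (hZ.reg hv.1)) (Ne.symm hvord)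
  have hvZ : val v Z = 0 := val_eq_zero_of_van v (van_of_ord_pos v hpos)
  obtain ⟨Q', hQ'⟩ := exists_isCenIn hc.pre hv.1
  have hover : Over yt (val Q yt) Q' := by
    have := hQ'.over hc.red_y
    rwa [hv.2] at this
  have hval : val Q' Zt = 0 := by
    rw [hQ'.2.2 Z Zt hZ hZt, hvZ, res_zero]
  have hQQ : Q' = Q := by
    by_contra hne
    exact cenA_val_ne_zero_of_ord_eq_zero hZt0 (h0 Q' hover hne) hval
  exact ⟨v, hQQ ▸ hQ'⟩

/-- copy of `IsChart.exists_center_ord` (`S37/Red/Conv.lean`) which remembers that `Q` is a centre of `v₀`. -/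
theorem CenGR_exists_center_ord (hc : IsChart V y yt) {W : F} {Wt : Ft} (hW : V.Red W Wt)
    (hWt : Wt ≠ 0) (c : k) {v₀ : Place K F} (hv₀d : InDisc π y c v₀) :
    ∃ Q : Place k Ft, Over yt c Q ∧
      (∀ (b : F) (bt : Ft), IntA A y b → V.Red b bt → val Q bt = res π (val v₀ b)) ∧
      Q.ord Wt = ∑ᶠ (v : Place K F) (_ : Rel A y v v₀), v.ord W := by
  classical
  have hπ := V.π_surjective
  have pc := hc.pre
  have hW0 : W ≠ 0 := hW.ne_zero hWt
  -- uniformisers
  have hZ' : ∀ Q : Place k Ft, ∃ (Z : F) (Zt : Ft), Over yt c Q → (IntA A y Z ∧ V.Red Z Zt ∧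
      Q.ord Zt = 1 ∧ ∀ Q' : Place k Ft, Over yt c Q' → Q' ≠ Q → Q'.ord Zt = 0) := by
    intro Q
    by_cases hQ : Over yt c Q
    · obtain ⟨Z, Zt, h⟩ := hc.exists_unif hQ
      exact ⟨Z, Zt, fun _ => h⟩
    · exact ⟨0, 0, fun h => absurd h hQ⟩
  choose Z Zt hZ using hZ'
  -- centres
  have hcen' : ∀ v : Place K F, ∃ Q : Place k Ft, InDisc π y c v → (Over yt c Q ∧
      ∀ (b : F) (bt : Ft), IntA A y b → V.Red b bt → val Q bt = res π (val v b)) := by
    intro v
    by_cases hv : InDisc π y c v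
    · obtain ⟨Q, hQ, h⟩ := pc.exists_center hv.1
      rw [hv.2] at hQ
      exact ⟨Q, fun _ => ⟨hQ, h⟩⟩
    · obtain ⟨Q, -⟩ := exists_over hc.trans c
      exact ⟨Q, fun h => absurd h hv⟩
  choose cen hcen using hcen'
  have hZt0 : ∀ Q : Place k Ft, Over yt c Q → Zt Q ≠ 0 := by
    intro Q hQ h0
    have := (hZ Q hQ).2.2.1
    rw [h0, Place.ord_zero] at this
    exact zero_ne_one this
  -- values of the uniformisers
  have key1 : ∀ v : Place K F, InDisc π y c v → res π (val v (Z (cen v))) = 0 := by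
    intro v hv
    have hQ := (hcen v hv).1
    rw [← (hcen v hv).2 _ _ (hZ _ hQ).1 (hZ _ hQ).2.1]
    exact val_eq_zero_of_van _ (van_of_ord_pos _ (by rw [(hZ _ hQ).2.2.1]; exact one_pos))
  have key2 : ∀ v : Place K F, InDisc π y c v → ∀ Q : Place k Ft, Over yt c Q → cen v ≠ Q →
      res π (val v (Z Q)) ≠ 0 := by
    intro v hv Q hQ hne
    rw [← (hcen v hv).2 _ _ (hZ _ hQ).1 (hZ _ hQ).2.1]
    have h0 := (hZ _ hQ).2.2.2 (cen v) (hcen v hv).1 hne
    have hreg : Reg (cen v) (Zt Q) := (reg_iff_ord _).2 h0.ge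
    rw [Ne, val_eq_zero_iff _ hreg, van_iff_ord]
    rintro (h | h)
    · exact hZt0 Q hQ h
    · omega
  have relIff : ∀ v v₀ : Place K F, InDisc π y c v → InDisc π y c v₀ →
      (Rel A y v v₀ ↔ cen v = cen v₀) := by
    intro v v₀ hv hv₀
    constructor
    · intro h
      by_contra hne
      have h1 := ((rel_iff_res hπ).1 h).2.2 (Z (cen v₀)) (hZ _ (hcen v₀ hv₀).1).1
      rw [key1 v₀ hv₀] at h1
      exact key2 v hv _ (hcen v₀ hv₀).1 hne h1
    · intro h
      refine pc.rel_of_center hv.1 hv₀.1 (Q := cen v) (hcen v hv).2 ?_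
      rw [h]
      exact (hcen v₀ hv₀).2
  -- local equations
  set g : Place K F → F := fun v => Z (cen v) - algebraMap K F (val v (Z (cen v))) with hg
  have hgred : ∀ v : Place K F, InDisc π y c v → V.Red (g v) (Zt (cen v)) := by
    intro v hv
    have hQ := (hcen v hv).1
    have h1 := (hZ _ hQ).2.1.sub (V.red_const ((hZ _ hQ).1.val_mem hv.1))
    rwa [key1 v hv, map_zero, sub_zero] at h1
  have hgord : ∀ v : Place K F, InDisc π y c v → v.ord (g v) = 1 ∧
      ∀ v' : Place K F, InDisc π y c v' → v' ≠ v → v'.ord (g v) = 0 := by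
    intro v hv
    have hQ := (hcen v hv).1
    exact pc.localEq hQ (hZ _ hQ).1 (hZ _ hQ).2.1 (hZ _ hQ).2.2.1 (hZ _ hQ).2.2.2 hv (key1 v hv)
  -- the support of `W` in the disc
  have hfin : {v : Place K F | InDisc π y c v ∧ v.ord W ≠ 0}.Finite :=
    (finite_ord_ne_zero (Ω := K) hW0).subset fun v hv => hv.2
  set S : Finset (Place K F) := hfin.toFinset with hS
  have hSmem : ∀ v, v ∈ S ↔ InDisc π y c v ∧ v.ord W ≠ 0 := fun v => by simp [hS]
  have hg0 : ∀ v ∈ S, g v ≠ 0 := fun v hv =>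
    (hgred v ((hSmem v).1 hv).1).ne_zero (hZt0 _ (hcen v ((hSmem v).1 hv).1).1)
  have hZ0 : ∀ v ∈ S, Zt (cen v) ≠ 0 := fun v hv => hZt0 _ (hcen v ((hSmem v).1 hv).1).1
  have hred' : V.Red (W * ∏ v ∈ S, g v ^ (- v.ord W)) (Wt * ∏ v ∈ S, Zt (cen v) ^ (- v.ord W)) :=
    hW.mul (V.red_prod S _ _ fun v hv => (hgred v ((hSmem v).1 hv).1).zpow (hZ0 v hv) _)
  have hP0 : ∏ v ∈ S, g v ^ (- v.ord W) ≠ 0 :=
    Finset.prod_ne_zero_iff.mpr fun v hv => zpow_ne_zero _ (hg0 v hv)
  have hPt0 : ∏ v ∈ S, Zt (cen v) ^ (- v.ord W) ≠ 0 :=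
    Finset.prod_ne_zero_iff.mpr fun v hv => zpow_ne_zero _ (hZ0 v hv)
  have hord' : ∀ v' : Place K F, InDisc π y c v' → v'.ord (W * ∏ v ∈ S, g v ^ (- v.ord W)) = 0 := by
    intro v' hv'
    rw [v'.ord_mul hW0 hP0, ord_prod_zpow v' S g hg0]
    have h1 : ∀ v ∈ S, - v.ord W * v'.ord (g v) = if v = v' then - v'.ord W else 0 := by
      intro v hv
      split_ifs with h
      · subst h
        rw [(hgord v hv').1, mul_one]
      · rw [(hgord v ((hSmem v).1 hv).1).2 v' hv' (Ne.symm h), mul_zero]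
    rw [Finset.sum_congr rfl h1, Finset.sum_ite_eq']
    split_ifs with h
    · ring
    · have : v'.ord W = 0 := by
        by_contra h0
        exact h ((hSmem v').2 ⟨hv', h0⟩)
      rw [this, add_zero]
  refine ⟨cen v₀, (hcen v₀ hv₀d).1, (hcen v₀ hv₀d).2, ?_⟩
  set Q := cen v₀ with hQdef
  have hQ : Over yt c Q := (hcen v₀ hv₀d).1
  have hfinal := pc.ord_red_eq_zero hred' (mul_ne_zero hWt hPt0) c hord' Q hQ
  rw [Q.ord_mul hWt hPt0, ord_prod_zpow Q S (fun v => Zt (cen v)) hZ0] at hfinal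
  have h2 : ∀ v ∈ S, - v.ord W * Q.ord (Zt (cen v)) = if cen v = Q then - v.ord W else 0 := by
    intro v hv
    have hQv := (hcen v ((hSmem v).1 hv).1).1
    split_ifs with h
    · rw [← h, (hZ _ hQv).2.2.1, mul_one]
    · rw [(hZ _ hQv).2.2.2 Q hQ (Ne.symm h), mul_zero]
  rw [Finset.sum_congr rfl h2, ← Finset.sum_filter, Finset.sum_neg_distrib] at hfinal
  have h3 : ∑ᶠ (v : Place K F) (_ : Rel A y v v₀), v.ord W
      = ∑ v ∈ S.filter (fun v => cen v = Q), v.ord W := by
    refine finsum_mem_eq_sum_of_inter_support_eq (s := {v | Rel A y v v₀}) _ ?_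
    ext v
    simp only [Set.mem_inter_iff, Set.mem_ofPred_eq, Function.mem_support, Finset.coe_filter,
      and_congr_left_iff]
    intro hv0
    constructor
    · intro hrel
      have hvd := hrel.inDisc hπ hv₀d
      exact ⟨(hSmem v).2 ⟨hvd, hv0⟩, (relIff v v₀ hvd hv₀d).1 hrel⟩
    · rintro ⟨hvS, hcv⟩
      exact (relIff v v₀ ((hSmem v).1 hvS).1 hv₀d).2 hcv
  rw [h3]
  linarith

/-- **(GR) in one chart**, with the centre made explicit.
This is `IsChart.exists_center_ord` (file `S37/Red/Conv.lean`); its proof constructs `Q` as a centre of `v₀`: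
either copy that proof, or apply it and identify the place it produces: apply the statement to `W * Z ^ n`... (copying is safer). -/
theorem IsCenIn.ord_red (hc : IsChart V y yt) {W : F} {Wt : Ft} (hW : V.Red W Wt) (hWt : Wt ≠ 0)
    {v₀ : Place K F} {Q : Place k Ft} (h : IsCenIn V y yt v₀ Q) :
    Q.ord Wt = ∑ᶠ (v : Place K F) (_ : Rel A y v v₀), v.ord W := by
  obtain ⟨Q', hQ', hcen, hord⟩ :=
    CenGR_exists_center_ord hc hW hWt (res π (val v₀ y)) (v₀ := v₀) ⟨h.1, rfl⟩
  have h' : IsCenIn V y yt v₀ Q' := ⟨h.1, hQ'.1, hcen⟩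
  rw [h.unique hc h']
  exact hord

/-- helper for `IsCenIn.val_red`: a function of `B_A(y)` vanishing at `v'` whose reduction is a unit at `Q`,
when `Q` is not the centre of `v'`. -/
theorem exists_van_unit_away (hc : IsChart V y yt) {c : k} {Q : Place k Ft} (hQ : Over yt c Q)
    {v' : Place K F} (hv' : InDisc π y c v') (hne : ¬ IsCenIn V y yt v' Q) :
    ∃ (g : F) (gt : Ft), IntA A y g ∧ V.Red g gt ∧ Van v' g ∧ Reg Q gt ∧ ¬ Van Q gt := by
  obtain ⟨Q', hQ', hcen⟩ := hc.pre.exists_center hv'.1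
  rw [hv'.2] at hQ'
  have hQQ : Q ≠ Q' := by
    rintro rfl
    exact hne ⟨hv'.1, hQ'.1, hcen⟩
  obtain ⟨Z, Zt, hZ, hZt, h1, h0⟩ := hc.exists_unif hQ'
  have hZt0 : Zt ≠ 0 := by
    rintro rfl
    rw [Place.ord_zero] at h1
    exact zero_ne_one h1
  have hvan : Van Q' Zt := van_of_ord_pos Q' (by rw [h1]; exact one_pos)
  have hres : res π (val v' Z) = 0 := by
    rw [← hcen Z Zt hZ hZt]
    exact val_eq_zero_of_van Q' hvan
  have hmem : val v' Z ∈ A := hZ.val_mem hv'.1
  refine ⟨Z - algebraMap K F (val v' Z), Zt, hZ.sub (intA_algebraMap hmem), ?_,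
    van_sub_val v' (hZ.reg hv'.1), ?_, ?_⟩
  · have h2 := hZt.sub (V.red_const hmem)
    rwa [hres, map_zero, sub_zero] at h2
  · rw [reg_iff_ord, h0 Q hQ hQQ]
  · rw [van_iff_ord, h0 Q hQ hQQ]
    simp [hZt0]

/-- helper for `IsCenIn.val_red`: units at `Q` are closed under products of powers. -/
theorem reg_not_van_prod_pow {Ω 𝕃 : Type*} [Field Ω] [Field 𝕃] [Algebra Ω 𝕃] (Q : Place Ω 𝕃)
    {J : Type*} (s : Finset J) (u : J → 𝕃) (n : J → ℕ) (h : ∀ j ∈ s, Reg Q (u j) ∧ ¬ Van Q (u j)) :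
    Reg Q (∏ j ∈ s, u j ^ n j) ∧ ¬ Van Q (∏ j ∈ s, u j ^ n j) := by
  classical
  induction s using Finset.induction_on with
  | empty => simpa using ⟨reg_one Q, not_van_one Q⟩
  | insert a s ha ih =>
    rw [Finset.prod_insert ha]
    have h1 := ih fun j hj => h j (Finset.mem_insert_of_mem hj)
    have h2 := h a (Finset.mem_insert_self a s)
    have h3 : Reg Q (u a ^ n a) := h2.1.pow Q _
    refine ⟨h3.mul Q h1.1, ?_⟩
    rw [van_mul_iff Q h3 h1.1, not_or]
    refine ⟨?_, h1.2⟩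
    rcases Nat.eq_zero_or_pos (n a) with h0 | h0
    · rw [h0, pow_zero]
      exact not_van_one Q
    · rw [van_pow_iff Q h0.ne']
      exact h2.2

/-- helper for `IsCenIn.val_red`: a zero of `g` kills a pole of `f`. -/
theorem reg_mul_pow_of_van {Ω 𝕃 : Type*} [Field Ω] [Field 𝕃] [Algebra Ω 𝕃] (v : Place Ω 𝕃)
    {f g : 𝕃} (hg : Van v g) : Reg v (f * g ^ (-(v.ord f)).toNat) := by
  rcases eq_or_ne f 0 with rfl | hf
  · rw [zero_mul]
    exact reg_zero v
  rcases eq_or_ne g 0 with rfl | hg0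
  · rcases Nat.eq_zero_or_pos (-(v.ord f)).toNat with h0 | h0
    · rw [h0, pow_zero, mul_one, reg_iff_ord]
      omega
    · rw [zero_pow h0.ne', mul_zero]
      exact reg_zero v
  have h1 := ord_pos_of_van v hg hg0
  rw [reg_iff_ord, v.ord_mul hf (pow_ne_zero _ hg0), Fermat.Agent.S24.FF.ord_pow]
  have h2 : ((-(v.ord f)).toNat : ℤ) ≤ ((-(v.ord f)).toNat : ℤ) * v.ord g :=
    le_mul_of_one_le_right (Int.natCast_nonneg _) h1
  have h3 : -(v.ord f) ≤ ((-(v.ord f)).toNat : ℤ) := Int.self_le_toNat _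
  omega

/-- **(EV) in one chart, one residue class.**  `f ∈ O` without poles on the residue class of `Q`.
Proof.  `c = val Q yt`.  The poles `v'` of `f` in the disc of `c` are finitely many and have centres `Q' ≠ Q` over `c`;
`g_{v'} = Z_{Q'} - Z_{Q'}(v')` (`exists_unif`, `IsPreChart.localEq`) has a simple zero at `v'`, no other zero in the disc, is in `B_A(y)`,
and reduces to `Zt_{Q'}`, which is a unit at `Q`.  Apply `IsPreChart.val_red_eq` to `f ∏ g_{v'} ^ (-ord_{v'} f)` and to the `g_{v'}`. -/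
theorem IsCenIn.val_red (hc : IsChart V y yt) {f : F} {ft : Ft} (hf : V.Red f ft) {Q : Place k Ft}
    (hreg : ∀ v : Place K F, IsCenIn V y yt v Q → Reg v f) (hQ : Reg Q yt) :
    Reg Q ft ∧ ∀ v : Place K F, IsCenIn V y yt v Q → val v f ∈ A ∧ res π (val v f) = val Q ft := by
  classical
  have pc := hc.pre
  set c : k := val Q yt with hcdef
  have hQc : Over yt c Q := ⟨hQ, rfl⟩
  -- the poles of `f` in the disc of `c`
  have hfin : {v : Place K F | InDisc π y c v ∧ ¬ Reg v f}.Finite := by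
    rcases eq_or_ne f 0 with rfl | hf0
    · refine Set.Finite.subset Set.finite_empty ?_
      rintro v ⟨-, hv⟩
      exact absurd (reg_zero v) hv
    · refine (finite_ord_ne_zero (Ω := K) hf0).subset ?_
      rintro v ⟨-, hv⟩
      rw [reg_iff_ord] at hv
      show v.ord f ≠ 0
      omega
  set S : Finset (Place K F) := hfin.toFinset with hS
  have hSmem : ∀ v, v ∈ S ↔ InDisc π y c v ∧ ¬ Reg v f := fun v => by
    rw [hS, Set.Finite.mem_toFinset]; rfl
  have hex : ∀ v : Place K F, ∃ (g : F) (gt : Ft), v ∈ S →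
      (IntA A y g ∧ V.Red g gt ∧ Van v g ∧ Reg Q gt ∧ ¬ Van Q gt) := by
    intro v
    by_cases hv : v ∈ S
    · obtain ⟨g, gt, h⟩ := exists_van_unit_away hc hQc ((hSmem v).1 hv).1
        (fun hcen => ((hSmem v).1 hv).2 (hreg v hcen))
      exact ⟨g, gt, fun _ => h⟩
    · exact ⟨0, 0, fun h => absurd h hv⟩
  choose g gt hg using hex
  set n : Place K F → ℕ := fun v => (-(v.ord f)).toNat with hn
  set P : F := ∏ v ∈ S, g v ^ n v with hP
  set Pt : Ft := ∏ v ∈ S, gt v ^ n v with hPt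
  have hPint : IntA A y P := intA_prod S _ fun v hv => (hg v hv).1.pow _
  have hPred : V.Red P Pt := V.red_prod S _ _ fun v hv => (hg v hv).2.1.pow _
  have hPunit : Reg Q Pt ∧ ¬ Van Q Pt :=
    reg_not_van_prod_pow Q S gt n fun v hv => ⟨(hg v hv).2.2.2.1, (hg v hv).2.2.2.2⟩
  have hPt0 : Pt ≠ 0 := by
    intro h0
    exact hPunit.2 (h0 ▸ van_zero Q)
  have hvalPt : val Q Pt ≠ 0 := by
    rw [Ne, val_eq_zero_iff Q hPunit.1]
    exact hPunit.2
  -- `f P` has no pole in the disc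
  have hregP : ∀ v : Place K F, InDisc π y c v → Reg v (f * P) := by
    intro v hv
    by_cases hvS : v ∈ S
    · rw [hP, ← Finset.mul_prod_erase S _ hvS, ← mul_assoc]
      refine (reg_mul_pow_of_van v (hg v hvS).2.2.1).mul v ?_
      exact reg_prod v _ _ fun w hw =>
        (((hg w (Finset.mem_of_mem_erase hw)).1.reg hv.1).pow v _)
    · have hvf : Reg v f := by
        by_contra hcon
        exact hvS ((hSmem v).2 ⟨hv, hcon⟩)
      exact hvf.mul v (hPint.reg hv.1)
  have hfP : V.Red (f * P) (ft * Pt) := hf.mul hPred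
  have hregQ : Reg Q (ft * Pt) := pc.reg_red hfP c hregP hQc
  have hregft : Reg Q ft := by
    have h1 := hregQ.mul Q (reg_inv_of_not_van Q hPunit.2)
    rwa [mul_inv_cancel_right₀ hPt0] at h1
  refine ⟨hregft, fun v hv => ?_⟩
  have hvd : InDisc π y c v := ⟨hv.1, (hv.2.2 y yt intA_self hc.red_y).symm⟩
  obtain ⟨-, hA, hval⟩ := pc.val_red_eq hfP c hregP hvd hQc hv.2.2
  have hvf : Reg v f := hreg v hv
  have hvP : Reg v P := hPint.reg hv.1
  have hresP : res π (val v P) = val Q Pt := (hv.2.2 P Pt hPint hPred).symm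
  have hresP0 : res π (val v P) ≠ 0 := by rw [hresP]; exact hvalPt
  obtain ⟨hPA, hPinvA⟩ := inv_mem_of_res_ne_zero V.π_surjective hresP0
  have hvP0 : val v P ≠ 0 := by
    intro h0
    rw [h0] at hresP0
    exact hresP0 (by rw [res_of_mem (zero_mem A)]; exact map_zero π)
  rw [val_mul v hvf hvP] at hA hval
  have hfA : val v f ∈ A := by
    have h1 := mul_mem hA hPinvA
    rwa [mul_inv_cancel_right₀ hvP0] at h1
  refine ⟨hfA, ?_⟩
  rw [val_mul Q hregft hPunit.1, res_mul hfA hPA, hresP] at hval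
  exact (mul_right_cancel₀ hvalPt hval).symm

/-! ### two charts -/

theorem Good.yt_ne_zero (hG : Good V y yt) : yt ≠ 0 := by
  rintro rfl
  exact hG.h₀.trans (by simpa using isAlgebraic_algebraMap (R := k) (A := Ft) (0 : k))

theorem Good.y_ne_zero (hG : Good V y yt) : y ≠ 0 := hG.h₀.red_y.ne_zero hG.yt_ne_zero

theorem Good.symm (hG : Good V y yt) : Good V y⁻¹ yt⁻¹ :=
  ⟨hG.h₁, by rw [inv_inv, inv_inv]; exact hG.h₀⟩

/-- the two cases of `IsCen` exclude each other (`y ≠ 0` is needed: for `y = 0` both hold). -/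
theorem not_inChart_of_inDisc_inv {v : Place K F} (h : InDisc π y⁻¹ 0 v)
    (hπ : Function.Surjective π) (hy : y ≠ 0) : ¬ InChart A y v := by
  rintro ⟨hreg, hA⟩
  have h1 : val v y⁻¹ = (val v y)⁻¹ := val_inv v hreg
  have h2 : (val v y)⁻¹ ∈ A.nonunits := by
    rw [← h1]
    exact (res_eq_zero_iff hπ h.1.2).mp h.2
  by_cases hc : val v y = 0
  · exact not_reg_inv_of_van v ((val_eq_zero_iff v hreg).mp hc) hy h.1.1
  · rw [ValuationSubring.mem_nonunits_iff, map_inv₀] at h2
    rw [← A.valuation_le_one_iff] at hA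
    have h3 : A.valuation (val v y) ≠ 0 := (Valuation.ne_zero_iff _).mpr hc
    exact absurd hA (not_le.mpr ((inv_lt_one₀ (zero_lt_iff.mpr h3)).mp h2))

/-- If `v` lies in both charts (`y(v)` a unit of `A`) the two centres agree.
Proof.  Let `Q` be the centre in the chart `y`, `c = res (y(v)) ≠ 0`, so `yt` is a unit at `Q` and `Reg Q yt⁻¹`.
For `b` integral over `A[y⁻¹]`, of degree `n`: `b y ^ N` is integral over `A[y]` for `N` large (multiply the equation by `y ^ (nN)`;
or use `IsPreChart.sat`: `b y^N ∈ O` and it has no pole where `y` is regular), so `val Q (bt yt^N) = res ((b y^N)(v))`; divide by `c ^ N`.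
Then `IsCenIn.unique` in the chart `y⁻¹`. -/
theorem IsCenIn.inv (hG : Good V y yt) {v : Place K F} {Q : Place k Ft} (h : IsCenIn V y yt v Q)
    (hv : InChart A y⁻¹ v) : IsCenIn V y⁻¹ yt⁻¹ v Q := by
  have hπ := V.π_surjective
  have hy0 := hG.y_ne_zero
  have hnv : ¬ Van v y := fun hvan => not_reg_inv_of_van v hvan hy0 hv.1
  have hc0 : val v y ≠ 0 := fun h0 => hnv ((val_eq_zero_iff v h.1.1).mp h0)
  have hinv : val v y⁻¹ = (val v y)⁻¹ := val_inv v h.1.1
  have hres : res π (val v y) ≠ 0 := by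
    intro h0
    have h1 : res π (val v y * (val v y)⁻¹) = 0 := by
      rw [res_mul h.1.2 (hinv ▸ hv.2), h0, zero_mul]
    rw [mul_inv_cancel₀ hc0, res_one] at h1
    exact one_ne_zero h1
  have hQy : val Q yt = res π (val v y) := h.2.2 y yt intA_self hG.h₀.red_y
  have hnQ : ¬ Van Q yt := fun hvan => hres (by rw [← hQy]; exact val_eq_zero_of_van Q hvan)
  refine ⟨hv, reg_inv_of_not_van Q hnQ, fun b bt hb hbt => ?_⟩
  refine (hG.h₀.pre.val_red_eq hbt (res π (val v y)) (fun v' hv' => ?_) ⟨h.1, rfl⟩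
    ⟨h.2.1, hQy⟩ h.2.2).2.2
  have hnv' : ¬ Van v' y := by
    intro hvan
    apply hres
    rw [← hv'.2, val_eq_zero_of_van v' hvan, res_zero]
  exact hb.intK.reg v' (reg_inv_of_not_van v' hnv')

theorem exists_isCen (hG : Good V y yt) (v : Place K F) : ∃ Q : Place k Ft, IsCen V y yt v Q := by
  rcases inChart_or_inDisc_inv V.π_surjective y v with hv | hv
  · obtain ⟨Q, hQ⟩ := exists_isCenIn hG.h₀.pre hv
    exact ⟨Q, Or.inl hQ⟩
  · obtain ⟨Q, hQ⟩ := exists_isCenIn hG.h₁.pre hv.1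
    exact ⟨Q, Or.inr ⟨hv, hQ⟩⟩

theorem IsCen.unique (hG : Good V y yt) {v : Place K F} {Q Q' : Place k Ft}
    (h : IsCen V y yt v Q) (h' : IsCen V y yt v Q') : Q = Q' := by
  rcases h with h | ⟨hd, h⟩ <;> rcases h' with h' | ⟨hd', h'⟩
  · exact h.unique hG.h₀ h'
  · exact absurd h.1 (not_inChart_of_inDisc_inv hd' V.π_surjective hG.y_ne_zero)
  · exact absurd h'.1 (not_inChart_of_inDisc_inv hd V.π_surjective hG.y_ne_zero)
  · exact h.unique hG.h₁ h'

/-- **The reduction map on places.** -/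
noncomputable def rP (hG : Good V y yt) (v : Place K F) : Place k Ft := (exists_isCen hG v).choose

theorem isCen_rP (hG : Good V y yt) (v : Place K F) : IsCen V y yt v (rP hG v) :=
  (exists_isCen hG v).choose_spec

theorem rP_eq_iff (hG : Good V y yt) {v : Place K F} {Q : Place k Ft} :
    rP hG v = Q ↔ IsCen V y yt v Q :=
  ⟨fun h => h ▸ isCen_rP hG v, fun h => (isCen_rP hG v).unique hG h⟩

/-- `yt` is regular at `rP v` iff `v` lies in the chart `y`. -/
theorem reg_rP_iff (hG : Good V y yt) (v : Place K F) : Reg (rP hG v) yt ↔ InChart A y v := by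
  rcases isCen_rP hG v with h | ⟨hd, h⟩
  · exact ⟨fun _ => h.1, fun _ => h.2.1⟩
  · have h1 : ¬ InChart A y v := not_inChart_of_inDisc_inv hd V.π_surjective hG.y_ne_zero
    have h2 : val (rP hG v) yt⁻¹ = 0 := by
      rw [h.2.2 y⁻¹ yt⁻¹ intA_self hG.h₁.red_y, hd.2]
    have h3 : Van (rP hG v) yt⁻¹ := (val_eq_zero_iff _ h.2.1).mp h2
    have h4 : ¬ Reg (rP hG v) yt := by
      have := not_reg_inv_of_van _ h3 (inv_ne_zero hG.yt_ne_zero)
      rwa [inv_inv] at this
    exact ⟨fun h => absurd h h4, fun h => absurd h h1⟩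

theorem isCenIn_rP (hG : Good V y yt) {v : Place K F} (hv : InChart A y v) :
    IsCenIn V y yt v (rP hG v) := by
  rcases isCen_rP hG v with h | ⟨hd, -⟩
  · exact h
  · exact absurd hv (not_inChart_of_inDisc_inv hd V.π_surjective hG.y_ne_zero)

theorem isCenIn_inv_rP (hG : Good V y yt) {v : Place K F} (hv : InChart A y⁻¹ v) :
    IsCenIn V y⁻¹ yt⁻¹ v (rP hG v) := by
  rcases isCen_rP hG v with h | ⟨-, h⟩
  · exact h.inv hG hv
  · exact h

theorem rP_surjective (hG : Good V y yt) : Function.Surjective (rP hG) := by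
  intro Q
  rcases reg_or_reg_inv Q yt with hQ | hQ
  · obtain ⟨v, hv⟩ := exists_isCenIn_of_reg hG.h₀ hQ
    exact ⟨v, (rP_eq_iff hG).mpr (Or.inl hv)⟩
  · obtain ⟨v, hv⟩ := exists_isCenIn_of_reg hG.h₁ hQ
    refine ⟨v, (rP_eq_iff hG).mpr ?_⟩
    rcases inChart_or_inDisc_inv V.π_surjective y v with h | h
    · left
      have := hv.inv hG.symm (by rw [inv_inv]; exact h)
      rwa [inv_inv, inv_inv] at this
    · exact Or.inr ⟨h, hv⟩

/-- (helper, `G0-Cen-Glob`) every class of `rP` is the class of a centre in one of the two charts. -/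
theorem rP_eq_iff_isCenIn (hG : Good V y yt) (Q : Place k Ft) :
    (Reg Q yt ∧ ∀ v : Place K F, rP hG v = Q ↔ IsCenIn V y yt v Q) ∨
      (Reg Q yt⁻¹ ∧ ∀ v : Place K F, rP hG v = Q ↔ IsCenIn V y⁻¹ yt⁻¹ v Q) := by
  by_cases hQ : Reg Q yt
  · refine Or.inl ⟨hQ, fun v => ⟨?_, ?_⟩⟩
    · rintro rfl
      exact isCenIn_rP hG ((reg_rP_iff hG v).1 hQ)
    · intro h
      exact (isCenIn_rP hG h.1).unique hG.h₀ h
  · refine Or.inr ⟨(reg_or_reg_inv Q yt).resolve_left hQ, fun v => ⟨?_, ?_⟩⟩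
    · rintro rfl
      have h1 : ¬ InChart A y v := fun h => hQ ((reg_rP_iff hG v).2 h)
      have h2 : InDisc π y⁻¹ 0 v := (inChart_or_inDisc_inv V.π_surjective y v).resolve_left h1
      exact isCenIn_inv_rP hG h2.1
    · intro h
      exact (isCenIn_inv_rP hG h.1).unique hG.h₁ h

/-- (helper, `G0-Cen-Glob`) (GR) for a class which is described in the chart `z`. -/
theorem ord_red_aux (hG : Good V y yt) {z : F} {zt : Ft} (hc : IsChart V z zt) {Q : Place k Ft}
    (H : ∀ v : Place K F, rP hG v = Q ↔ IsCenIn V z zt v Q) {W : F} {Wt : Ft} (hW : V.Red W Wt)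
    (hWt : Wt ≠ 0) : Q.ord Wt = ∑ᶠ (v : Place K F) (_ : rP hG v = Q), v.ord W := by
  obtain ⟨v₀, hv₀⟩ := rP_surjective hG Q
  have h₀ : IsCenIn V z zt v₀ Q := (H v₀).1 hv₀
  rw [h₀.ord_red hc hW hWt]
  have hiff : ∀ v : Place K F, Rel A z v v₀ ↔ rP hG v = Q := by
    intro v
    constructor
    · intro hrel
      obtain ⟨Q', hQ'⟩ := exists_isCenIn hc.pre hrel.1
      have h1 : Q' = Q := (hQ'.rel_iff hc h₀).1 hrel
      rw [h1] at hQ'
      exact (H v).2 hQ'
    · intro hv
      exact (((H v).1 hv).rel_iff hc h₀).2 rfl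
  simp only [hiff]

/-- **(GR)** specialisation of principal divisors. -/
theorem ord_red (hG : Good V y yt) {W : F} {Wt : Ft} (hW : V.Red W Wt) (hWt : Wt ≠ 0)
    (Q : Place k Ft) : Q.ord Wt = ∑ᶠ (v : Place K F) (_ : rP hG v = Q), v.ord W := by
  rcases rP_eq_iff_isCenIn hG Q with ⟨-, H⟩ | ⟨-, H⟩
  · exact ord_red_aux hG hG.h₀ H hW hWt
  · exact ord_red_aux hG hG.h₁ H hW hWt

/-- **(EV)** evaluation commutes with reduction. -/
theorem val_red (hG : Good V y yt) {f : F} {ft : Ft} (hf : V.Red f ft) {Q : Place k Ft}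
    (hreg : ∀ v : Place K F, rP hG v = Q → Reg v f) :
    Reg Q ft ∧ ∀ v : Place K F, rP hG v = Q → val v f ∈ A ∧ res π (val v f) = val Q ft := by
  rcases rP_eq_iff_isCenIn hG Q with ⟨hQ, H⟩ | ⟨hQ, H⟩
  · obtain ⟨h1, h2⟩ := IsCenIn.val_red hG.h₀ hf (fun v hv => hreg v ((H v).2 hv)) hQ
    exact ⟨h1, fun v hv => h2 v ((H v).1 hv)⟩
  · obtain ⟨h1, h2⟩ := IsCenIn.val_red hG.h₁ hf (fun v hv => hreg v ((H v).2 hv)) hQ
    exact ⟨h1, fun v hv => h2 v ((H v).1 hv)⟩

/-- A Gauss unit without zeros and poles on the class of `Q` has unit values there. -/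
theorem ord_red_eq_zero (hG : Good V y yt) {f : F} {ft : Ft} (hf : V.Red f ft) (hft : ft ≠ 0)
    {Q : Place k Ft} (h : ∀ v : Place K F, rP hG v = Q → v.ord f = 0) : Q.ord ft = 0 := by
  rw [ord_red hG hf hft Q]
  refine finsum_eq_zero_of_forall_eq_zero fun v => ?_
  by_cases hv : rP hG v = Q
  · simp [hv, h v hv]
  · simp [hv]

/-- (helper, `G0-Cen-Glob`) a sum of non-negative integers equal to `1` has exactly one non-zero term. -/
theorem finsum_mem_eq_one_aux {α : Type*} (s : Set α) (f : α → ℤ)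
    (hfin : (s ∩ Function.support f).Finite) (h0 : ∀ v ∈ s, 0 ≤ f v)
    (h1 : ∑ᶠ (v : α) (_ : v ∈ s), f v = 1) :
    ∃ v ∈ s, f v = 1 ∧ ∀ v' ∈ s, v' ≠ v → f v' = 0 := by
  classical
  rw [finsum_mem_eq_sum f hfin] at h1
  have hmem : ∀ v, v ∈ hfin.toFinset ↔ v ∈ s ∧ f v ≠ 0 := fun v => by simp
  have hne : hfin.toFinset.Nonempty := by
    by_contra hemp
    rw [Finset.not_nonempty_iff_eq_empty] at hemp
    rw [hemp, Finset.sum_empty] at h1
    exact zero_ne_one h1
  obtain ⟨v, hv⟩ := hne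
  have hvs := (hmem v).1 hv
  have hpos : 1 ≤ f v := by
    have := h0 v hvs.1
    have := hvs.2
    omega
  rw [← Finset.add_sum_erase _ _ hv] at h1
  have hnn : 0 ≤ ∑ x ∈ hfin.toFinset.erase v, f x :=
    Finset.sum_nonneg fun x hx => h0 x ((hmem x).1 (Finset.mem_of_mem_erase hx)).1
  have hz : ∑ x ∈ hfin.toFinset.erase v, f x = 0 := by omega
  refine ⟨v, hvs.1, by omega, fun v' hv' hne' => ?_⟩
  by_contra hf'
  have hv'm : v' ∈ hfin.toFinset.erase v := Finset.mem_erase.2 ⟨hne', (hmem v').2 ⟨hv', hf'⟩⟩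
  exact hf' ((Finset.sum_eq_zero_iff_of_nonneg
    fun x hx => h0 x ((hmem x).1 (Finset.mem_of_mem_erase hx)).1).1 hz v' hv'm)

/-- (helper, `G0-Cen-Glob`) `t - a` has exactly one zero on the class of `Q`, and it is simple. -/
theorem exists_simple_zero_aux (hG : Good V y yt) {t : F} {tt : Ft} (ht : V.Red t tt)
    {Q : Place k Ft} (hreg : ∀ v : Place K F, rP hG v = Q → Reg v t)
    (h1 : Q.ord (tt - algebraMap k Ft (val Q tt)) = 1) {a : K} (ha : a ∈ A)
    (hres : res π a = val Q tt) :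
    t - algebraMap K F a ≠ 0 ∧ ∃ v : Place K F, rP hG v = Q ∧ v.ord (t - algebraMap K F a) = 1 ∧
      ∀ v' : Place K F, rP hG v' = Q → v' ≠ v → v'.ord (t - algebraMap K F a) = 0 := by
  have hred : V.Red (t - algebraMap K F a) (tt - algebraMap k Ft (val Q tt)) := by
    have h2 := ht.sub (V.red_const ha)
    rwa [hres] at h2
  have hne : tt - algebraMap k Ft (val Q tt) ≠ 0 := by
    intro h0
    rw [h0, Place.ord_zero] at h1
    exact zero_ne_one h1
  have hW0 : t - algebraMap K F a ≠ 0 := hred.ne_zero hne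
  have hsum := ord_red hG hred hne Q
  rw [h1] at hsum
  obtain ⟨v, hv, hv1, hv2⟩ := finsum_mem_eq_one_aux {v : Place K F | rP hG v = Q}
    (fun v => v.ord (t - algebraMap K F a))
    ((finite_ord_ne_zero (Ω := K) hW0).subset fun v hv => hv.2)
    (fun v hv => (reg_iff_ord v).1 ((hreg v hv).sub v (reg_algebraMap v a))) hsum.symm
  exact ⟨hW0, v, hv, hv1, hv2⟩

/-- **Coordinates on a residue class.**  If `t ∈ O` has no pole on the class of `Q` and `tt - tt(Q)` has a simple zero at `Q`,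
then `v ↦ t(v)` is a bijection from the class of `Q` onto the residue class of `tt(Q)` in `A`.
Proof.  `t - a` reduces to `tt - tt(Q) ≠ 0`; by `ord_red` the orders of `t - a` on the class sum to `1`, and they are `≥ 0`. -/
theorem exists_unique_val (hG : Good V y yt) {t : F} {tt : Ft} (ht : V.Red t tt) {Q : Place k Ft}
    (hreg : ∀ v : Place K F, rP hG v = Q → Reg v t)
    (h1 : Q.ord (tt - algebraMap k Ft (val Q tt)) = 1) {a : K} (ha : a ∈ A)
    (hres : res π a = val Q tt) :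
    ∃! v : Place K F, rP hG v = Q ∧ val v t = a := by
  obtain ⟨hW0, v, hv, hv1, hv2⟩ := exists_simple_zero_aux hG ht hreg h1 ha hres
  refine ⟨v, ⟨hv, ?_⟩, ?_⟩
  · exact val_eq_of_van v (van_of_ord_pos v (by rw [hv1]; exact one_pos))
  · rintro v' ⟨hv', hval⟩
    by_contra hne
    have h2 : Van v' (t - algebraMap K F a) := (val_eq_iff v' (hreg v' hv')).1 hval
    have h3 := ord_pos_of_van v' h2 hW0
    rw [hv2 v' hv' hne] at h3
    exact lt_irrefl _ h3

/-- moreover the zero of `t - a` is simple. -/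
theorem ord_sub_val_eq_one (hG : Good V y yt) {t : F} {tt : Ft} (ht : V.Red t tt) {Q : Place k Ft}
    (hreg : ∀ v : Place K F, rP hG v = Q → Reg v t)
    (h1 : Q.ord (tt - algebraMap k Ft (val Q tt)) = 1) {v : Place K F} (hv : rP hG v = Q) :
    v.ord (t - algebraMap K F (val v t)) = 1 := by
  obtain ⟨-, h2⟩ := val_red hG ht hreg
  obtain ⟨ha, hres⟩ := h2 v hv
  obtain ⟨hW0, v₁, hv₁, hv1, hv2⟩ := exists_simple_zero_aux hG ht hreg h1 ha hres
  have h3 := ord_pos_of_van v (van_sub_val v (hreg v hv)) hW0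
  by_cases hne : v = v₁
  · subst hne
    exact hv1
  · rw [hv2 v hv hne] at h3
    exact absurd h3 (lt_irrefl _)

/-! ### divisors -/

/-- The reduction map on divisors. -/
noncomputable def rD (hG : Good V y yt) : Divisor K F →+ Divisor k Ft :=
  Finsupp.mapDomain.addMonoidHom (rP hG)

theorem rD_single (hG : Good V y yt) (v : Place K F) (n : ℤ) :
    rD hG (Finsupp.single v n) = Finsupp.single (rP hG v) n :=
  Finsupp.mapDomain_single

theorem rD_apply (hG : Good V y yt) (D : Divisor K F) (Q : Place k Ft) :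
    rD hG D Q = ∑ᶠ (v : Place K F) (_ : rP hG v = Q), D v := by
  classical
  have h1 : rD hG D Q = ∑ v ∈ D.support, if rP hG v = Q then D v else 0 := by
    show Finsupp.mapDomain (rP hG) D Q = _
    rw [Finsupp.mapDomain, Finsupp.sum_apply, Finsupp.sum]
    refine Finset.sum_congr rfl fun v _ => ?_
    rw [Finsupp.single_apply]
  rw [h1, ← Finset.sum_filter]
  symm
  refine finsum_mem_eq_sum_of_inter_support_eq (s := {v | rP hG v = Q}) _ ?_
  ext v
  simp only [Set.mem_inter_iff, Set.mem_ofPred_eq, Function.mem_support, Finset.coe_filter,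
    Finsupp.mem_support_iff]
  tauto

theorem degree_rD (hG : Good V y yt) (D : Divisor K F) :
    Divisor.degree (rD hG D) = Divisor.degree D := by
  induction D using Finsupp.induction_linear with
  | zero => simp
  | add D E hD hE => rw [map_add, map_add, map_add, hD, hE]
  | single v n =>
    rw [rD_single, Divisor.degree_single, Divisor.degree_single, deg_eq_one_of_isAlgClosed,
      deg_eq_one_of_isAlgClosed]

theorem rD_nonneg (hG : Good V y yt) {D : Divisor K F} (hD : ∀ v, 0 ≤ D v) (Q : Place k Ft) :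
    0 ≤ rD hG D Q := by
  rw [rD_apply]
  exact finsum_nonneg fun v => finsum_nonneg fun _ => hD v

/-- (GR), divisor form. -/
theorem rD_divisorOf (hG : Good V y yt) {W : F} {Wt : Ft} (hW : V.Red W Wt) (hWt : Wt ≠ 0) :
    rD hG (divisorOf W) = divisorOf Wt := by
  ext Q
  rw [rD_apply, divisorOf_apply, ord_red hG hW hWt Q]
  simp only [divisorOf_apply]

/-- principal divisors reduce to principal divisors. -/
theorem rD_mem_principal (hG : Good V y yt) {D : Divisor K F}
    (hD : D ∈ Divisor.principal (K := K) (F := F)) :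
    rD hG D ∈ Divisor.principal (K := k) (F := Ft) := by
  obtain ⟨f, hf, hDf⟩ := hD
  obtain ⟨c, g, hc, hg, hr⟩ := V.exists_scale' hf
  have hcF : algebraMap K F c ≠ 0 := (_root_.map_ne_zero _).2 hc
  have hD' : D = divisorOf (algebraMap K F c * f) := by
    ext v
    rw [divisorOf_apply, v.ord_mul hcF hf, Fermat.Agent.S24.FF.ord_algebraMap, zero_add, hDf v]
  rw [hD', rD_divisorOf hG hr hg]
  exact ⟨g, hg, fun Q => divisorOf_apply g Q⟩

/-- every divisor of `Ft` lifts. -/
theorem rD_surjective (hG : Good V y yt) : Function.Surjective (rD hG) := by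
  intro E
  induction E using Finsupp.induction_linear with
  | zero => exact ⟨0, map_zero _⟩
  | add D E hD hE =>
    obtain ⟨D', rfl⟩ := hD
    obtain ⟨E', rfl⟩ := hE
    exact ⟨D' + E', map_add _ _ _⟩
  | single Q n =>
    obtain ⟨v, rfl⟩ := rP_surjective hG Q
    exact ⟨Finsupp.single v n, rD_single hG v n⟩

end Fermat.Agent.S19.Geo0
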