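import Fermat.Agent.S19.Geo0.Semi

/-!
# S19 / Geo0 : the genus of the reduction equals the genus of the generic fibre

`IsGenus Ω 𝕃 g` : `g` is the genus in the sense of Riemann's theorem (`S26.exists_genus`; any characteristic).

Proof of `genus_eq` (no `H¹`, no Nakayama, no freeness of the chart rings).  `D∞ = poleDivisor y`, `D̃∞ = poleDivisor (Ω := k) yt = rD D∞`,
`L̃_m = L(m D̃∞)`, `Im_m = ImL V (m D∞) ⊆ L̃_m`.
(i)   (N2) for `y`: every `h ∈ L̃_m` lies in `Im_{m'}` for some `m' ≥ m`; (N2) for `y⁻¹` applied to `h yt^{-m}`: `yt^a h ∈ Im_{m+a}` for some `a`;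
(ii)  pencil: `L̃_{m+1} = L̃_m + yt L̃_m` for `m ≥ m₀` (Riemann's theorem + rank-nullity);
(iii) `Im_m ⊆ Im_{m+1}`, `yt Im_m ⊆ Im_{m+1}`;
(iv)  hence `Im_m = L̃_m` for `m ≫ 0`; `finrank_ImL` and Riemann's theorem on both sides give `g = gt`.
-/

set_option autoImplicit false
set_option linter.unusedSectionVars false

namespace Fermat.Agent.S19.Geo0

open AlgebraicCurve Fermat.Agent.S26 Fermat.Agent.S37.Red Polynomial IntermediateField

section FF

variable (Ω 𝕃 : Type*) [Field Ω] [Field 𝕃] [Algebra Ω 𝕃]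

/-- `g` is the genus of `𝕃/Ω` (Riemann's theorem). -/
def IsGenus (g : ℕ) : Prop :=
  (∀ D : Divisor Ω 𝕃, Divisor.degree D + 1 - g ≤ Module.finrank Ω (LSpace D)) ∧
    ∃ c : ℤ, ∀ D : Divisor Ω 𝕃, c ≤ Divisor.degree D →
      (Module.finrank Ω (LSpace D) : ℤ) = Divisor.degree D + 1 - g

variable {Ω 𝕃}

theorem exists_isGenus [IsAlgClosed Ω] [FF1 Ω 𝕃] : ∃ g : ℕ, IsGenus Ω 𝕃 g := by
  obtain ⟨g, c, h1, h2⟩ := exists_genus (Ω := Ω) (𝕃 := 𝕃) finrank_LSpace_zero_of_isAlgClosed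
  exact ⟨g, h1, c, h2⟩

/-- there are divisors of every degree (`nonempty_place`, `deg_eq_one_of_isAlgClosed`). -/
theorem IsGenus.unique [IsAlgClosed Ω] [FF1 Ω 𝕃] {g g' : ℕ} (h : IsGenus Ω 𝕃 g)
    (h' : IsGenus Ω 𝕃 g') : g = g' := by
  obtain ⟨-, c, hc⟩ := h
  obtain ⟨-, c', hc'⟩ := h'
  obtain ⟨v⟩ := nonempty_place (Ω := Ω) (𝕃 := 𝕃)
  have hd : Divisor.degree (Finsupp.single v (max c c') : Divisor Ω 𝕃) = max c c' := by
    rw [Divisor.degree_single, Fermat.Agent.S26.deg_eq_one_of_isAlgClosed]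
    simp
  have h1 := hc (Finsupp.single v (max c c')) (by rw [hd]; exact le_max_left _ _)
  have h2 := hc' (Finsupp.single v (max c c')) (by rw [hd]; exact le_max_right _ _)
  omega

variable [IsAlgClosed Ω] [FF1 Ω 𝕃]

/-- `f ∈ L(m (x)_∞)` iff `f` is regular where `x` is, and `ord_v f ≥ m ord_v x` at the poles of `x`. -/
theorem mem_LSpace_nsmul_poleDivisor {x f : 𝕃} (hf : f ≠ 0) (m : ℕ) :
    f ∈ LSpace (m • poleDivisor (Ω := Ω) x) ↔
      ∀ v : Place Ω 𝕃, (0 ≤ v.ord x → 0 ≤ v.ord f) ∧ (v.ord x < 0 → (m : ℤ) * v.ord x ≤ v.ord f) := by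
  rw [mem_LSpace]
  simp only [hf, false_or, Finsupp.smul_apply, poleDivisor_apply, nsmul_eq_mul]
  refine forall_congr' fun v => ?_
  rcases lt_or_ge (v.ord x) 0 with h | h
  · rw [max_eq_right (by omega)]
    constructor
    · intro h1
      exact ⟨fun h2 => by omega, fun _ => by linarith⟩
    · intro h1
      have := h1.2 h
      linarith
  · rw [max_eq_left (by omega)]
    constructor
    · intro h1
      exact ⟨fun _ => by simpa using h1, fun h2 => by omega⟩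
    · intro h1
      simpa using h1.1 h

theorem LSpace_nsmul_poleDivisor_mono (x : 𝕃) {m m' : ℕ} (h : m ≤ m') :
    LSpace (m • poleDivisor (Ω := Ω) x) ≤ LSpace (m' • poleDivisor (Ω := Ω) x) := by
  intro f hf
  rcases eq_or_ne f 0 with rfl | hf0
  · exact zero_mem _
  rw [mem_LSpace_nsmul_poleDivisor hf0] at hf ⊢
  intro v
  refine ⟨(hf v).1, fun hv => ?_⟩
  have h1 := (hf v).2 hv
  have h2 : (m : ℤ) ≤ m' := by exact_mod_cast h
  nlinarith

theorem mul_mem_LSpace_succ {x f : 𝕃} {m : ℕ} (hf : f ∈ LSpace (m • poleDivisor (Ω := Ω) x)) :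
    x * f ∈ LSpace ((m + 1) • poleDivisor (Ω := Ω) x) := by
  rcases eq_or_ne f 0 with rfl | hf0
  · rw [mul_zero]; exact zero_mem _
  rcases eq_or_ne x 0 with rfl | hx0
  · rw [zero_mul]; exact zero_mem _
  rw [mem_LSpace_nsmul_poleDivisor hf0] at hf
  rw [mem_LSpace_nsmul_poleDivisor (mul_ne_zero hx0 hf0)]
  intro v
  rw [v.ord_mul hx0 hf0]
  refine ⟨fun hv => ?_, fun hv => ?_⟩
  · have := (hf v).1 hv
    omega
  · have := (hf v).2 hv
    push_cast
    linarith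

/-- the kernel of `(a, b) ↦ a + x b` -/
theorem mem_LSpace_pred {x b : 𝕃} {m : ℕ} (hb : b ∈ LSpace ((m + 1) • poleDivisor (Ω := Ω) x))
    (hxb : x * b ∈ LSpace ((m + 1) • poleDivisor (Ω := Ω) x)) :
    b ∈ LSpace (m • poleDivisor (Ω := Ω) x) := by
  rcases eq_or_ne b 0 with rfl | hb0
  · exact zero_mem _
  rw [mem_LSpace_nsmul_poleDivisor hb0] at hb ⊢
  intro v
  refine ⟨(hb v).1, fun hv => ?_⟩
  have hx0 : x ≠ 0 := Fermat.Agent.S24.FF.ne_zero_of_ord_ne_zero v hv.ne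
  rw [mem_LSpace_nsmul_poleDivisor (mul_ne_zero hx0 hb0)] at hxb
  have := (hxb v).2 hv
  rw [v.ord_mul hx0 hb0] at this
  push_cast at this
  linarith

/-- linear algebra behind the pencil lemma. -/
theorem pencil_linAlg (x : 𝕃) (L₀ L₁ L₂ : Submodule Ω 𝕃) [Module.Finite Ω L₀] [Module.Finite Ω L₁]
    [Module.Finite Ω L₂]
    (h12 : L₁ ≤ L₂) (hx12 : ∀ b ∈ L₁, x * b ∈ L₂)
    (hker : ∀ b ∈ L₁, x * b ∈ L₁ → b ∈ L₀)
    (hdim : Module.finrank Ω L₂ + Module.finrank Ω L₀ ≤ 2 * Module.finrank Ω L₁)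
    {h : 𝕃} (hh : h ∈ L₂) : ∃ a ∈ L₁, ∃ b ∈ L₁, h = a + x * b := by
  set φ : (L₁ × L₁) →ₗ[Ω] 𝕃 :=
    L₁.subtype.coprod ((LinearMap.mulLeft Ω x) ∘ₗ L₁.subtype) with hφ
  have hφa : ∀ p : L₁ × L₁, φ p = (p.1 : 𝕃) + x * (p.2 : 𝕃) := fun p => by
    simp [hφ, LinearMap.coprod_apply]
  have hrange : LinearMap.range φ ≤ L₂ := by
    rintro _ ⟨p, rfl⟩
    rw [hφa]
    exact L₂.add_mem (h12 p.1.2) (hx12 _ p.2.2)
  -- the kernel injects into `L₀`
  have hkmem : ∀ p : LinearMap.ker φ, ((p : L₁ × L₁).2 : 𝕃) ∈ L₀ := by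
    intro p
    have h0 : φ (p : L₁ × L₁) = 0 := p.2
    rw [hφa] at h0
    apply hker _ (p : L₁ × L₁).2.2
    have : x * ((p : L₁ × L₁).2 : 𝕃) = -((p : L₁ × L₁).1 : 𝕃) := by linear_combination h0
    rw [this]
    exact L₁.neg_mem (p : L₁ × L₁).1.2
  set ψ : LinearMap.ker φ →ₗ[Ω] L₀ :=
    LinearMap.codRestrict L₀
      ((L₁.subtype ∘ₗ LinearMap.snd Ω L₁ L₁) ∘ₗ (LinearMap.ker φ).subtype) hkmem with hψ
  have hψinj : Function.Injective ψ := by
    intro p p' hpp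
    have h2 : ((p : L₁ × L₁).2 : 𝕃) = ((p' : L₁ × L₁).2 : 𝕃) :=
      congrArg (Subtype.val : L₀ → 𝕃) hpp
    have h0 : φ (p : L₁ × L₁) = 0 := p.2
    have h0' : φ (p' : L₁ × L₁) = 0 := p'.2
    rw [hφa] at h0 h0'
    apply Subtype.ext
    apply Prod.ext
    · apply Subtype.ext
      rw [h2] at h0
      linear_combination h0 - h0'
    · exact Subtype.ext h2
  have hk : Module.finrank Ω (LinearMap.ker φ) ≤ Module.finrank Ω L₀ :=
    LinearMap.finrank_le_finrank_of_injective hψinj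
  have hrn := LinearMap.finrank_range_add_finrank_ker φ
  rw [Module.finrank_prod] at hrn
  have hle : Module.finrank Ω L₂ ≤ Module.finrank Ω (LinearMap.range φ) := by omega
  have heq : LinearMap.range φ = L₂ := Submodule.eq_of_le_of_finrank_le hrange hle
  rw [← heq] at hh
  obtain ⟨p, rfl⟩ := hh
  exact ⟨p.1, p.1.2, p.2, p.2.2, hφa p⟩

/-- **(ii) Pencil lemma.**  `φ : L_m × L_m → L_{m+1}`, `(a, b) ↦ a + x b`; `ker φ ≅ {b ∈ L_m : x b ∈ L_m} = L_{m-1}`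
(`mem_LSpace_pred`, `mul_mem_LSpace_succ`); for `(m - 1) n ≥ c` (`n = deg (x)_∞ = [𝕃 : Ω(x)] > 0`, `S26.degree_poleDivisor`) Riemann's theorem gives
`dim (range φ) = 2 ℓ(m) - ℓ(m-1) = ℓ(m+1)`. -/
theorem exists_pencil {x : 𝕃} (hx : Transcendental Ω x) {g : ℕ} (hg : IsGenus Ω 𝕃 g) :
    ∃ m₀ : ℕ, ∀ m ≥ m₀, ∀ h ∈ LSpace ((m + 1) • poleDivisor (Ω := Ω) x),
      ∃ a ∈ LSpace (m • poleDivisor (Ω := Ω) x), ∃ b ∈ LSpace (m • poleDivisor (Ω := Ω) x),
        h = a + x * b := by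
  obtain ⟨-, c, hc⟩ := hg
  have hfd := finiteDimensional_adjoin_of_transcendental hx
  set n := Module.finrank Ω⟮x⟯ 𝕃 with hn
  have hnpos : 0 < n := Module.finrank_pos
  have hdeg : ∀ m : ℕ, Divisor.degree (m • poleDivisor (Ω := Ω) x) = (m : ℤ) * n := by
    intro m
    rw [map_nsmul, degree_poleDivisor hx, nsmul_eq_mul]
  refine ⟨c.toNat + 1, fun m hm h hh => ?_⟩
  obtain ⟨m', rfl⟩ : ∃ m', m = m' + 1 := ⟨m - 1, by omega⟩
  have hm' : c ≤ (m' : ℤ) := by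
    have := Int.self_le_toNat c
    omega
  have hcn : ∀ j : ℕ, m' ≤ j → c ≤ (j : ℤ) * n := by
    intro j hj
    have h1 : (1 : ℤ) ≤ n := by exact_mod_cast hnpos
    have h2 : (j : ℤ) * 1 ≤ (j : ℤ) * n := mul_le_mul_of_nonneg_left h1 (by positivity)
    have h3 : (m' : ℤ) ≤ j := by exact_mod_cast hj
    omega
  have hr : ∀ j : ℕ, m' ≤ j →
      (Module.finrank Ω (LSpace (j • poleDivisor (Ω := Ω) x)) : ℤ) = (j : ℤ) * n + 1 - g := by
    intro j hj
    rw [hc _ (by rw [hdeg]; exact hcn j hj), hdeg]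
  have := finite_LSpace (m' • poleDivisor (Ω := Ω) x)
  have := finite_LSpace ((m' + 1) • poleDivisor (Ω := Ω) x)
  have := finite_LSpace ((m' + 1 + 1) • poleDivisor (Ω := Ω) x)
  refine pencil_linAlg x (LSpace (m' • poleDivisor (Ω := Ω) x))
    (LSpace ((m' + 1) • poleDivisor (Ω := Ω) x)) (LSpace ((m' + 1 + 1) • poleDivisor (Ω := Ω) x))
    (LSpace_nsmul_poleDivisor_mono x (Nat.le_succ _)) (fun b hb => mul_mem_LSpace_succ hb)
    (fun b hb hxb => mem_LSpace_pred hb hxb) ?_ hh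
  have h0 := hr m' le_rfl
  have h1 := hr (m' + 1) (Nat.le_succ _)
  have h2 := hr (m' + 1 + 1) (by omega)
  push_cast at h0 h1 h2
  have : ((Module.finrank Ω (LSpace ((m' + 1 + 1) • poleDivisor (Ω := Ω) x))
      + Module.finrank Ω (LSpace (m' • poleDivisor (Ω := Ω) x)) : ℕ) : ℤ)
      ≤ ((2 * Module.finrank Ω (LSpace ((m' + 1) • poleDivisor (Ω := Ω) x)) : ℕ) : ℤ) := by
    push_cast
    rw [h0, h1, h2]
    apply le_of_eq
    ring
  exact_mod_cast this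

/-- iterate the pencil lemma: `L_{m₀+j} = ∑_{i ≤ j} x^i L_{m₀}`. -/
theorem exists_pencil_iter {x : 𝕃} {m₀ : ℕ}
    (H : ∀ m ≥ m₀, ∀ h ∈ LSpace ((m + 1) • poleDivisor (Ω := Ω) x),
      ∃ a ∈ LSpace (m • poleDivisor (Ω := Ω) x), ∃ b ∈ LSpace (m • poleDivisor (Ω := Ω) x),
        h = a + x * b)
    (j : ℕ) {h : 𝕃} (hh : h ∈ LSpace ((m₀ + j) • poleDivisor (Ω := Ω) x)) :
    ∃ a : ℕ → 𝕃, (∀ i, a i ∈ LSpace (m₀ • poleDivisor (Ω := Ω) x)) ∧
      h = ∑ i ∈ Finset.range (j + 1), x ^ i * a i := by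
  induction j generalizing h with
  | zero =>
    refine ⟨fun _ => h, fun _ => by simpa using hh, ?_⟩
    simp
  | succ j ih =>
    obtain ⟨a, ha, b, hb, rfl⟩ := H (m₀ + j) (Nat.le_add_right _ _) h hh
    obtain ⟨α, hα, rfl⟩ := ih ha
    obtain ⟨β, hβ, rfl⟩ := ih hb
    refine ⟨fun i => (if i < j + 1 then α i else 0) + (if i = 0 then 0 else β (i - 1)),
      fun i => ?_, ?_⟩
    · apply Submodule.add_mem
      · split_ifs
        · exact hα i
        · exact Submodule.zero_mem _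
      · split_ifs
        · exact Submodule.zero_mem _
        · exact hβ _
    · simp only [mul_add, Finset.sum_add_distrib]
      congr 1
      · rw [Finset.sum_range_succ (fun i => x ^ i * if i < j + 1 then α i else 0) (j + 1)]
        rw [if_neg (lt_irrefl _), mul_zero, add_zero]
        exact Finset.sum_congr rfl fun i hi => by rw [if_pos (Finset.mem_range.1 hi)]
      · rw [Finset.sum_range_succ' _ (j + 1)]
        simp only [if_true, mul_zero, add_zero, Nat.add_eq_zero_iff, one_ne_zero, and_false,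
          if_false, Nat.add_sub_cancel]
        rw [Finset.mul_sum]
        exact Finset.sum_congr rfl fun i _ => by rw [pow_succ]; ring

/-- the orders of a nonzero function are bounded. -/
theorem exists_natAbs_ord_le {f : 𝕃} (hf : f ≠ 0) :
    ∃ M : ℕ, ∀ v : Place Ω 𝕃, (v.ord f).natAbs ≤ M := by
  obtain ⟨M, hM⟩ := ((finite_ord_ne_zero (Ω := Ω) hf).image fun v => (v.ord f).natAbs).bddAbove
  refine ⟨M, fun v => ?_⟩
  by_cases hv : v.ord f = 0
  · simp [hv]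
  · exact hM ⟨v, hv, rfl⟩

/-- an element which is integral over `Ω[x]` lies in `L(m (x)_∞)` for `m` large
(poles only at the poles of `x` (`intK_iff_forall_reg`), finitely many (`finite_ord_ne_zero`), and `ord_v x ≤ -1` there). -/
theorem exists_mem_LSpace_of_intK {x f : 𝕃} (hf : IntK Ω x f) :
    ∃ m₁ : ℕ, ∀ m ≥ m₁, f ∈ LSpace (m • poleDivisor (Ω := Ω) x) := by
  rcases eq_or_ne f 0 with rfl | hf0
  · exact ⟨0, fun m _ => zero_mem _⟩
  obtain ⟨M, hM⟩ := exists_natAbs_ord_le (Ω := Ω) hf0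
  rw [intK_iff_forall_reg] at hf
  refine ⟨M, fun m hm => ?_⟩
  rw [mem_LSpace_nsmul_poleDivisor hf0]
  intro v
  refine ⟨fun hv => (reg_iff_ord v).1 (hf v ((reg_iff_ord v).2 hv)), fun hv => ?_⟩
  have h1 := hM v
  have h2 : (m : ℤ) * v.ord x ≤ (m : ℤ) * (-1) :=
    mul_le_mul_of_nonneg_left (by omega) (by positivity)
  omega

theorem intK_of_mem_LSpace {x f : 𝕃} {m : ℕ} (hf : f ∈ LSpace (m • poleDivisor (Ω := Ω) x)) :
    IntK Ω x f := by
  rw [intK_iff_forall_reg]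
  intro v hv
  rcases eq_or_ne f 0 with rfl | hf0
  · exact reg_zero v
  rw [mem_LSpace_nsmul_poleDivisor hf0] at hf
  exact (reg_iff_ord v).2 ((hf v).1 ((reg_iff_ord v).1 hv))

/-- `f ∈ L(m (x)_∞)` ⇒ `f x^{-m}` is integral over `Ω[x⁻¹]`. -/
theorem intK_inv_of_mem_LSpace {x f : 𝕃} {m : ℕ} (hf : f ∈ LSpace (m • poleDivisor (Ω := Ω) x)) :
    IntK Ω x⁻¹ (f * x⁻¹ ^ m) := by
  rw [intK_iff_forall_reg]
  intro v hv
  rcases eq_or_ne f 0 with rfl | hf0
  · rw [zero_mul]; exact reg_zero v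
  rw [mem_LSpace_nsmul_poleDivisor hf0] at hf
  rcases lt_or_ge (v.ord x) 0 with h | h
  · have hx0 : x ≠ 0 := Fermat.Agent.S24.FF.ne_zero_of_ord_ne_zero v h.ne
    rw [reg_iff_ord, v.ord_mul hf0 (pow_ne_zero _ (inv_ne_zero hx0)),
      Fermat.Agent.S24.FF.ord_pow, v.ord_inv]
    have := (hf v).2 h
    linarith
  · exact ((reg_iff_ord v).2 ((hf v).1 h)).mul v (pow_mem hv m)

/-- `b` integral over `Ω[x⁻¹]` ⇒ `b x^m ∈ L(m (x)_∞)` for `m` large. -/
theorem exists_mul_pow_mem_LSpace_of_intK_inv {x b : 𝕃} (hb : IntK Ω x⁻¹ b) :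
    ∃ m₁ : ℕ, ∀ m ≥ m₁, b * x ^ m ∈ LSpace (m • poleDivisor (Ω := Ω) x) := by
  rcases eq_or_ne b 0 with rfl | hb0
  · exact ⟨0, fun m _ => by rw [zero_mul]; exact zero_mem _⟩
  rcases eq_or_ne x 0 with rfl | hx0
  · refine ⟨1, fun m hm => ?_⟩
    rw [zero_pow (by omega), mul_zero]
    exact zero_mem _
  obtain ⟨M, hM⟩ := exists_natAbs_ord_le (Ω := Ω) hb0
  rw [intK_iff_forall_reg] at hb
  refine ⟨M, fun m hm => ?_⟩
  rw [mem_LSpace_nsmul_poleDivisor (mul_ne_zero hb0 (pow_ne_zero _ hx0))]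
  intro v
  rw [v.ord_mul hb0 (pow_ne_zero _ hx0), Fermat.Agent.S24.FF.ord_pow]
  have hreg : v.ord x ≤ 0 → 0 ≤ v.ord b := fun h =>
    (reg_iff_ord v).1 (hb v ((reg_iff_ord v).2 (by rw [v.ord_inv]; omega)))
  refine ⟨fun hv => ?_, fun hv => ?_⟩
  · rcases hv.eq_or_lt with h | h
    · have := hreg h.symm.le
      rw [← h]
      simpa using this
    · have h1 := hM v
      have h2 : (m : ℤ) * 1 ≤ (m : ℤ) * v.ord x :=
        mul_le_mul_of_nonneg_left (by omega) (by positivity)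
      omega
  · have := hreg hv.le
    linarith

end FF

variable {K k : Type*} [Field K] [Field k] {A : ValuationSubring K} {π : A →+* k}
variable {F Ft : Type*} [Field F] [Field Ft] [Algebra K F] [Algebra k Ft]
variable [IsAlgClosed K] [FF1 K F] [IsAlgClosed k] [FF1 k Ft]
variable {V : VFF A π F Ft} {y : F} {yt : Ft}

/-- `IntA` implies `IntK` (map the monic polynomial along `A[X] → K[X]`). -/
theorem intK_of_intA {b : F} (hb : IntA A y b) : IntK K y b := by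
  exact hb.intK

/-- `rD (y)_∞ = (yt)_∞`.  By `rD_apply`, `ord_red` for `W = y`, and `reg_rP_iff`: if `yt` is regular at `Q` no `v` over `Q` is a pole of `y`;
if `Q` is a pole of `yt` then every `v` over `Q` has `ord_v y ≤ 0` (`y⁻¹` is regular at `v`). -/
theorem rD_poleDivisor (hG : Good V y yt) : rD hG (poleDivisor (Ω := K) y) = poleDivisor (Ω := k) yt := by
  have hyt0 : yt ≠ 0 := by
    rintro rfl
    exact hG.h₀.trans isAlgebraic_zero
  classical
  ext Q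
  rw [rD_apply, poleDivisor_apply]
  by_cases hQ : Reg Q yt
  · have h1 : 0 ≤ Q.ord yt := (reg_iff_ord Q).1 hQ
    rw [max_eq_left (by omega)]
    refine finsum_eq_zero_of_forall_eq_zero fun v => ?_
    rw [finsum_eq_if]
    split_ifs with hv
    · have h2 : InChart A y v := (reg_rP_iff hG v).1 (by rw [hv]; exact hQ)
      have h3 : 0 ≤ v.ord y := (reg_iff_ord v).1 h2.1
      rw [poleDivisor_apply, max_eq_left (by omega)]
    · rfl
  · have h1 : Q.ord yt < 0 := by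
      by_contra hcon
      exact hQ ((reg_iff_ord Q).2 (not_lt.mp hcon))
    rw [max_eq_right (by omega), ord_red hG hG.h₀.red_y hyt0 Q, ← finsum_neg_distrib]
    refine finsum_congr fun v => ?_
    rw [finsum_eq_if, finsum_eq_if]
    split_ifs with hv
    · have h2 : ¬ InChart A y v := fun h => hQ (by rw [← hv]; exact (reg_rP_iff hG v).2 h)
      have h3 : v.ord y ≤ 0 := by
        by_contra hcon
        have hvan : Van v y := van_of_ord_pos v (not_le.mp hcon)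
        refine h2 ⟨hvan.reg, ?_⟩
        rw [val_eq_zero_of_van v hvan]
        exact A.zero_mem
      rw [poleDivisor_apply, max_eq_right (by omega)]
    · exact neg_zero.symm

theorem ImL_nsmul_le (hG : Good V y yt) (m : ℕ) :
    ImL V (m • poleDivisor (Ω := K) y) ≤ LSpace (m • poleDivisor (Ω := k) yt) := by
  have h := ImL_le hG (m • poleDivisor (Ω := K) y)
  rwa [map_nsmul, rD_poleDivisor hG] at h

/-- (iii) -/
theorem mul_mem_ImL_succ (hG : Good V y yt) {m : ℕ} {h : Ft} (hh : h ∈ ImL V (m • poleDivisor (Ω := K) y)) :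
    yt * h ∈ ImL V ((m + 1) • poleDivisor (Ω := K) y) := by
  obtain ⟨f, hf, hfh⟩ := hh
  exact ⟨y * f, mul_mem_LSpace_succ hf, hG.h₀.red_y.mul hfh⟩

theorem pow_mul_mem_ImL (hG : Good V y yt) {m : ℕ} {h : Ft} (hh : h ∈ ImL V (m • poleDivisor (Ω := K) y))
    (i : ℕ) : yt ^ i * h ∈ ImL V ((m + i) • poleDivisor (Ω := K) y) := by
  induction i with
  | zero => simpa using hh
  | succ i ih =>
    have h1 := mul_mem_ImL_succ hG ih
    rw [← mul_assoc, ← pow_succ'] at h1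
    exact h1

theorem ImL_nsmul_mono {m m' : ℕ} (h : m ≤ m') :
    ImL V (m • poleDivisor (Ω := K) y) ≤ ImL V (m' • poleDivisor (Ω := K) y) := by
  rintro ft ⟨f, hf, hft⟩
  exact ⟨f, LSpace_nsmul_poleDivisor_mono y h hf, hft⟩

/-- (i), chart `y`: `intK_of_mem_LSpace`, `hG.h₀.normal`, `intK_of_intA`, `exists_mem_LSpace_of_intK`. -/
theorem exists_mem_ImL (hG : Good V y yt) {m : ℕ} {h : Ft} (hh : h ∈ LSpace (m • poleDivisor (Ω := k) yt)) :
    ∃ m₁ : ℕ, ∀ m' ≥ m₁, h ∈ ImL V (m' • poleDivisor (Ω := K) y) := by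
  obtain ⟨b, hb, hbh⟩ := hG.h₀.normal h (intK_of_mem_LSpace hh)
  obtain ⟨m₁, hm₁⟩ := exists_mem_LSpace_of_intK (intK_of_intA hb)
  exact ⟨m₁, fun m' hm' => ⟨b, hm₁ m' hm', hbh⟩⟩

/-- (i), chart `y⁻¹`: `intK_inv_of_mem_LSpace`, `hG.h₁.normal` gives `b'` integral over `A[y⁻¹]` reducing to `h yt^{-m}`;
`b' y^{m+a} ∈ L((m+a) (y)_∞)` for `a` large (`exists_mul_pow_mem_LSpace_of_intK_inv`) and it reduces to `yt^a h` (`yt ≠ 0`). -/
theorem exists_pow_mul_mem_ImL (hG : Good V y yt) {m : ℕ} {h : Ft}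
    (hh : h ∈ LSpace (m • poleDivisor (Ω := k) yt)) :
    ∃ a₁ : ℕ, ∀ a ≥ a₁, yt ^ a * h ∈ ImL V ((m + a) • poleDivisor (Ω := K) y) := by
  have hyt0 : yt ≠ 0 := by
    rintro rfl
    exact hG.h₀.trans isAlgebraic_zero
  obtain ⟨b, hb, hbh⟩ := hG.h₁.normal _ (intK_inv_of_mem_LSpace hh)
  obtain ⟨m₁, hm₁⟩ := exists_mul_pow_mem_LSpace_of_intK_inv (intK_of_intA hb)
  refine ⟨m₁, fun a ha => ⟨b * y ^ (m + a), hm₁ (m + a) (by omega), ?_⟩⟩
  have h1 := hbh.mul (hG.h₀.red_y.pow (m + a))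
  have h2 : h * yt⁻¹ ^ m * yt ^ (m + a) = yt ^ a * h := by
    rw [pow_add, inv_pow]
    field_simp
  rwa [h2] at h1

/-- uniform version on the finite dimensional space `L̃_m` (take a basis, `finite_LSpace`; `ImL` is a submodule). -/
theorem exists_uniform (hG : Good V y yt) (m : ℕ) :
    ∃ a : ℕ, ∀ h ∈ LSpace (m • poleDivisor (Ω := k) yt),
      h ∈ ImL V ((m + a) • poleDivisor (Ω := K) y) ∧ yt ^ a * h ∈ ImL V ((m + a) • poleDivisor (Ω := K) y) := by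
  classical
  have hfin := finite_LSpace (m • poleDivisor (Ω := k) yt)
  obtain ⟨s, hs⟩ := Module.Finite.iff_fg.1 hfin
  have hsL : ∀ x ∈ s, x ∈ LSpace (m • poleDivisor (Ω := k) yt) := fun x hx => by
    rw [← hs]
    exact Submodule.subset_span hx
  have h1 : ∀ x : Ft, ∃ m₁ : ℕ, x ∈ s → ∀ m' ≥ m₁, x ∈ ImL V (m' • poleDivisor (Ω := K) y) := by
    intro x
    by_cases hx : x ∈ s
    · obtain ⟨m₁, hm₁⟩ := exists_mem_ImL hG (hsL x hx)
      exact ⟨m₁, fun _ => hm₁⟩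
    · exact ⟨0, fun h => absurd h hx⟩
  have h2 : ∀ x : Ft, ∃ a₁ : ℕ, x ∈ s →
      ∀ a ≥ a₁, yt ^ a * x ∈ ImL V ((m + a) • poleDivisor (Ω := K) y) := by
    intro x
    by_cases hx : x ∈ s
    · obtain ⟨a₁, ha₁⟩ := exists_pow_mul_mem_ImL hG (hsL x hx)
      exact ⟨a₁, fun _ => ha₁⟩
    · exact ⟨0, fun h => absurd h hx⟩
  choose M₁ hM₁ using h1
  choose A₁ hA₁ using h2
  set a : ℕ := s.sup M₁ + s.sup A₁ with ha
  refine ⟨a, ?_⟩
  set W : Submodule k Ft := ImL V ((m + a) • poleDivisor (Ω := K) y) ⊓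
    (ImL V ((m + a) • poleDivisor (Ω := K) y)).comap (LinearMap.mulLeft k (yt ^ a)) with hW
  have hle : LSpace (m • poleDivisor (Ω := k) yt) ≤ W := by
    rw [← hs, Submodule.span_le]
    intro x hx
    have hx' : x ∈ s := hx
    have e1 : M₁ x ≤ s.sup M₁ := Finset.le_sup hx'
    have e2 : A₁ x ≤ s.sup A₁ := Finset.le_sup hx'
    exact ⟨hM₁ x hx' (m + a) (by omega), hA₁ x hx' a (by omega)⟩
  intro h hh
  exact hle hh

/-- **(iv)** `Im_m = L̃_m` for `m ≫ 0`.  With `m₀` from `exists_pencil` (on `Ft`, `x = yt`) and `a` from `exists_uniform hG m₀`, take `m₁ = m₀ + 2 a`: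
write `h ∈ L̃_{m₀+j}`, `j ≥ 2a`, as `∑_{i ≤ j} yt^i a_i` (`exists_pencil_iter`); if `i ≥ a`: `yt^i a_i = yt^{i-a} (yt^a a_i) ∈ Im_{m₀+i}`; if `i < a`:
`yt^i a_i ∈ Im_{m₀+a+i} ⊆ Im_{m₀+2a}`. -/
theorem exists_ImL_eq (hG : Good V y yt) :
    ∃ m₁ : ℕ, ∀ m ≥ m₁, ImL V (m • poleDivisor (Ω := K) y) = LSpace (m • poleDivisor (Ω := k) yt) := by
  obtain ⟨gt, hgt⟩ := exists_isGenus (Ω := k) (𝕃 := Ft)
  obtain ⟨m₀, hm₀⟩ := exists_pencil hG.h₀.trans hgt
  obtain ⟨a, ha⟩ := exists_uniform hG m₀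
  refine ⟨m₀ + 2 * a, fun m hm => le_antisymm (ImL_nsmul_le hG m) fun h hh => ?_⟩
  obtain ⟨j, rfl⟩ : ∃ j, m = m₀ + j := ⟨m - m₀, by omega⟩
  obtain ⟨c, hc, rfl⟩ := exists_pencil_iter hm₀ j hh
  refine Submodule.sum_mem _ fun i hi => ?_
  have hi' : i ≤ j := Nat.lt_succ_iff.mp (Finset.mem_range.mp hi)
  by_cases hia : a ≤ i
  · have h1 := pow_mul_mem_ImL hG (ha (c i) (hc i)).2 (i - a)
    have h2 : yt ^ (i - a) * (yt ^ a * c i) = yt ^ i * c i := by
      rw [← mul_assoc, ← pow_add, Nat.sub_add_cancel hia]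
    rw [h2] at h1
    exact ImL_nsmul_mono (by omega) h1
  · have h1 := pow_mul_mem_ImL hG (ha (c i) (hc i)).1 i
    exact ImL_nsmul_mono (by omega) h1

/-- **Genus equality.** -/
theorem genus_eq (hG : Good V y yt) {g gt : ℕ} (hg : IsGenus K F g) (hgt : IsGenus k Ft gt) :
    g = gt := by
  obtain ⟨m₁, hm₁⟩ := exists_ImL_eq hG
  obtain ⟨-, c, hc⟩ := hg
  obtain ⟨-, ct, hct⟩ := hgt
  -- the degree of the pole divisor
  have hdeg : Divisor.degree (poleDivisor (Ω := K) y) = Divisor.degree (poleDivisor (Ω := k) yt) := by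
    rw [← rD_poleDivisor hG, degree_rD]
  have hpos : (1 : ℤ) ≤ Divisor.degree (poleDivisor (Ω := k) yt) := by
    rw [degree_poleDivisor hG.h₀.trans]
    have := finiteDimensional_adjoin_of_transcendental hG.h₀.trans
    have h0 : 0 < Module.finrank k⟮yt⟯ Ft := Module.finrank_pos
    exact_mod_cast h0
  set m : ℕ := m₁ + c.toNat + ct.toNat with hm
  have hmdeg : (m : ℤ) ≤ Divisor.degree (m • poleDivisor (Ω := k) yt) := by
    rw [map_nsmul, nsmul_eq_mul]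
    nlinarith [Int.natCast_nonneg m]
  have h1 := hc (m • poleDivisor (Ω := K) y) (by
    rw [map_nsmul, hdeg, ← map_nsmul]
    refine le_trans ?_ hmdeg
    have := Int.self_le_toNat c
    push_cast [hm]
    omega)
  have h2 := hct (m • poleDivisor (Ω := k) yt) (by
    refine le_trans ?_ hmdeg
    have := Int.self_le_toNat ct
    push_cast [hm]
    omega)
  rw [← finrank_ImL hG, hm₁ m (by omega), h2, map_nsmul, map_nsmul, hdeg] at h1
  omega

end Fermat.Agent.S19.Geo0
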