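import Fermat.Agent.S19.Geo0.Genus

/-!
# S19 / Geo0 : lifting of Riemann-Roch spaces, local parameters, non-special configurations

All statements are chart free (`hG : Good V y yt` is only a token).
-/

set_option autoImplicit false
set_option linter.unusedSectionVars false

namespace Fermat.Agent.S19.Geo0

open AlgebraicCurve Fermat.Agent.S26 Fermat.Agent.S37.Red Polynomial IntermediateField

section FF

variable {Ω 𝕃 : Type*} [Field Ω] [Field 𝕃] [Algebra Ω 𝕃] [IsAlgClosed Ω] [FF1 Ω 𝕃]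

/-- adding one point adds at most one to `ℓ` (`S26.finrank_LSpace_add_single_le` + `deg = 1`). -/
theorem finrank_add_single_le (D : Divisor Ω 𝕃) (v : Place Ω 𝕃) :
    Module.finrank Ω (LSpace (D + Finsupp.single v 1)) ≤ Module.finrank Ω (LSpace D) + 1 := by
  have h := finrank_LSpace_add_single_le D v
  rwa [deg_eq_one_of_isAlgClosed] at h

/-- helper for `finrank_add_sumDiv`: `#T` points add at most `#T`. -/
theorem finrank_add_sumDiv_le (E : Divisor Ω 𝕃) (T : Finset (Place Ω 𝕃)) :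
    Module.finrank Ω (LSpace (E + sumDiv T)) ≤ Module.finrank Ω (LSpace E) + T.card := by
  classical
  induction T using Finset.induction_on with
  | empty =>
    have h0 : E + sumDiv (∅ : Finset (Place Ω 𝕃)) = E := by
      unfold sumDiv; rw [Finset.sum_empty]; exact add_zero E
    rw [h0]; simp
  | insert v T hvT ih =>
    have h1 : E + sumDiv (insert v T) = (E + sumDiv T) + Finsupp.single v 1 := by
      unfold sumDiv
      rw [Finset.sum_insert hvT]
      abel
    rw [h1, Finset.card_insert_of_notMem hvT]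
    have h2 := finrank_add_single_le (E + sumDiv T) v
    omega

/-- helper: a divisor differing from `D` by a principal divisor is `D + div f`. -/
theorem exists_eq_add_divisorOf {D G : Divisor Ω 𝕃}
    (h : G - D ∈ Divisor.principal (K := Ω) (F := 𝕃)) :
    ∃ f : 𝕃, f ≠ 0 ∧ G = D + divisorOf f := by
  obtain ⟨f, hf, hfv⟩ := h
  refine ⟨f, hf, Finsupp.ext fun v => ?_⟩
  have := hfv v
  rw [Finsupp.sub_apply] at this
  rw [Finsupp.add_apply, divisorOf_apply]
  omega

/-- helper: `D + div f - D` is principal. -/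
theorem add_divisorOf_sub_mem_principal (D : Divisor Ω 𝕃) {f : 𝕃} (hf : f ≠ 0) :
    D + divisorOf f - D ∈ Divisor.principal (K := Ω) (F := 𝕃) :=
  ⟨f, hf, fun v => by rw [add_sub_cancel_left, divisorOf_apply]⟩

/-- **No duality needed.**  If `ℓ(E) = 1`, `deg E = g`, and `T` is a finite set of places, then `ℓ(E + ∑_{v ∈ T} v) = 1 + #T`
(`≤` : one point adds at most one; `≥` : Riemann's inequality). -/
theorem finrank_add_sumDiv {g : ℕ} (hg : IsGenus Ω 𝕃 g) {E : Divisor Ω 𝕃}
    (hE : Divisor.degree E = g) (h1 : Module.finrank Ω (LSpace E) = 1) (T : Finset (Place Ω 𝕃)) :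
    Module.finrank Ω (LSpace (E + sumDiv T)) = 1 + T.card := by
  have h2 := finrank_add_sumDiv_le E T
  have h3 := hg.1 (E + sumDiv T)
  rw [map_add, degree_sumDiv_of_deg_eq_one deg_eq_one_of_isAlgClosed, hE] at h3
  omega

/-- the same for every divisor linearly equivalent to `E + ∑ T` (`S26.finrank_LSpace_add_divisorOf`). -/
theorem finrank_of_linEquiv {g : ℕ} (hg : IsGenus Ω 𝕃 g) {E G : Divisor Ω 𝕃}
    (hE : Divisor.degree E = g) (h1 : Module.finrank Ω (LSpace E) = 1) (T : Finset (Place Ω 𝕃))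
    (hG : G - (E + sumDiv T) ∈ Divisor.principal (K := Ω) (F := 𝕃)) :
    Module.finrank Ω (LSpace G) = 1 + T.card := by
  obtain ⟨f, hf, rfl⟩ := exists_eq_add_divisorOf hG
  rw [finrank_LSpace_add_divisorOf _ hf, finrank_add_sumDiv hg hE h1 T]

/-- the divisor `∑_{Q ∈ S} n_Q Q`. -/
noncomputable def LiftB_E (S : Finset (Place Ω 𝕃)) (n : Place Ω 𝕃 → ℕ) : Divisor Ω 𝕃 :=
  ∑ Q ∈ S, Finsupp.single Q (n Q : ℤ)

open Classical in
theorem LiftB_E_apply (S : Finset (Place Ω 𝕃)) (n : Place Ω 𝕃 → ℕ) (v : Place Ω 𝕃) :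
    LiftB_E S n v = if v ∈ S then (n v : ℤ) else 0 := by
  rw [LiftB_E, Finsupp.finsetSum_apply]
  simp only [Finsupp.single_apply]
  rw [Finset.sum_ite_eq' S v (fun Q => (n Q : ℤ))]

theorem LiftB_E_nonneg (S : Finset (Place Ω 𝕃)) (n : Place Ω 𝕃 → ℕ) (v : Place Ω 𝕃) :
    0 ≤ LiftB_E S n v := by
  rw [LiftB_E_apply]
  split_ifs
  · exact Int.natCast_nonneg _
  · exact le_refl _

/-- **Prescribed orders on a finite set `S`, poles bounded by `m P`** (`P` any divisor of positive degree whose support avoids `S`).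
`U = L(m P - E)`, `E = ∑_{Q ∈ S} n_Q Q`; for `m` large the subspaces `L(m P - E - Q)`, `Q ∈ S`, are proper (Riemann's theorem: the dimension
drops by one), and a vector space over an infinite field is not a finite union of proper subspaces (`Subspace.biUnion_ne_univ_of_top_notMem`). -/
theorem exists_mem_LSpace_ord_eq {g : ℕ} (hg : IsGenus Ω 𝕃 g) (S : Finset (Place Ω 𝕃))
    {P : Divisor Ω 𝕃} (hP : 0 < Divisor.degree P) (hPS : ∀ Q ∈ S, P Q = 0) (n : Place Ω 𝕃 → ℕ) :
    ∃ m₁ : ℕ, ∀ m ≥ m₁, ∃ f ∈ LSpace (m • P), f ≠ 0 ∧ ∀ Q ∈ S, Q.ord f = n Q := by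
  classical
  obtain ⟨-, c, hc⟩ := hg
  set E := LiftB_E S n with hE
  refine ⟨(max (c + 1) g + Divisor.degree E).toNat, fun m hm => ?_⟩
  set D : Divisor Ω 𝕃 := m • P - E with hD
  have hdeg : Divisor.degree D = m * Divisor.degree P - Divisor.degree E := by
    rw [hD, map_sub, map_nsmul, nsmul_eq_mul]
  have hm' : max (c + 1) g + Divisor.degree E ≤ m := by
    have := Int.self_le_toNat (max (c + 1) (g : ℤ) + Divisor.degree E)
    have h2 : ((max (c + 1) (g : ℤ) + Divisor.degree E).toNat : ℤ) ≤ m := by exact_mod_cast hm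
    exact le_trans this h2
  have hmP : (m : ℤ) ≤ m * Divisor.degree P := by nlinarith [Int.natCast_nonneg m]
  have hd1 : c + 1 ≤ Divisor.degree D := by
    have := le_max_left (c + 1) (g : ℤ)
    rw [hdeg]; linarith
  have hd2 : (g : ℤ) ≤ Divisor.degree D := by
    have := le_max_right (c + 1) (g : ℤ)
    rw [hdeg]; linarith
  have hU : (Module.finrank Ω (LSpace D) : ℤ) = Divisor.degree D + 1 - g := hc D (by linarith)
  have hUQ : ∀ Q : Place Ω 𝕃, (Module.finrank Ω (LSpace (D - Finsupp.single Q 1)) : ℤ)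
      = Divisor.degree D - g := by
    intro Q
    have h1 : Divisor.degree (D - Finsupp.single Q 1) = Divisor.degree D - 1 := by
      rw [map_sub, Divisor.degree_single, deg_eq_one_of_isAlgClosed]
      simp
    rw [hc _ (by rw [h1]; linarith), h1]
    ring
  have hfin : ∀ D' : Divisor Ω 𝕃, Module.Finite Ω (LSpace D') := fun D' => finite_LSpace D'
  have hnt : Nontrivial (LSpace D) := by
    apply Module.nontrivial_of_finrank_pos (R := Ω)
    have : (0 : ℤ) < Module.finrank Ω (LSpace D) := by rw [hU]; linarith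
    exact_mod_cast this
  let s : Finset (Subspace Ω (LSpace D)) :=
    insert ⊥ (S.image fun Q => (LSpace (D - Finsupp.single Q 1)).comap (LSpace D).subtype)
  have hs : ⊤ ∉ s := by
    intro h
    rcases Finset.mem_insert.mp h with h | h
    · exact top_ne_bot h
    · obtain ⟨Q, -, hQ⟩ := Finset.mem_image.mp h
      rw [Submodule.comap_subtype_eq_top] at hQ
      have h1 := Submodule.finrank_mono hQ
      have h2 : (Module.finrank Ω (LSpace D) : ℤ) ≤ Module.finrank Ω (LSpace (D - Finsupp.single Q 1)) := by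
        exact_mod_cast h1
      rw [hU, hUQ] at h2
      linarith
  have hne := Subspace.biUnion_ne_univ_of_top_notMem hs
  obtain ⟨f, hf⟩ : ∃ f : LSpace D, f ∉ ⋃ p ∈ s, (p : Set (LSpace D)) := by
    by_contra hcon
    push Not at hcon
    exact hne (Set.eq_univ_of_forall hcon)
  simp only [Set.mem_iUnion, not_exists] at hf
  have hf0 : (f : 𝕃) ≠ 0 := by
    intro h0
    apply hf ⊥ (Finset.mem_insert_self _ _)
    have : f = 0 := Subtype.ext h0
    rw [this]
    exact zero_mem _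
  have hfD : ∀ v : Place Ω 𝕃, 0 ≤ v.ord (f : 𝕃) + D v := (mem_LSpace.mp f.2).resolve_left hf0
  refine ⟨f, ?_, hf0, fun Q hQ => ?_⟩
  · refine LSpace_mono (fun v => ?_) f.2
    rw [hD, Finsupp.sub_apply]
    have := LiftB_E_nonneg S n v
    linarith
  · have h1 : (f : 𝕃) ∉ LSpace (D - Finsupp.single Q 1) := by
      intro h
      exact hf _ (Finset.mem_insert_of_mem (Finset.mem_image_of_mem _ hQ)) h
    rw [mem_LSpace, not_or] at h1
    have h2 := h1.2
    push Not at h2
    obtain ⟨v, hv⟩ := h2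
    rw [Finsupp.sub_apply, Finsupp.single_apply] at hv
    have hvQ : Q = v := by
      by_contra hne
      rw [if_neg hne] at hv
      have := hfD v
      linarith
    subst hvQ
    rw [if_pos rfl] at hv
    have h3 := hfD Q
    have h4 : D Q = - (n Q : ℤ) := by
      rw [hD, Finsupp.sub_apply, Finsupp.smul_apply, hPS Q hQ, hE, LiftB_E_apply, if_pos hQ]
      simp
    rw [h4] at hv h3
    omega

/-- **Prescribed values on a finite set `S`, poles bounded by `m P`.** -/
theorem exists_mem_LSpace_val_eq {g : ℕ} (hg : IsGenus Ω 𝕃 g) (S : Finset (Place Ω 𝕃))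
    {P : Divisor Ω 𝕃} (hP : 0 < Divisor.degree P) (hPS : ∀ Q ∈ S, P Q = 0) (c : Place Ω 𝕃 → Ω) :
    ∃ m₁ : ℕ, ∀ m ≥ m₁, ∃ f ∈ LSpace (m • P), ∀ Q ∈ S, val Q f = c Q := by
  classical
  have H : ∀ Q : Place Ω 𝕃, ∃ m₁ : ℕ, ∀ m ≥ m₁, ∃ f ∈ LSpace (m • P), f ≠ 0 ∧
      ∀ Q' ∈ S, Q'.ord f = ((if Q' = Q then 0 else 1 : ℕ) : ℤ) := fun Q =>
    exists_mem_LSpace_ord_eq hg S hP hPS (fun Q' => if Q' = Q then 0 else 1)
  choose M hM using H
  refine ⟨S.sup M, fun m hm => ?_⟩
  have H2 : ∀ Q ∈ S, ∃ f ∈ LSpace (m • P), f ≠ 0 ∧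
      ∀ Q' ∈ S, Q'.ord f = ((if Q' = Q then 0 else 1 : ℕ) : ℤ) := fun Q hQ =>
    hM Q m (le_trans (Finset.le_sup hQ) hm)
  choose! F hF1 hF0 hF2 using H2
  have hreg : ∀ Q ∈ S, ∀ Q' ∈ S, Reg Q' (F Q) := by
    intro Q hQ Q' hQ'
    rw [reg_iff_ord, hF2 Q hQ Q' hQ']
    exact Int.natCast_nonneg _
  have hval0 : ∀ Q ∈ S, ∀ Q' ∈ S, Q' ≠ Q → val Q' (F Q) = 0 := by
    intro Q hQ Q' hQ' hne
    apply val_eq_zero_of_van
    apply van_of_ord_pos
    rw [hF2 Q hQ Q' hQ', if_neg hne]
    norm_num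
  have hval1 : ∀ Q ∈ S, val Q (F Q) ≠ 0 := by
    intro Q hQ h0
    have h1 := (val_eq_zero_iff Q (hreg Q hQ Q hQ)).mp h0
    have h2 := ord_pos_of_van Q h1 (hF0 Q hQ)
    rw [hF2 Q hQ Q hQ, if_pos rfl] at h2
    simp at h2
  refine ⟨∑ Q ∈ S, (c Q / val Q (F Q)) • F Q, ?_, fun Q' hQ' => ?_⟩
  · exact Submodule.sum_mem _ fun Q hQ => Submodule.smul_mem _ _ (hF1 Q hQ)
  · have hr : ∀ Q ∈ S, Reg Q' ((c Q / val Q (F Q)) • F Q) := by
      intro Q hQ
      rw [Algebra.smul_def]
      exact Reg.mul Q' (reg_algebraMap Q' _) (hreg Q hQ Q' hQ')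
    rw [val_sum Q' S _ hr, Finset.sum_eq_single Q']
    · rw [Algebra.smul_def, val_mul Q' (reg_algebraMap Q' _) (hreg Q' hQ' Q' hQ'), val_algebraMap,
        div_mul_cancel₀ _ (hval1 Q' hQ')]
    · intro Q hQ hne
      rw [Algebra.smul_def, val_mul Q' (reg_algebraMap Q' _) (hreg Q hQ Q' hQ'),
        hval0 Q hQ Q' hQ' (Ne.symm hne), mul_zero]
    · intro h
      exact absurd hQ' h

/-- **Non-special reduced divisors outside a finite set** (`S26.exists_nonspecial_list` with `n = g`). -/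
theorem exists_nonspecial_finset {g : ℕ} (hg : IsGenus Ω 𝕃 g) (S : Set (Place Ω 𝕃)) (hS : S.Finite) :
    ∃ T : Finset (Place Ω 𝕃), T.card = g ∧ (∀ v ∈ T, v ∉ S) ∧
      Module.finrank Ω (LSpace (sumDiv T)) = 1 := by
  classical
  obtain ⟨c, hc⟩ := hg.2
  obtain ⟨l, hl, hpw, hlS, hl1⟩ := exists_nonspecial_list (g := (g : ℤ)) (c := c)
    (fun D hD => (hc D hD).le) S hS (fun v w => v ≠ w)
    (fun w => by simp) g le_rfl
  have hnd : l.Nodup := hpw
  refine ⟨l.toFinset, by rw [List.toFinset_card_of_nodup hnd, hl],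
    fun v hv => hlS v (List.mem_toFinset.mp hv), ?_⟩
  have h2 : sumDiv l.toFinset = listDiv l := by
    unfold sumDiv listDiv
    exact List.sum_toFinset _ hnd
  rw [h2, hl1]

/-- **Moving lemma**: every divisor is linearly equivalent to a divisor whose support avoids a given finite set (`S26.exists_ord_eq`). -/
theorem exists_linEquiv_avoid (D : Divisor Ω 𝕃) (S : Finset (Place Ω 𝕃)) :
    ∃ D' : Divisor Ω 𝕃, D' - D ∈ Divisor.principal (K := Ω) (F := 𝕃) ∧ ∀ v ∈ S, D' v = 0 := by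
  obtain ⟨y, hy, hyS⟩ := exists_ord_eq S (fun v => - D v)
  refine ⟨D + divisorOf y, add_divisorOf_sub_mem_principal D hy, fun v hv => ?_⟩
  rw [Finsupp.add_apply, divisorOf_apply, hyS v hv, add_neg_cancel]

/-- Riemann: a divisor of degree `≥ g` is linearly equivalent to an effective one. -/
theorem exists_effective {g : ℕ} (hg : IsGenus Ω 𝕃 g) (D : Divisor Ω 𝕃)
    (hD : (g : ℤ) ≤ Divisor.degree D) :
    ∃ D' : Divisor Ω 𝕃, D' - D ∈ Divisor.principal (K := Ω) (F := 𝕃) ∧ ∀ v, 0 ≤ D' v := by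
  have h1 := hg.1 D
  obtain ⟨z, hz0, hz⟩ := Riemann.exists_ne_zero_mem_LSpace (D := D) (by omega)
  refine ⟨D + divisorOf z, add_divisorOf_sub_mem_principal D hz0, fun v => ?_⟩
  have := (hz.resolve_left hz0) v
  rw [Finsupp.add_apply, divisorOf_apply]
  omega

/-- if `ℓ(E) = 1`, `E ≥ 0`, then `E` is the only effective divisor in its class. -/
theorem eq_of_effective_of_finrank_eq_one {E E' : Divisor Ω 𝕃} (hE : ∀ v, 0 ≤ E v)
    (hE' : ∀ v, 0 ≤ E' v) (h1 : Module.finrank Ω (LSpace E) = 1)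
    (hp : E' - E ∈ Divisor.principal (K := Ω) (F := 𝕃)) : E' = E := by
  obtain ⟨f, hf, hfv⟩ := hp
  have hfE : f ∈ LSpace E := Or.inr fun v => by
    have h2 := hfv v
    have h3 := hE' v
    rw [Finsupp.sub_apply] at h2
    omega
  obtain ⟨c, rfl⟩ := mem_range_algebraMap_of_finrank_LSpace_eq_one hE h1 hfE
  refine Finsupp.ext fun v => ?_
  have h2 := hfv v
  rw [Finsupp.sub_apply, Fermat.Agent.S24.FF.ord_algebraMap] at h2
  omega

end FF

variable {K k : Type*} [Field K] [Field k] {A : ValuationSubring K} {π : A →+* k}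
variable {F Ft : Type*} [Field F] [Field Ft] [Algebra K F] [Algebra k Ft]
variable [IsAlgClosed K] [FF1 K F] [IsAlgClosed k] [FF1 k Ft]
variable {V : VFF A π F Ft} {y : F} {yt : Ft}

/-- principal divisors have degree `0`. -/
theorem LiftV_degree_of_mem_principal {Ω 𝕃 : Type*} [Field Ω] [Field 𝕃] [Algebra Ω 𝕃] [FF1 Ω 𝕃]
    {D : Divisor Ω 𝕃} (hD : D ∈ Divisor.principal (K := Ω) (F := 𝕃)) : Divisor.degree D = 0 := by
  obtain ⟨f, -, hf⟩ := hD
  have : D = divisorOf f := by
    ext v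
    rw [hf v, divisorOf_apply]
  rw [this, degree_divisorOf]

open Classical in
theorem LiftV_rD_apply_sum (hG : Good V y yt) (D : Divisor K F) (Q : Place k Ft) :
    rD hG D Q = ∑ v ∈ D.support, if rP hG v = Q then D v else 0 := by
  show (Finsupp.mapDomain (rP hG) D) Q = _
  rw [Finsupp.mapDomain, Finsupp.sum_apply, Finsupp.sum]
  refine Finset.sum_congr rfl fun v _ => ?_
  rw [Finsupp.single_apply]

theorem LiftV_sumDiv_apply_of_mem {Ω 𝕃 : Type*} [Field Ω] [Field 𝕃] [Algebra Ω 𝕃]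
    {T : Finset (Place Ω 𝕃)} {v : Place Ω 𝕃} (hv : v ∈ T) : sumDiv T v = 1 := by
  classical
  unfold sumDiv
  rw [Finsupp.finsetSum_apply, Finset.sum_eq_single v]
  · simp
  · intro w _ hw
    rw [Finsupp.single_apply, if_neg hw]
  · intro h
    exact absurd hv h

/-- **(LIFT)**, numerical form: if `ℓ(rD D) = deg D + 1 - g` then every element of `L(rD D)` lifts to `L(D) ∩ O`, and `ℓ(D) = ℓ(rD D)`.
(Riemann's inequality on `F` and `ImL_eq_of_finrank_le`, `finrank_LSpace_le`.) -/
theorem ImL_eq_of_nonspecial (hG : Good V y yt) {g : ℕ} (hg : IsGenus K F g) (D : Divisor K F)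
    (h : (Module.finrank k (LSpace (rD hG D)) : ℤ) = Divisor.degree D + 1 - g) :
    ImL V D = LSpace (rD hG D) ∧
      Module.finrank K (LSpace D) = Module.finrank k (LSpace (rD hG D)) := by
  have h1 := hg.1 D
  have h2 : Module.finrank k (LSpace (rD hG D)) ≤ Module.finrank K (LSpace D) := by
    have : (Module.finrank k (LSpace (rD hG D)) : ℤ) ≤ Module.finrank K (LSpace D) := by
      rw [h]; exact h1
    exact_mod_cast this
  exact ⟨ImL_eq_of_finrank_le hG D h2, le_antisymm (finrank_LSpace_le hG D) h2⟩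

/-- (LIFT) for divisors of large degree. -/
theorem exists_ImL_eq_of_degree (hG : Good V y yt) :
    ∃ c : ℤ, ∀ D : Divisor K F, c ≤ Divisor.degree D → ImL V D = LSpace (rD hG D) := by
  obtain ⟨g, hg⟩ := exists_isGenus (Ω := K) (𝕃 := F)
  obtain ⟨gt, hgt⟩ := exists_isGenus (Ω := k) (𝕃 := Ft)
  have hgg : g = gt := genus_eq hG hg hgt
  obtain ⟨c, hc⟩ := hgt.2
  refine ⟨c, fun D hD => (ImL_eq_of_nonspecial hG hg D ?_).1⟩
  rw [hc (rD hG D) (by rw [degree_rD]; exact hD), degree_rD, hgg]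

/-- **Local parameters**: for `Q ∈ S` (finite) there is `t ∈ O` without poles on the classes of `S`, whose reduction has a simple zero at `Q`
and does not vanish at the other places of `S`.
Proof.  `Q₀ ∉ S` (`infinite_place`), `v₀` over `Q₀` (`rP_surjective`); `exists_mem_LSpace_ord_eq` on `Ft` (with `P = single Q₀ 1 = rD (single v₀ 1)`) gives `tt ∈ L(m Q₀)`, `m` large;
`exists_ImL_eq_of_degree` lifts it to `t ∈ L(m v₀) ∩ O`, whose only pole is `v₀`. -/
theorem exists_param (hG : Good V y yt) (S : Finset (Place k Ft)) {Q : Place k Ft} (hQ : Q ∈ S) :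
    ∃ (t : F) (tt : Ft), V.Red t tt ∧ (∀ v : Place K F, rP hG v ∈ S → Reg v t) ∧ Q.ord tt = 1 ∧
      ∀ Q' ∈ S, Q' ≠ Q → Q'.ord tt = 0 := by
  classical
  obtain ⟨gt, hgt⟩ := exists_isGenus (Ω := k) (𝕃 := Ft)
  have hinf : Infinite (Place k Ft) := infinite_place
  obtain ⟨Q₀, hQ₀⟩ := Infinite.exists_notMem_finset S
  obtain ⟨v₀, hv₀⟩ := rP_surjective hG Q₀
  have hdeg1 : Divisor.degree (Finsupp.single Q₀ (1 : ℤ)) = 1 := by
    rw [Divisor.degree_single, deg_eq_one_of_isAlgClosed]; simp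
  have hdeg2 : Divisor.degree (Finsupp.single v₀ (1 : ℤ)) = 1 := by
    rw [Divisor.degree_single, deg_eq_one_of_isAlgClosed]; simp
  obtain ⟨m₁, hm₁⟩ := exists_mem_LSpace_ord_eq hgt S (P := Finsupp.single Q₀ (1 : ℤ))
    (by rw [hdeg1]; exact one_pos)
    (fun Q' hQ' => by
      rw [Finsupp.single_apply, if_neg]
      rintro rfl
      exact hQ₀ hQ')
    (fun Q' => if Q' = Q then 1 else 0)
  obtain ⟨c, hc⟩ := exists_ImL_eq_of_degree hG
  set m : ℕ := max m₁ c.toNat with hm
  obtain ⟨tt, htt, -, hord⟩ := hm₁ m (le_max_left _ _)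
  have hD : ImL V (m • Finsupp.single v₀ (1 : ℤ)) = LSpace (rD hG (m • Finsupp.single v₀ (1 : ℤ))) := by
    apply hc
    rw [map_nsmul, hdeg2, nsmul_eq_mul, mul_one]
    have : c.toNat ≤ m := le_max_right _ _
    omega
  rw [map_nsmul, rD_single, hv₀] at hD
  rw [← hD] at htt
  obtain ⟨t, ht, hred⟩ := htt
  refine ⟨t, tt, hred, ?_, ?_, ?_⟩
  · intro v hv
    apply reg_of_mem_LSpace ht
    have hne : v₀ ≠ v := by
      rintro rfl
      rw [hv₀] at hv
      exact hQ₀ hv
    rw [Finsupp.smul_apply, Finsupp.single_apply, if_neg hne, smul_zero]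
  · rw [hord Q hQ, if_pos rfl]; rfl
  · intro Q' hQ' hne
    rw [hord Q' hQ', if_neg hne]; rfl

/-- **The effective representative.**  `E ≥ 0` on `Ft` with `ℓ(E) = 1`, `deg E = g`; `D` a divisor of `F` with `rD D ~ E`.
Then there is a unique effective `D' ~ D`, and `rD D' = E`. -/
theorem exists_unique_effective (hG : Good V y yt) {g : ℕ} (hg : IsGenus K F g) {E : Divisor k Ft}
    (hE : ∀ Q, 0 ≤ E Q) (hdeg : Divisor.degree E = g) (h1 : Module.finrank k (LSpace E) = 1)
    (D : Divisor K F) (hD : rD hG D - E ∈ Divisor.principal (K := k) (F := Ft)) :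
    ∃! D' : Divisor K F, D' - D ∈ Divisor.principal (K := K) (F := F) ∧ (∀ v, 0 ≤ D' v) ∧
      rD hG D' = E := by
  have hdegD : Divisor.degree D = g := by
    have h0 := LiftV_degree_of_mem_principal hD
    rw [map_sub, degree_rD, hdeg] at h0
    linarith
  obtain ⟨D', hD', hpos⟩ := exists_effective hg D (by rw [hdegD])
  have hr : rD hG D' = E := by
    apply eq_of_effective_of_finrank_eq_one hE (rD_nonneg hG hpos) h1
    have h2 := rD_mem_principal hG hD'
    rw [map_sub] at h2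
    have := add_mem h2 hD
    rwa [sub_add_sub_cancel] at this
  refine ⟨D', ⟨hD', hpos, hr⟩, ?_⟩
  rintro D'' ⟨hD'', hpos'', -⟩
  apply eq_of_effective hG hpos hpos'' (by rw [hr]; exact h1)
  have := sub_mem hD'' hD'
  rwa [sub_sub_sub_cancel_right] at this

/-- uniqueness without the condition on the reduction. -/
theorem effective_unique (hG : Good V y yt) {E : Divisor k Ft}
    (hE : ∀ Q, 0 ≤ E Q) (h1 : Module.finrank k (LSpace E) = 1)
    {D D' D'' : Divisor K F} (hD : rD hG D - E ∈ Divisor.principal (K := k) (F := Ft))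
    (h' : D' - D ∈ Divisor.principal (K := K) (F := F)) (hp' : ∀ v, 0 ≤ D' v)
    (h'' : D'' - D ∈ Divisor.principal (K := K) (F := F)) (hp'' : ∀ v, 0 ≤ D'' v) :
    D' = D'' ∧ rD hG D' = E := by
  have hr : rD hG D' = E := by
    apply eq_of_effective_of_finrank_eq_one hE (rD_nonneg hG hp') h1
    have h2 := rD_mem_principal hG h'
    rw [map_sub] at h2
    have := add_mem h2 hD
    rwa [sub_add_sub_cancel] at this
  refine ⟨?_, hr⟩
  symm
  apply eq_of_effective hG hp' hp'' (by rw [hr]; exact h1)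
  have := sub_mem h'' h'
  rwa [sub_sub_sub_cancel_right] at this

/-- an effective divisor whose reduction is the reduced divisor `∑_{Q ∈ T} Q` has exactly one point in each class of `T`. -/
theorem exists_points (hG : Good V y yt) {T : Finset (Place k Ft)} {D : Divisor K F}
    (hD : ∀ v, 0 ≤ D v) (hr : rD hG D = sumDiv T) :
    ∃ P : Place k Ft → Place K F, (∀ Q ∈ T, rP hG (P Q) = Q) ∧
      D = ∑ Q ∈ T, Finsupp.single (P Q) (1 : ℤ) := by
  classical
  -- the fibre sums
  have hsum : ∀ Q, (∑ v ∈ D.support, if rP hG v = Q then D v else 0) = if Q ∈ T then 1 else 0 := by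
    intro Q
    rw [← LiftV_rD_apply_sum hG D Q, hr]
    split_ifs with hQ
    · exact LiftV_sumDiv_apply_of_mem hQ
    · exact sumDiv_apply_of_notMem hQ
  have hterm : ∀ Q, ∀ v ∈ D.support, 0 ≤ (if rP hG v = Q then D v else 0) := by
    intro Q v _
    split_ifs
    · exact hD v
    · exact le_rfl
  -- one point in each class of `T`
  have hex : ∀ Q ∈ T, ∃ v, rP hG v = Q ∧ D v = 1 ∧ ∀ v', rP hG v' = Q → v' ≠ v → D v' = 0 := by
    intro Q hQ
    have h1 := hsum Q
    rw [if_pos hQ] at h1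
    obtain ⟨v, hv, hv0⟩ : ∃ v ∈ D.support, (if rP hG v = Q then D v else 0) ≠ 0 := by
      by_contra hcon
      push Not at hcon
      rw [Finset.sum_eq_zero hcon] at h1
      exact zero_ne_one h1
    have hvQ : rP hG v = Q := by
      by_contra hne
      rw [if_neg hne] at hv0
      exact hv0 rfl
    have hsplit := Finset.add_sum_erase D.support (fun v => if rP hG v = Q then D v else 0) hv
    beta_reduce at hsplit
    rw [h1, if_pos hvQ] at hsplit
    have hrest : 0 ≤ ∑ x ∈ D.support.erase v, (if rP hG x = Q then D x else 0) :=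
      Finset.sum_nonneg fun x hx => hterm Q x (Finset.mem_of_mem_erase hx)
    have hDv : 1 ≤ D v := by
      have h2 : D v ≠ 0 := Finsupp.mem_support_iff.1 hv
      have h3 := hD v
      omega
    have hDv1 : D v = 1 := by omega
    have hrest0 : ∑ x ∈ D.support.erase v, (if rP hG x = Q then D x else 0) = 0 := by omega
    refine ⟨v, hvQ, hDv1, ?_⟩
    intro v' hv'Q hne
    by_contra h0
    have hmem : v' ∈ D.support.erase v :=
      Finset.mem_erase.2 ⟨hne, Finsupp.mem_support_iff.2 h0⟩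
    have := (Finset.sum_eq_zero_iff_of_nonneg
      (fun x hx => hterm Q x (Finset.mem_of_mem_erase hx))).1 hrest0 v' hmem
    rw [if_pos hv'Q] at this
    exact h0 this
  have hout : ∀ v, rP hG v ∉ T → D v = 0 := by
    intro v hv
    by_contra h0
    have h1 := hsum (rP hG v)
    rw [if_neg hv] at h1
    have := (Finset.sum_eq_zero_iff_of_nonneg (hterm (rP hG v))).1 h1 v
      (Finsupp.mem_support_iff.2 h0)
    rw [if_pos rfl] at this
    exact h0 this
  obtain ⟨v₁⟩ : Nonempty (Place K F) := nonempty_place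
  let P : Place k Ft → Place K F := fun Q => if hQ : Q ∈ T then (hex Q hQ).choose else v₁
  have hP : ∀ Q (hQ : Q ∈ T), rP hG (P Q) = Q ∧ D (P Q) = 1 ∧
      ∀ v', rP hG v' = Q → v' ≠ P Q → D v' = 0 := by
    intro Q hQ
    have : P Q = (hex Q hQ).choose := dif_pos hQ
    rw [this]
    exact (hex Q hQ).choose_spec
  refine ⟨P, fun Q hQ => (hP Q hQ).1, ?_⟩
  ext v
  rw [Finsupp.finsetSum_apply]
  by_cases hv : rP hG v ∈ T
  · rw [Finset.sum_eq_single (rP hG v)]
    · by_cases hvP : v = P (rP hG v)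
      · rw [← hvP, Finsupp.single_eq_same, hvP]
        exact (hP _ hv).2.1
      · rw [Finsupp.single_apply, if_neg (fun h => hvP h.symm)]
        exact (hP _ hv).2.2 v rfl hvP
    · intro Q hQ hne
      rw [Finsupp.single_apply, if_neg]
      intro h
      apply hne
      rw [← h, (hP Q hQ).1]
    · intro h
      exact absurd hv h
  · rw [hout v hv]
    symm
    refine Finset.sum_eq_zero fun Q hQ => ?_
    rw [Finsupp.single_apply, if_neg]
    intro h
    apply hv
    rw [← h, (hP Q hQ).1]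
    exact hQ

end Fermat.Agent.S19.Geo0
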