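import Fermat.Agent.S19.Geo0.Lift
import Fermat.Agent.S19.RL.Iner

/-!
# S19 / Geo0 : rational structures (descent of the geometry to the fixed field of a group acting trivially on the reduction)

`Γ` a group (inertia) acting on `(K, F)` through `α : Γ →* SemilinearAut K F`.
`FixK α c`, `FixF α f`, `FixP α v`, `FixD α D` : fixed constants / functions / places / divisors.
`RatStr α V ϖ y` : the axioms (to be proved for the modular function field, `Γ = I_A`, `ϖ = ℓ`):
`Γ` acts trivially on the reduction, `F = K · F^Γ`, `A ∩ K^Γ` is a DVR with uniformiser `ϖ` and residue field `k`, `A` has rank one,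
and the Gauss norm of a fixed function lies in `|K^Γ|`.

EXPORTS
* `rP_smul`            : `rP (σ v) = rP v`;
* `span_fix_eq`        : a `Γ`-stable `K`-subspace of `F` is spanned by its fixed vectors;
* `exists_fix_lift`    : `D` fixed ⇒ every element of `ImL V D` is the reduction of a FIXED element of `L(D) ∩ O`;
* `exists_basis_lift_fix` : rational orthonormal bases;
* `exists_param_fix`, `exists_fix_place`, `exists_fix_divisor` : rational parameters, fixed places in every class.
-/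

set_option autoImplicit false
set_option linter.unusedSectionVars false

namespace Fermat.Agent.S19.Geo0

open AlgebraicCurve Fermat.Agent.S26 Fermat.Agent.S37.Red Polynomial IntermediateField

variable {K k : Type*} [Field K] [Field k] {A : ValuationSubring K} {π : A →+* k}
variable {F Ft : Type*} [Field F] [Field Ft] [Algebra K F] [Algebra k Ft]
variable {Γ : Type*} [Group Γ]

section defs

variable (α : Γ →* SemilinearAut K F)

/-- fixed constants -/
def FixK (c : K) : Prop := ∀ σ : Γ, SemilinearAut.baseAut (α σ) c = c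

/-- fixed functions -/
def FixF (f : F) : Prop := ∀ σ : Γ, α σ • f = f

/-- fixed places -/
def FixP (v : Place K F) : Prop := ∀ σ : Γ, α σ • v = v

/-- fixed divisors -/
def FixD (D : Divisor K F) : Prop := ∀ σ : Γ, α σ • D = D

/-- The axioms of a rational structure. -/
structure RatStr (V : VFF A π F Ft) (ϖ : K) (y : F) : Prop where
  /-- `Γ` preserves `O` and acts trivially on the residue field -/
  red_smul : ∀ (σ : Γ) (f : F) (ft : Ft), V.Red f ft → V.Red (α σ • f) ft
  fix_y : FixF α y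
  /-- `F = K · F^Γ` -/
  fix_span : Submodule.span K {u : F | FixF α u} = ⊤
  unif_fix : FixK α ϖ
  unif_nonunit : ϖ ∈ A.nonunits
  unif_ne : ϖ ≠ 0
  /-- `A ∩ K^Γ` is a DVR with uniformiser `ϖ` -/
  unif : ∀ c : K, FixK α c → c ≠ 0 → ∃ n : ℤ, c * ϖ ^ n ∈ A ∧ (c * ϖ ^ n)⁻¹ ∈ A
  /-- `A` has rank one -/
  arch : ∀ c : K, ∃ N : ℕ, ϖ ^ N * c ∈ A
  /-- `A` has rank one (second half) -/
  nilp : ∀ a ∈ A.nonunits, ∃ N : ℕ, ∃ b ∈ A, a ^ N = ϖ * b
  /-- the residue field of `A ∩ K^Γ` is `k` -/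
  res_surj : ∀ x : k, ∃ a : K, a ∈ A ∧ FixK α a ∧ res π a = x
  /-- the Gauss norm of a fixed function lies in `|K^Γ|` -/
  scale : ∀ f : F, FixF α f → f ≠ 0 →
    ∃ c : K, FixK α c ∧ c ≠ 0 ∧ ∃ ft : Ft, ft ≠ 0 ∧ V.Red (algebraMap K F c * f) ft

end defs

variable {α : Γ →* SemilinearAut K F}

/-! ### formal properties -/

theorem FixK.zero : FixK α 0 := fun _ => map_zero _
theorem FixK.one : FixK α 1 := fun _ => map_one _
theorem FixK.add {a b : K} (ha : FixK α a) (hb : FixK α b) : FixK α (a + b) := fun σ => by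
  rw [map_add, ha σ, hb σ]
theorem FixK.neg {a : K} (ha : FixK α a) : FixK α (-a) := fun σ => by rw [map_neg, ha σ]
theorem FixK.sub {a b : K} (ha : FixK α a) (hb : FixK α b) : FixK α (a - b) := fun σ => by
  rw [map_sub, ha σ, hb σ]
theorem FixK.mul {a b : K} (ha : FixK α a) (hb : FixK α b) : FixK α (a * b) := fun σ => by
  rw [map_mul, ha σ, hb σ]
theorem FixK.inv {a : K} (ha : FixK α a) : FixK α a⁻¹ := fun σ => by rw [map_inv₀, ha σ]
theorem FixK.pow {a : K} (ha : FixK α a) (n : ℕ) : FixK α (a ^ n) := fun σ => by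
  rw [map_pow, ha σ]
theorem FixK.zpow {a : K} (ha : FixK α a) (n : ℤ) : FixK α (a ^ n) := fun σ => by
  rw [map_zpow₀, ha σ]

theorem FixF.zero : FixF α 0 := fun _ => smul_zero _
theorem FixF.one : FixF α 1 := fun _ => smul_one _
theorem FixF.add {a b : F} (ha : FixF α a) (hb : FixF α b) : FixF α (a + b) := fun σ => by
  rw [smul_add, ha σ, hb σ]
theorem FixF.neg {a : F} (ha : FixF α a) : FixF α (-a) := fun σ => by rw [smul_neg, ha σ]
theorem FixF.sub {a b : F} (ha : FixF α a) (hb : FixF α b) : FixF α (a - b) := fun σ => by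
  rw [smul_sub, ha σ, hb σ]
theorem FixF.mul {a b : F} (ha : FixF α a) (hb : FixF α b) : FixF α (a * b) := fun σ => by
  rw [smul_mul', ha σ, hb σ]
theorem FixF.inv {a : F} (ha : FixF α a) : FixF α a⁻¹ := fun σ => by rw [smul_inv'', ha σ]
theorem FixF.pow {a : F} (ha : FixF α a) (n : ℕ) : FixF α (a ^ n) := fun σ => by
  rw [smul_pow', ha σ]
theorem FixF.algebraMap {c : K} (hc : FixK α c) : FixF α (algebraMap K F c) := fun σ => by
  rw [SemilinearAut.smul_algebraMap, hc σ]
theorem FixF.sum {ι : Type*} (s : Finset ι) (f : ι → F) (h : ∀ i ∈ s, FixF α (f i)) :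
    FixF α (∑ i ∈ s, f i) := fun σ => by
  rw [Finset.smul_sum]
  exact Finset.sum_congr rfl fun i hi => h i hi σ

/-- a divisor supported on fixed places is fixed. -/
theorem fixD_of_support {D : Divisor K F} (h : ∀ v, D v ≠ 0 → FixP α v) : FixD α D := by
  intro σ
  ext w
  rw [SemilinearAut.divisor_smul_apply]
  by_cases hw : D w = 0
  · rw [hw]
    by_contra hne
    have h1 := h _ hne σ
    rw [smul_inv_smul] at h1
    rw [← h1] at hne
    exact hne hw
  · have h1 := h w hw σ
    have h2 : (α σ)⁻¹ • w = w := by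
      rw [inv_smul_eq_iff, h1]
    rw [h2]

theorem FixD.add {D E : Divisor K F} (hD : FixD α D) (hE : FixD α E) : FixD α (D + E) := fun σ => by
  rw [smul_add, hD σ, hE σ]
theorem FixD.neg {D : Divisor K F} (hD : FixD α D) : FixD α (-D) := fun σ => by
  rw [smul_neg, hD σ]
theorem FixD.sub {D E : Divisor K F} (hD : FixD α D) (hE : FixD α E) : FixD α (D - E) := fun σ => by
  rw [smul_sub, hD σ, hE σ]
theorem FixD.nsmul {D : Divisor K F} (hD : FixD α D) (n : ℕ) : FixD α (n • D) := fun σ => by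
  rw [smul_comm, hD σ]

theorem FixD.apply_smul {D : Divisor K F} (hD : FixD α D) (σ : Γ) (v : Place K F) :
    D (α σ • v) = D v := by
  have h := SemilinearAut.divisor_smul_apply_smul (α σ) D v
  rwa [hD σ] at h

/-- `ord_{σ v} f = ord_v f` for fixed `f` (`SemilinearAut.ord_smul`). -/
theorem FixF.ord_smul {f : F} (hf : FixF α f) (σ : Γ) (v : Place K F) :
    (α σ • v).ord f = v.ord f := by
  have h := SemilinearAut.ord_smul (α σ) v f
  rwa [hf σ] at h

theorem FixF.reg_smul {f : F} (hf : FixF α f) (σ : Γ) (v : Place K F) :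
    Reg (α σ • v) f ↔ Reg v f := by
  have h := reg_smul_iff v (α σ) (f := f)
  rwa [hf σ] at h

/-- `f(σ v) = σ (f(v))` for fixed `f` (`Red.val_smul`). -/
theorem FixF.val_smul {f : F} (hf : FixF α f) (σ : Γ) (v : Place K F) :
    val (α σ • v) f = SemilinearAut.baseAut (α σ) (val v f) := by
  have h := Fermat.Agent.S37.Red.val_smul v (α σ) f
  rwa [hf σ] at h

theorem fixK_val {v : Place K F} (hv : FixP α v) {f : F} (hf : FixF α f) : FixK α (val v f) := by
  intro σ
  rw [← hf.val_smul σ v, hv σ]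

section FFK

variable [FF1 K F]

/-- the divisor of a fixed function is fixed; also its zero and pole divisors. -/
theorem FixF.fixD_divisorOf {f : F} (hf : FixF α f) : FixD α (divisorOf (Ω := K) f) := by
  intro σ
  ext w
  rw [SemilinearAut.divisor_smul_apply, divisorOf_apply, divisorOf_apply]
  have h := hf.ord_smul σ ((α σ)⁻¹ • w)
  rw [smul_inv_smul] at h
  exact h.symm

theorem FixF.fixD_zeroDivisor {f : F} (hf : FixF α f) : FixD α (zeroDivisor (Ω := K) f) := by
  intro σ
  ext w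
  rw [SemilinearAut.divisor_smul_apply, zeroDivisor_apply, zeroDivisor_apply]
  have h := hf.ord_smul σ ((α σ)⁻¹ • w)
  rw [smul_inv_smul] at h
  rw [h]

theorem FixF.fixD_poleDivisor {f : F} (hf : FixF α f) : FixD α (poleDivisor (Ω := K) f) := by
  intro σ
  ext w
  rw [SemilinearAut.divisor_smul_apply, poleDivisor_apply, poleDivisor_apply]
  have h := hf.ord_smul σ ((α σ)⁻¹ • w)
  rw [smul_inv_smul] at h
  rw [h]

end FFK

/-- `L(D)` is `Γ`-stable if `D` is fixed. -/
theorem smul_mem_LSpace {D : Divisor K F} (hD : FixD α D) (σ : Γ) {f : F} (hf : f ∈ LSpace D) :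
    α σ • f ∈ LSpace D := by
  rcases hf with rfl | hf
  · left; exact smul_zero _
  · right
    intro w
    have h1 := hf ((α σ)⁻¹ • w)
    have h2 := SemilinearAut.ord_smul (α σ) ((α σ)⁻¹ • w) f
    have h3 := hD.apply_smul σ ((α σ)⁻¹ • w)
    rw [smul_inv_smul] at h2 h3
    rw [h2, h3]
    exact h1

/-! ### Galois descent for subspaces -/

section SemiDescent

variable {K V Γ : Type*} [Field K] [AddCommGroup V] [Module K V]
  (s : Γ → V →+ V) (β : Γ → K →+* K)

/-- coordinates of `s σ w` in a basis of fixed vectors. -/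
theorem semi_repr {ι : Type*} (hs : ∀ σ c v, s σ (c • v) = β σ c • s σ v) (b : Module.Basis ι K V)
    (hb : ∀ i σ, s σ (b i) = b i) (σ : Γ) (w : V) (i : ι) :
    b.repr (s σ w) i = β σ (b.repr w i) := by
  classical
  have h1 : s σ w = ∑ j ∈ (b.repr w).support, β σ (b.repr w j) • b j := by
    conv_lhs => rw [← b.linearCombination_repr w, Finsupp.linearCombination_apply, Finsupp.sum,
      map_sum]
    exact Finset.sum_congr rfl fun j _ => by rw [hs, hb]
  rw [h1, map_sum, Finsupp.finsetSum_apply]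
  simp only [map_smul, Module.Basis.repr_self, Finsupp.smul_apply, Finsupp.single_apply,
    smul_eq_mul, mul_ite, mul_one, mul_zero, Finset.sum_ite_eq', Finsupp.mem_support_iff]
  split_ifs with h
  · rfl
  · rw [not_not] at h
    rw [h, map_zero]

/-- a nonzero element of a stable subspace dominates a nonzero fixed element. -/
theorem semi_exists_fixed {ι : Type*} (hs : ∀ σ c v, s σ (c • v) = β σ c • s σ v)
    (b : Module.Basis ι K V) (hb : ∀ i σ, s σ (b i) = b i) (W : Submodule K V)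
    (hW : ∀ σ, ∀ w ∈ W, s σ w ∈ W) :
    ∀ (n : ℕ) (w : V), w ∈ W → w ≠ 0 → (b.repr w).support.card ≤ n →
      ∃ w₀ ∈ W, w₀ ≠ 0 ∧ (∀ σ, s σ w₀ = w₀) ∧ (b.repr w₀).support ⊆ (b.repr w).support := by
  classical
  intro n
  induction n with
  | zero =>
    intro w _ hw0 hcard
    exfalso
    apply hw0
    have : (b.repr w).support = ∅ := Finset.card_eq_zero.1 (Nat.le_zero.1 hcard)
    rw [Finsupp.support_eq_empty] at this
    exact b.repr.map_eq_zero_iff.1 this
  | succ n ih =>
    intro w hw hw0 hcard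
    have hne : (b.repr w) ≠ 0 := fun h => hw0 (b.repr.map_eq_zero_iff.1 h)
    obtain ⟨i₀, hi₀⟩ := Finsupp.support_nonempty_iff.2 hne
    have hc : b.repr w i₀ ≠ 0 := Finsupp.mem_support_iff.1 hi₀
    set w₁ := (b.repr w i₀)⁻¹ • w with hw₁
    have hw₁W : w₁ ∈ W := W.smul_mem _ hw
    have hrepr₁ : ∀ i, b.repr w₁ i = (b.repr w i₀)⁻¹ * b.repr w i := fun i => by
      rw [hw₁, map_smul, Finsupp.smul_apply, smul_eq_mul]
    have hsupp₁ : (b.repr w₁).support ⊆ (b.repr w).support := by
      intro i hi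
      rw [Finsupp.mem_support_iff, hrepr₁] at hi
      exact Finsupp.mem_support_iff.2 (right_ne_zero_of_mul hi)
    have hw₁0 : w₁ ≠ 0 := smul_ne_zero (inv_ne_zero hc) hw0
    by_cases hfix : ∀ σ, s σ w₁ = w₁
    · exact ⟨w₁, hw₁W, hw₁0, hfix, hsupp₁⟩
    · push Not at hfix
      obtain ⟨σ, hσ⟩ := hfix
      set w₂ := s σ w₁ - w₁ with hw₂
      have hw₂W : w₂ ∈ W := W.sub_mem (hW σ _ hw₁W) hw₁W
      have hw₂0 : w₂ ≠ 0 := sub_ne_zero.2 hσ
      have hrepr₂ : ∀ i, b.repr w₂ i = β σ (b.repr w₁ i) - b.repr w₁ i := fun i => by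
        rw [hw₂, map_sub, Finsupp.sub_apply, semi_repr s β hs b hb]
      have hsupp₂ : (b.repr w₂).support ⊆ (b.repr w).support.erase i₀ := by
        intro i hi
        rw [Finsupp.mem_support_iff, hrepr₂] at hi
        rw [Finset.mem_erase]
        constructor
        · rintro rfl
          apply hi
          rw [hrepr₁, inv_mul_cancel₀ hc, map_one, sub_self]
        · apply hsupp₁
          rw [Finsupp.mem_support_iff]
          intro h0
          apply hi
          rw [h0, map_zero, sub_self]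
      have hcard₂ : (b.repr w₂).support.card ≤ n := by
        have h1 := Finset.card_le_card hsupp₂
        rw [Finset.card_erase_of_mem hi₀] at h1
        omega
      obtain ⟨w₀, hw₀W, hw₀0, hw₀fix, hw₀supp⟩ := ih w₂ hw₂W hw₂0 hcard₂
      exact ⟨w₀, hw₀W, hw₀0, hw₀fix,
        hw₀supp.trans (hsupp₂.trans (Finset.erase_subset _ _))⟩

/-- **Semilinear descent** with respect to a basis of fixed vectors. -/
theorem semi_span_fixed_basis {ι : Type*} (hs : ∀ σ c v, s σ (c • v) = β σ c • s σ v)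
    (b : Module.Basis ι K V) (hb : ∀ i σ, s σ (b i) = b i) (W : Submodule K V)
    (hW : ∀ σ, ∀ w ∈ W, s σ w ∈ W) :
    ∀ (n : ℕ) (w : V), w ∈ W → (b.repr w).support.card ≤ n →
      w ∈ Submodule.span K {w : V | w ∈ W ∧ ∀ σ, s σ w = w} := by
  classical
  intro n
  induction n with
  | zero =>
    intro w _ hcard
    have : (b.repr w).support = ∅ := Finset.card_eq_zero.1 (Nat.le_zero.1 hcard)
    rw [Finsupp.support_eq_empty] at this
    rw [b.repr.map_eq_zero_iff.1 this]
    exact Submodule.zero_mem _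
  | succ n ih =>
    intro w hw hcard
    by_cases hw0 : w = 0
    · rw [hw0]; exact Submodule.zero_mem _
    obtain ⟨w₀, hw₀W, hw₀0, hw₀fix, hw₀supp⟩ :=
      semi_exists_fixed s β hs b hb W hW _ w hw hw0 le_rfl
    have hne : (b.repr w₀) ≠ 0 := fun h => hw₀0 (b.repr.map_eq_zero_iff.1 h)
    obtain ⟨i₀, hi₀⟩ := Finsupp.support_nonempty_iff.2 hne
    have hc : b.repr w₀ i₀ ≠ 0 := Finsupp.mem_support_iff.1 hi₀
    set c := b.repr w i₀ / b.repr w₀ i₀ with hcdef
    have hmem₀ : c • w₀ ∈ Submodule.span K {w : V | w ∈ W ∧ ∀ σ, s σ w = w} :=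
      Submodule.smul_mem _ _ (Submodule.subset_span ⟨hw₀W, hw₀fix⟩)
    have hsupp : (b.repr (w - c • w₀)).support ⊆ (b.repr w).support.erase i₀ := by
      intro i hi
      rw [Finsupp.mem_support_iff, map_sub, map_smul, Finsupp.sub_apply, Finsupp.smul_apply,
        smul_eq_mul] at hi
      rw [Finset.mem_erase]
      constructor
      · rintro rfl
        apply hi
        rw [hcdef, div_mul_cancel₀ _ hc, sub_self]
      · rw [Finsupp.mem_support_iff]
        intro h0
        apply hi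
        have h1 : b.repr w₀ i = 0 := by
          by_contra h2
          exact (Finsupp.mem_support_iff.1 (hw₀supp (Finsupp.mem_support_iff.2 h2))) h0
        rw [h0, h1, mul_zero, sub_self]
    have hcard' : (b.repr (w - c • w₀)).support.card ≤ n := by
      have h1 := Finset.card_le_card hsupp
      rw [Finset.card_erase_of_mem (hw₀supp hi₀)] at h1
      omega
    have h2 := ih (w - c • w₀) (W.sub_mem hw (W.smul_mem _ hw₀W)) hcard'
    have h3 := Submodule.add_mem _ h2 hmem₀
    rwa [sub_add_cancel] at h3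

/-- **Semilinear descent.** -/
theorem semi_span_fixed (hs : ∀ σ c v, s σ (c • v) = β σ c • s σ v)
    (hspan : Submodule.span K {u : V | ∀ σ, s σ u = u} = ⊤) (W : Submodule K V)
    (hW : ∀ σ, ∀ w ∈ W, s σ w ∈ W) :
    Submodule.span K {w : V | w ∈ W ∧ ∀ σ, s σ w = w} = W := by
  classical
  apply le_antisymm
  · rw [Submodule.span_le]
    exact fun w hw => hw.1
  · obtain ⟨B, hBsub, hBspan, hBli⟩ := exists_linearIndependent K {u : V | ∀ σ, s σ u = u}
    have htop : ⊤ ≤ Submodule.span K (Set.range (Subtype.val : B → V)) := by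
      rw [Subtype.range_coe, hBspan, hspan]
    set b := Module.Basis.mk hBli htop with hb
    have hbfix : ∀ i σ, s σ (b i) = b i := by
      intro i σ
      rw [hb, Module.Basis.mk_apply]
      exact hBsub i.2 σ
    intro w hw
    exact semi_span_fixed_basis s β hs b hbfix W hW _ w hw le_rfl

end SemiDescent

/-- semilinearity of the action. -/
theorem smul_smul_semi (σ : Γ) (c : K) (f : F) :
    α σ • (c • f) = SemilinearAut.baseAut (α σ) c • (α σ • f) := by
  rw [Algebra.smul_def, Algebra.smul_def, smul_mul', SemilinearAut.smul_algebraMap]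

/-- **Descent.**  A `Γ`-stable `K`-subspace `W` of `F` is spanned by its fixed vectors.
Only hypothesis: `F` is spanned by fixed vectors.
Proof (minimal support).  Extract from `{u | FixF α u}` a `K`-basis `(u_i)` of `F` (`exists_linearIndependent`); `σ (∑ c_i u_i) = ∑ σ(c_i) u_i`.
Induction on the size of the support of `w ∈ W`: among the nonzero elements of `W` with support contained in `supp w` choose `w₀` of minimal support, scaled so
that one coefficient is `1`; `σ w₀ - w₀ ∈ W` has strictly smaller support, so it is `0`: `w₀` is fixed.  `w - c w₀` (`c` = the coefficient of `w` at that index)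
has smaller support than `w`. -/
theorem span_fix_eq (hspan : Submodule.span K {u : F | FixF α u} = ⊤) (W : Submodule K F)
    (hW : ∀ (σ : Γ), ∀ w ∈ W, α σ • w ∈ W) :
    Submodule.span K {w : F | w ∈ W ∧ FixF α w} = W := by
  exact semi_span_fixed (fun σ => DistribSMul.toAddMonoidHom F (α σ))
    (fun σ => (SemilinearAut.baseAut (α σ) : K →+* K)) (fun σ c f => smul_smul_semi σ c f)
    hspan W hW

/-- a finite dimensional stable subspace has a basis of fixed vectors. -/
theorem exists_fix_basis (hspan : Submodule.span K {u : F | FixF α u} = ⊤) (W : Submodule K F)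
    [Module.Finite K W] (hW : ∀ (σ : Γ), ∀ w ∈ W, α σ • w ∈ W) :
    ∃ u : Fin (Module.finrank K W) → F, (∀ i, FixF α (u i)) ∧ LinearIndependent K u ∧
      Submodule.span K (Set.range u) = W := by
  classical
  obtain ⟨B, hBsub, hBspan, hBli⟩ := exists_linearIndependent K {w : F | w ∈ W ∧ FixF α w}
  rw [span_fix_eq hspan W hW] at hBspan
  have hrange : Submodule.span K (Set.range (Subtype.val : B → F)) = W := by
    rw [Subtype.range_coe, hBspan]
  have hfin : Module.Finite K (Submodule.span K (Set.range (Subtype.val : B → F))) := by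
    rw [hrange]; infer_instance
  set b := Module.Basis.span hBli with hb
  have hBfin : Finite B := Module.Finite.finite_basis b
  have hcard : Nat.card B = Module.finrank K W := by
    rw [← hrange]
    exact (Module.finrank_eq_nat_card_basis b).symm
  set e : Fin (Module.finrank K W) ≃ B := (Finite.equivFinOfCardEq hcard).symm with he
  refine ⟨fun i => (e i : F), fun i => (hBsub (e i).2).2, hBli.comp e e.injective, ?_⟩
  have : Set.range (fun i => (e i : F)) = Set.range (Subtype.val : B → F) := by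
    have h1 : (fun i => (e i : F)) = (Subtype.val : B → F) ∘ e := rfl
    rw [h1, Set.range_comp, e.surjective.range_eq, Set.image_univ]
  rw [this, hrange]

/-- fixed vectors which are independent over `K^Γ` are independent over `K` — in the form: the coordinates of a fixed vector in a family of
`K`-independent fixed vectors are fixed. -/
theorem fixK_coord {n : ℕ} {u : Fin n → F} (hu : ∀ i, FixF α (u i)) (hli : LinearIndependent K u)
    {c : Fin n → K} (h : FixF α (∑ i, c i • u i)) (i : Fin n) : FixK α (c i) := by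
  intro σ
  have h1 := h σ
  rw [Finset.smul_sum] at h1
  have h2 : ∑ j, (SemilinearAut.baseAut (α σ) (c j) - c j) • u j = 0 := by
    simp only [sub_smul, Finset.sum_sub_distrib]
    rw [sub_eq_zero, ← h1]
    exact Finset.sum_congr rfl fun j _ => by rw [smul_smul_semi, hu j σ]
  have h3 := Fintype.linearIndependent_iff.1 hli _ h2 i
  exact sub_eq_zero.1 h3

/-! ### the rational structure -/

variable {V : VFF A π F Ft} {ϖ : K} {y : F} {yt : Ft}

/-- `Γ` preserves `A` and acts trivially on `k` (apply `red_smul` to constants: `VFF.red_const`, `VFF.algebraMap_mem_iff`, `Red.unique`,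
injectivity of `algebraMap k Ft`). -/
theorem RatStr.base_mem (hR : RatStr α V ϖ y) (σ : Γ) {a : K} (ha : a ∈ A) :
    SemilinearAut.baseAut (α σ) a ∈ A ∧ res π (SemilinearAut.baseAut (α σ) a) = res π a := by
  have h := hR.red_smul σ _ _ (V.red_const ha)
  rw [SemilinearAut.smul_algebraMap] at h
  have hm : SemilinearAut.baseAut (α σ) a ∈ A := (V.algebraMap_mem_iff _).1 h.mem
  exact ⟨hm, (algebraMap k Ft).injective ((V.red_const hm).unique h)⟩

/-- the `ϖ`-adic order of a fixed function: `ϖ^n f` is a Gauss unit for a unique `n` (`scale` + `unif`). -/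
theorem RatStr.exists_zpow_red (hR : RatStr α V ϖ y) {f : F} (hf : FixF α f) (h0 : f ≠ 0) :
    ∃ (n : ℤ) (ft : Ft), ft ≠ 0 ∧ V.Red (algebraMap K F (ϖ ^ n) * f) ft := by
  obtain ⟨c, hc, hc0, ft, hft, hred⟩ := hR.scale f hf h0
  obtain ⟨n, hn1, hn2⟩ := hR.unif c hc hc0
  have hϖ := hR.unif_ne
  have hu0 : c * ϖ ^ n ≠ 0 := mul_ne_zero hc0 (zpow_ne_zero _ hϖ)
  -- `ϖ^(-n) f = (c ϖ^n)⁻¹ (c f)`
  refine ⟨-n, algebraMap k Ft (res π (c * ϖ ^ n)⁻¹) * ft, ?_, ?_⟩
  · refine mul_ne_zero ?_ hft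
    rw [Ne, map_eq_zero, res_eq_zero_iff V.π_surjective hn2]
    intro hnon
    have h1 : (c * ϖ ^ n)⁻¹ * (c * ϖ ^ n) ∈ A.nonunits := by
      rw [← res_eq_zero_iff V.π_surjective (A.mul_mem _ _ hn2 hn1), res_mul hn2 hn1,
        (res_eq_zero_iff V.π_surjective hn2).2 hnon, zero_mul]
    rw [inv_mul_cancel₀ hu0, ← res_eq_zero_iff V.π_surjective A.one_mem, res_one] at h1
    exact one_ne_zero h1
  · have h1 := (V.red_const hn2).mul hred
    have h2 : algebraMap K F (c * ϖ ^ n)⁻¹ * (algebraMap K F c * f) =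
        algebraMap K F (ϖ ^ (-n)) * f := by
      rw [← mul_assoc, ← map_mul]
      congr 2
      rw [zpow_neg]
      field_simp
    rwa [h2] at h1

/-- a fixed function in `m_O` is divisible by `ϖ` in `O`. -/
theorem RatStr.div_unif_mem (hR : RatStr α V ϖ y) {f : F} (hf : FixF α f) (h : V.Red f 0) :
    algebraMap K F ϖ⁻¹ * f ∈ V.O := by
  rcases eq_or_ne f 0 with rfl | h0
  · rw [mul_zero]; exact V.O.zero_mem
  obtain ⟨n, ft, hft, hred⟩ := RatStr.exists_zpow_red hR hf h0
  have hϖ := hR.unif_ne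
  have hϖA : ϖ ∈ A := A.nonunits_subset hR.unif_nonunit
  have hn : n < 0 := by
    by_contra hcon
    rw [not_lt] at hcon
    obtain ⟨m, rfl⟩ : ∃ m : ℕ, n = (m : ℤ) := ⟨n.toNat, by omega⟩
    rw [zpow_natCast] at hred
    have h1 := (V.red_const (A.pow_mem hϖA m)).mul h
    rw [mul_zero] at h1
    exact hft (hred.unique h1)
  obtain ⟨m, rfl⟩ : ∃ m : ℕ, n = -((m : ℤ) + 1) := ⟨(-n - 1).toNat, by omega⟩
  have h2 : algebraMap K F ϖ⁻¹ * f =
      algebraMap K F (ϖ ^ m) * (algebraMap K F (ϖ ^ (-((m : ℤ) + 1))) * f) := by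
    rw [← mul_assoc, ← map_mul]
    congr 2
    rw [zpow_neg, zpow_add_one₀ hϖ, zpow_natCast]
    field_simp
  rw [h2]
  exact V.O.mul_mem _ _ ((V.algebraMap_mem_iff _).2 (A.pow_mem hϖA m)) hred.mem

/-- orthonormality: if the `ft j` are independent then `∑ c_j f_j ∈ O` iff all `c_j ∈ A` (`exists_scale_fin`). -/
theorem mem_O_iff_of_red (V : VFF A π F Ft) {n : ℕ} {f : Fin n → F} {ft : Fin n → Ft}
    (h : ∀ i, V.Red (f i) (ft i)) (hli : LinearIndependent k ft) (c : Fin n → K) :
    (∑ i, c i • f i) ∈ V.O ↔ ∀ i, c i ∈ A := by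
  constructor
  · intro hmem
    by_contra hne
    rw [not_forall] at hne
    obtain ⟨i₀, hi₀⟩ := hne
    have hc0 : c ≠ 0 := by
      intro h0
      apply hi₀
      rw [h0]
      exact A.zero_mem
    obtain ⟨j, hj, hA⟩ := exists_scale_fin (A := A) c hc0
    -- `c j ∉ A`
    have hjA : c j ∉ A := by
      intro hjA
      apply hi₀
      have := A.mul_mem _ _ (hA i₀) hjA
      rwa [div_mul_cancel₀ _ hj] at this
    have hinv : (c j)⁻¹ ∈ A.nonunits := inv_mem_nonunits_of_not_mem hjA
    have hsum : ∑ i, algebraMap K F (c i / c j) * f i =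
        algebraMap K F (c j)⁻¹ * ∑ i, c i • f i := by
      rw [Finset.mul_sum]
      refine Finset.sum_congr rfl fun i _ => ?_
      rw [Algebra.smul_def, ← mul_assoc, ← map_mul, div_eq_inv_mul]
    have hred : V.Red (∑ i, algebraMap K F (c i / c j) * f i)
        (∑ i, algebraMap k Ft (res π (c i / c j)) * ft i) :=
      V.red_sum _ _ _ fun i _ => (V.red_const (hA i)).mul (h i)
    obtain ⟨gt, hgt⟩ := V.exists_red hmem
    have hred2 := (V.red_const (A.nonunits_subset hinv)).mul hgt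
    rw [(res_eq_zero_iff V.π_surjective (A.nonunits_subset hinv)).2 hinv, map_zero, zero_mul,
      ← hsum] at hred2
    have h0 : ∑ i, res π (c i / c j) • ft i = 0 := by
      have := hred.unique hred2
      simpa [Algebra.smul_def] using this
    have h1 := (Fintype.linearIndependent_iff.1 hli) _ h0 j
    rw [div_self hj, res_one] at h1
    exact one_ne_zero h1
  · intro hA
    refine V.O.toSubring.sum_mem fun i _ => ?_
    rw [Algebra.smul_def]
    exact V.O.mul_mem _ _ ((V.algebraMap_mem_iff _).2 (hA i)) (h i).mem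

variable [IsAlgClosed K] [FF1 K F] [IsAlgClosed k] [FF1 k Ft]

/-- bridge to `RL.Inv`. -/
theorem inv_range_iff {f : F} : RL.Inv α.range f ↔ FixF α f :=
  ⟨fun h σ => h _ ⟨σ, rfl⟩, by rintro h _ ⟨σ, rfl⟩; exact h σ⟩

/-- bridge to `RL.FixP`. -/
theorem fixP_range_iff {v : Place K F} : RL.FixP α.range v ↔ FixP α v :=
  ⟨fun h σ => h _ ⟨σ, rfl⟩, by rintro h _ ⟨σ, rfl⟩; exact h σ⟩

/-- bridge to `RL.fixR`. -/
theorem mem_fixR_range_iff {c : K} : c ∈ RL.fixR A (RL.βG α.range) ↔ c ∈ A ∧ FixK α c :=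
  ⟨fun h => ⟨h.1, fun σ => h.2 ⟨_, σ, rfl⟩⟩, fun h => ⟨h.1, by rintro ⟨_, σ, rfl⟩; exact h.2 σ⟩⟩

/-- bridge to `RL.Iner`: a rational structure makes the image of `Γ` an "inertia group". -/
theorem RatStr.iner (hR : RatStr α V ϖ y) : RL.Iner V y α.range where
  red_smul := by rintro _ ⟨σ, rfl⟩ f ft h; exact hR.red_smul σ f ft h
  y_fixed := inv_range_iff.2 hR.fix_y
  span := fun f => by
    have h : {f' : F | RL.Inv α.range f'} = {u : F | FixF α u} :=
      Set.ext fun _ => inv_range_iff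
    rw [h, hR.fix_span]; trivial
  res_surj := fun c => by
    obtain ⟨a, haA, hfix, hres⟩ := hR.res_surj c
    exact ⟨a, mem_fixR_range_iff.2 ⟨haA, hfix⟩, hres⟩

/-- bridge to `RL.Base`. -/
theorem RatStr.base (hR : RatStr α V ϖ y) : RL.Base A (RL.βG α.range) ϖ where
  stable := by
    rintro ⟨_, σ, rfl⟩ a ha
    exact (hR.base_mem σ ha).1
  unif_mem := mem_fixR_range_iff.2 ⟨A.nonunits_subset hR.unif_nonunit, hR.unif_fix⟩
  unif_nonunit := hR.unif_nonunit
  unif_ne := hR.unif_ne
  dvd_pow := by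
    intro d hd hd0
    obtain ⟨hdA, hdfix⟩ := mem_fixR_range_iff.1 hd
    obtain ⟨n, hn1, hn2⟩ := hR.unif d hdfix hd0
    have hϖ := hR.unif_ne
    have hϖA : ϖ ∈ A := A.nonunits_subset hR.unif_nonunit
    have hn : n ≤ 0 := by
      by_contra hcon
      rw [not_le] at hcon
      obtain ⟨m, rfl⟩ : ∃ m : ℕ, n = (m : ℤ) + 1 := ⟨(n - 1).toNat, by omega⟩
      -- `ϖ⁻¹ = d * ϖ^m * (d * ϖ^(m+1))⁻¹ ∈ A`
      have h1 : ϖ⁻¹ = d * ϖ ^ m * (d * ϖ ^ ((m : ℤ) + 1))⁻¹ := by
        rw [zpow_add_one₀ hϖ, zpow_natCast]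
        field_simp
      have h2 : ϖ⁻¹ ∈ A := by
        rw [h1]
        exact A.mul_mem _ _ (A.mul_mem _ _ hdA (A.pow_mem hϖA m)) hn2
      have h3 := hR.unif_nonunit
      rw [ValuationSubring.mem_nonunits_iff_exists_mem_maximalIdeal] at h3
      obtain ⟨ha, h3⟩ := h3
      rw [IsLocalRing.mem_maximalIdeal, mem_nonunits_iff] at h3
      apply h3
      refine ⟨⟨⟨ϖ, ha⟩, ⟨ϖ⁻¹, h2⟩, ?_, ?_⟩, rfl⟩
      · exact Subtype.ext (mul_inv_cancel₀ hϖ)
      · exact Subtype.ext (inv_mul_cancel₀ hϖ)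
    obtain ⟨c, rfl⟩ : ∃ c : ℕ, n = -(c : ℤ) := ⟨(-n).toNat, by omega⟩
    refine ⟨c, (d * ϖ ^ (-(c : ℤ)))⁻¹, mem_fixR_range_iff.2 ⟨hn2, ?_⟩, ?_⟩
    · exact (hdfix.mul (hR.unif_fix.zpow _)).inv
    · rw [zpow_neg, zpow_natCast]
      field_simp
  nilp := hR.nilp

/-- **(Rat1)** `Γ` acts trivially on the set of residue classes (`= RL.Iner.rP_smul`). -/
theorem rP_smul (hG : Good V y yt) (hR : RatStr α V ϖ y) (σ : Γ) (v : Place K F) :
    rP hG (α σ • v) = rP hG v :=
  hR.iner.rP_smul hG ⟨σ, rfl⟩ v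

/-- uniform version of `arch`. -/
theorem RatStr.arch_fin (hR : RatStr α V ϖ y) {n : ℕ} (c : Fin n → K) :
    ∃ N : ℕ, ∀ i, ϖ ^ N * c i ∈ A := by
  choose N hN using fun i => hR.arch (c i)
  have hϖ : ϖ ∈ A := mem_of_mem_nonunits hR.unif_nonunit
  refine ⟨∑ i, N i, fun i => ?_⟩
  have h1 : N i ≤ ∑ i, N i := Finset.single_le_sum (f := N) (fun _ _ => Nat.zero_le _)
    (Finset.mem_univ i)
  obtain ⟨m, hm⟩ := Nat.exists_eq_add_of_le h1
  rw [hm, pow_add, mul_comm (ϖ ^ N i), mul_assoc]
  exact mul_mem (pow_mem hϖ m) (hN i)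

/-- **Lower bound for the distance to a subspace.**  `w_j ∈ L(D) ∩ O` with independent reductions, `u ∈ L(D)` outside their `K`-span.  Then the Gauss norms of
`u - ∑ a_j w_j` are bounded below.
Proof.  `f_1 .. f_d` = a `K`-basis of `L(D)` lifting a basis of `ImL V D` (`span_lift_eq`), orthonormal by `mem_O_iff_of_red`.  Choose a `K`-linear form `φ` on `L(D)` with
`φ(w_j) = 0`, `φ(u) = 1`; by `arch` there is `N₀` with `ϖ^N₀ φ(f_i) ∈ A` for all `i`.  If `ϖ^{-N} (u - ∑ a_j w_j) ∈ O` its coordinates lie in `A`, so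
`ϖ^{N₀ - N} = ϖ^{N₀} φ(ϖ^{-N}(u - ∑ a_j w_j)) ∈ A`, i.e. `N ≤ N₀`. -/
theorem exists_dist_bound (hG : Good V y yt) (hR : RatStr α V ϖ y) (D : Divisor K F) {n : ℕ}
    {w : Fin n → F} (hw : ∀ j, w j ∈ LSpace D) {u : F} (hu : u ∈ LSpace D)
    (hnot : u ∉ Submodule.span K (Set.range w)) :
    ∃ N : ℕ, ∀ a : Fin n → K, algebraMap K F (ϖ⁻¹ ^ N) * (u - ∑ j, a j • w j) ∉ V.O := by
  classical
  obtain ⟨f, ft, hf, hred, hli, hspan⟩ := SemiKey_exists_basis hG D
  have hfspan := span_lift_eq hG D f ft hf hred hli hspan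
  obtain ⟨φ, hφu, hφw⟩ := Submodule.exists_dual_map_eq_bot_of_notMem hnot inferInstance
  have hφw' : ∀ j, φ (w j) = 0 := by
    intro j
    have h1 : φ (w j) ∈ (Submodule.span K (Set.range w)).map φ :=
      Submodule.mem_map_of_mem (Submodule.subset_span (Set.mem_range_self j))
    rw [hφw] at h1
    exact (Submodule.mem_bot K).1 h1
  obtain ⟨N₀, hN₀⟩ := hR.arch_fin (fun i => φ (f i))
  obtain ⟨N₁, hN₁⟩ := hR.arch (φ u)⁻¹
  have hϖ0 := hR.unif_ne
  refine ⟨N₀ + N₁ + 1, fun a hmem => ?_⟩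
  set g : F := algebraMap K F (ϖ⁻¹ ^ (N₀ + N₁ + 1)) * (u - ∑ j, a j • w j) with hg
  have hg' : g = (ϖ⁻¹ ^ (N₀ + N₁ + 1)) • (u - ∑ j, a j • w j) := by
    rw [hg, Algebra.smul_def]
  have hgL : g ∈ LSpace D := by
    rw [hg']
    exact Submodule.smul_mem _ _ (Submodule.sub_mem _ hu
      (Submodule.sum_mem _ fun j _ => Submodule.smul_mem _ _ (hw j)))
  rw [← hfspan] at hgL
  obtain ⟨c, hc⟩ := (Submodule.mem_span_range_iff_exists_fun K).1 hgL
  have hcA : ∀ i, c i ∈ A := (mem_O_iff_of_red V hred hli c).1 (by rw [hc]; exact hmem)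
  have h1 : φ g = ϖ⁻¹ ^ (N₀ + N₁ + 1) * φ u := by
    rw [hg', map_smul, map_sub, map_sum, smul_eq_mul]
    simp [hφw']
  have h2 : ϖ ^ N₀ * φ g ∈ A := by
    rw [← hc, map_sum, Finset.mul_sum]
    refine sum_mem fun i _ => ?_
    rw [map_smul, smul_eq_mul, mul_left_comm]
    exact mul_mem (hcA i) (hN₀ i)
  have h3 : (ϖ ^ N₀ * φ g) * (ϖ ^ N₁ * (φ u)⁻¹) ∈ A := mul_mem h2 hN₁
  have h4 : (ϖ ^ N₀ * φ g) * (ϖ ^ N₁ * (φ u)⁻¹) = ϖ⁻¹ := by
    rw [h1, pow_succ, pow_add, inv_pow, inv_pow]
    field_simp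
  rw [h4] at h3
  have h5 : A.valuation ϖ < 1 := (ValuationSubring.mem_nonunits_iff A).1 hR.unif_nonunit
  have h6 : A.valuation ϖ⁻¹ ≤ 1 := (A.valuation_le_one_iff _).2 h3
  rw [map_inv₀] at h6
  have h7 : A.valuation ϖ ≠ 0 := (_root_.map_ne_zero _).2 hϖ0
  have h8 : 1 ≤ A.valuation ϖ := (inv_le_one₀ (zero_lt_iff.2 h7)).1 h6
  exact absurd h5 (not_lt.2 h8)

/-- the `k`-subspace of reductions of fixed elements of `L(D) ∩ O`. -/
def ImLFix (hR : RatStr α V ϖ y) (D : Divisor K F) : Submodule k Ft where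
  carrier := {ft | ∃ f : F, FixF α f ∧ f ∈ LSpace D ∧ V.Red f ft}
  zero_mem' := ⟨0, FixF.zero, zero_mem _, V.red_zero⟩
  add_mem' := by
    rintro a b ⟨f, hf1, hf, hfa⟩ ⟨g, hg1, hg, hgb⟩
    exact ⟨f + g, hf1.add hg1, add_mem hf hg, hfa.add hgb⟩
  smul_mem' := by
    rintro c a ⟨f, hf1, hf, hfa⟩
    obtain ⟨c', hc', hc1, rfl⟩ := hR.res_surj c
    refine ⟨c' • f, ?_, Submodule.smul_mem _ _ hf, ?_⟩
    · rw [Algebra.smul_def]
      exact (FixF.algebraMap hc1).mul hf1
    · rw [Algebra.smul_def, Algebra.smul_def]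
      exact (V.red_const hc').mul hfa

/-- a `K^Γ`-combination of fixed functions is fixed. -/
theorem FixF.sum_smul {n : ℕ} {a : Fin n → K} {w : Fin n → F} (ha : ∀ j, FixK α (a j))
    (hw : ∀ j, FixF α (w j)) : FixF α (∑ j, a j • w j) :=
  FixF.sum _ _ fun j _ => by
    rw [Algebra.smul_def]
    exact (FixF.algebraMap (ha j)).mul (hw j)

/-- **(Rat4)** Every element of `ImL V D` is the reduction of a FIXED element of `L(D) ∩ O` (`D` fixed).
Proof.  `Ū` := the set of reductions of fixed elements of `L(D) ∩ O`: a `k`-subspace of `ImL V D` (`res_surj`).  Let `w_1 .. w_i` be fixed lifts of a basis of `Ū`.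
If `Ū ≠ ImL V D` then `i < d = dim_K L(D)` (`finrank_ImL`), so by `exists_fix_basis` (for `W = L(D)`, stable by `smul_mem_LSpace`) there is a fixed `u ∈ L(D)` outside the
`K`-span of the `w_j`.  For fixed `a_j` the function `u - ∑ a_j w_j` is fixed and `≠ 0`; let `n(a)` be its order (`exists_zpow_red`: `ϖ^{-n(a)} (u - ∑ a_j w_j)` is a Gauss unit).
`n(a) ≤ N` by `exists_dist_bound`; take `a` with `n(a)` maximal.  The reduction of `u'' = ϖ^{-n(a)} (u - ∑ a_j w_j)` lies in `Ū`, `= ∑ x̄_j w̄_j`, `x_j ∈ A` fixed (`res_surj`);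
then `u'' - ∑ x_j w_j` is fixed and reduces to `0`, so it is divisible by `ϖ` (`div_unif_mem`): `n(a + ϖ^{n(a)} x) > n(a)`.  Contradiction. -/
theorem exists_fix_lift (hG : Good V y yt) (hR : RatStr α V ϖ y) {D : Divisor K F}
    (hD : FixD α D) {ft : Ft} (h : ft ∈ ImL V D) :
    ∃ f : F, FixF α f ∧ f ∈ LSpace D ∧ V.Red f ft := by
  classical
  by_contra hcon
  have hUle : ImLFix hR D ≤ ImL V D := fun x ⟨f, _, hf, hr⟩ => ⟨f, hf, hr⟩
  have hfinI := finite_ImL hG D
  have hlt : ImLFix hR D < ImL V D := lt_of_le_of_ne hUle (fun heq => hcon (by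
    have h1 : ft ∈ ImLFix hR D := heq ▸ h
    exact h1))
  have hfinU : Module.Finite k (ImLFix hR D) := Submodule.finiteDimensional_of_le hUle
  have hrk : Module.finrank k (ImLFix hR D) < Module.finrank K (LSpace D) := by
    rw [← finrank_ImL hG D]
    exact Submodule.finrank_lt_finrank_of_lt hlt
  let bt := Module.finBasis k (ImLFix hR D)
  have hmem : ∀ i, ∃ f : F, FixF α f ∧ f ∈ LSpace D ∧ V.Red f (bt i : Ft) := fun i => (bt i).2
  choose w hwfix hwL hwred using hmem
  have hfinL := finite_LSpace D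
  obtain ⟨e, hefix, heli, hespan⟩ := exists_fix_basis hR.fix_span (LSpace D)
    (fun σ w hw => smul_mem_LSpace hD σ hw)
  have hex : ∃ i, e i ∉ Submodule.span K (Set.range w) := by
    by_contra hall
    push Not at hall
    have hle : LSpace D ≤ Submodule.span K (Set.range w) := by
      rw [← hespan]
      exact Submodule.span_le.2 (by rintro _ ⟨i, rfl⟩; exact hall i)
    have hfs : Module.Finite K (Submodule.span K (Set.range w)) :=
      Module.Finite.span_of_finite K (Set.finite_range w)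
    have h1 : Module.finrank K (LSpace D) ≤ Module.finrank K (Submodule.span K (Set.range w)) :=
      Submodule.finrank_mono hle
    have h2 := finrank_range_le_card (R := K) w
    rw [Fintype.card_fin] at h2
    have h3 : Module.finrank K (Submodule.span K (Set.range w)) = (Set.range w).finrank K := rfl
    omega
  obtain ⟨i, hi⟩ := hex
  have huL : e i ∈ LSpace D := hespan ▸ Submodule.subset_span (Set.mem_range_self i)
  have hu0 : e i ≠ 0 := fun h0 => hi (h0 ▸ zero_mem _)
  have hϖ := hR.unif_ne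
  obtain ⟨n, ut, hut, hured⟩ := hR.exists_zpow_red (hefix i) hu0
  obtain ⟨u, hu⟩ : ∃ u : F, u = algebraMap K F (ϖ ^ n) * e i := ⟨_, rfl⟩
  rw [← hu] at hured
  have hu' : u = (ϖ ^ n) • e i := by rw [hu, Algebra.smul_def]
  have hufix : FixF α u := hu ▸ (FixF.algebraMap (hR.unif_fix.zpow n)).mul (hefix i)
  have huL' : u ∈ LSpace D := hu' ▸ Submodule.smul_mem _ _ huL
  have hunot : u ∉ Submodule.span K (Set.range w) := by
    intro hmem
    apply hi
    have h1 := Submodule.smul_mem _ (ϖ ^ n)⁻¹ hmem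
    rwa [hu', smul_smul, inv_mul_cancel₀ (zpow_ne_zero _ hϖ), one_smul] at h1
  obtain ⟨N, hN⟩ := exists_dist_bound hG hR D hwL huL' hunot
  have key : ∀ M : ℕ, ∃ a : Fin (Module.finrank k (ImLFix hR D)) → K, (∀ j, FixK α (a j)) ∧
      algebraMap K F (ϖ⁻¹ ^ M) * (u - ∑ j, a j • w j) ∈ V.O := by
    intro M
    induction M with
    | zero =>
      refine ⟨fun _ => 0, fun _ => FixK.zero, ?_⟩
      simpa using hured.mem
    | succ M ih =>
      obtain ⟨a, hafix, hmem⟩ := ih
      obtain ⟨g, hg⟩ : ∃ g : F, g = algebraMap K F (ϖ⁻¹ ^ M) * (u - ∑ j, a j • w j) := ⟨_, rfl⟩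
      rw [← hg] at hmem
      have hgfix : FixF α g := hg ▸ (FixF.algebraMap (hR.unif_fix.inv.pow M)).mul
        (hufix.sub (FixF.sum_smul hafix hwfix))
      have hgL : g ∈ LSpace D := by
        rw [hg, ← Algebra.smul_def]
        exact Submodule.smul_mem _ _ (Submodule.sub_mem _ huL'
          (Submodule.sum_mem _ fun j _ => Submodule.smul_mem _ _ (hwL j)))
      obtain ⟨gt, hgt⟩ := V.exists_red hmem
      have hgU : gt ∈ ImLFix hR D := ⟨g, hgfix, hgL, hgt⟩
      have hrepr : ∑ j, bt.repr ⟨gt, hgU⟩ j • (bt j : Ft) = gt := by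
        have h1 := congrArg (ImLFix hR D).subtype (bt.sum_repr ⟨gt, hgU⟩)
        rw [map_sum] at h1
        simpa only [map_smul, Submodule.subtype_apply] using h1
      choose x hxA hxfix hxres using fun j => hR.res_surj (bt.repr ⟨gt, hgU⟩ j)
      have hsred : V.Red (∑ j, x j • w j) gt := by
        rw [← hrepr]
        refine V.red_sum _ _ _ fun j _ => ?_
        rw [Algebra.smul_def, Algebra.smul_def, ← hxres j]
        exact (V.red_const (hxA j)).mul (hwred j)
      have h0 : V.Red (g - ∑ j, x j • w j) 0 := by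
        have := hgt.sub hsred
        rwa [sub_self] at this
      have hdiv := hR.div_unif_mem (hgfix.sub (FixF.sum_smul hxfix hwfix)) h0
      refine ⟨fun j => a j + ϖ ^ M * x j, fun j => (hafix j).add ((hR.unif_fix.pow M).mul (hxfix j)),
        ?_⟩
      have heq : algebraMap K F (ϖ⁻¹ ^ (M + 1)) * (u - ∑ j, (a j + ϖ ^ M * x j) • w j) =
          algebraMap K F ϖ⁻¹ * (g - ∑ j, x j • w j) := by
        have h1 : ∑ j, (a j + ϖ ^ M * x j) • w j =
            ∑ j, a j • w j + algebraMap K F (ϖ ^ M) * ∑ j, x j • w j := by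
          rw [Finset.mul_sum, ← Finset.sum_add_distrib]
          refine Finset.sum_congr rfl fun j _ => ?_
          rw [add_smul, mul_smul, Algebra.smul_def (ϖ ^ M)]
        have h2 : algebraMap K F (ϖ⁻¹ ^ M) * algebraMap K F (ϖ ^ M) = 1 := by
          rw [← map_mul, inv_pow, inv_mul_cancel₀ (pow_ne_zero _ hϖ), map_one]
        rw [h1, hg, pow_succ, map_mul]
        linear_combination (-(algebraMap K F ϖ⁻¹) * ∑ j, x j • w j) * h2
      rw [heq]
      exact hdiv
  obtain ⟨a, _, ha⟩ := key N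
  exact hN a ha

/-- **(Rat5)** rational orthonormal bases. -/
theorem exists_basis_lift_fix (hG : Good V y yt) (hR : RatStr α V ϖ y) {D : Divisor K F}
    (hD : FixD α D) (h : Module.finrank k (LSpace (rD hG D)) ≤ Module.finrank K (LSpace D)) :
    ∃ (f : Fin (Module.finrank K (LSpace D)) → F) (ft : Fin (Module.finrank K (LSpace D)) → Ft),
      (∀ i, FixF α (f i)) ∧ (∀ i, V.Red (f i) (ft i)) ∧
      LinearIndependent k ft ∧ Submodule.span k (Set.range ft) = LSpace (rD hG D) ∧
      LinearIndependent K f ∧ Submodule.span K (Set.range f) = LSpace D := by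
  have hI := ImL_eq_of_finrank_le hG D h
  rw [← finrank_ImL hG D]
  have := finite_ImL hG D
  let bt := Module.finBasis k (ImL V D)
  have hmem : ∀ i, ∃ f : F, FixF α f ∧ f ∈ LSpace D ∧ V.Red f (bt i : Ft) :=
    fun i => exists_fix_lift hG hR hD (bt i).2
  choose f hfix hf hred using hmem
  have hli : LinearIndependent k (fun i => (bt i : Ft)) :=
    bt.linearIndependent.map' (ImL V D).subtype (Submodule.ker_subtype _)
  have hspan : Submodule.span k (Set.range (fun i => (bt i : Ft))) = ImL V D := by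
    have h1 : Set.range (fun i => (bt i : Ft)) = (ImL V D).subtype '' Set.range bt := by
      rw [← Set.range_comp]; rfl
    rw [h1, ← Submodule.map_span, bt.span_eq, Submodule.map_subtype_top]
  exact ⟨f, fun i => (bt i : Ft), hfix, hred, hli, hspan.trans hI,
    linearIndependent_of_red V f _ hred hli, span_lift_eq hG D f _ hf hred hli hspan⟩

/-- (helper, `G0-Rat-Polar`) translating by a constant does not change the pole divisor. -/
theorem RatPolar_poleDivisor_sub {Ω 𝕃 : Type*} [Field Ω] [Field 𝕃] [Algebra Ω 𝕃] [FF1 Ω 𝕃]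
    (x : 𝕃) (c : Ω) : poleDivisor (Ω := Ω) (x - algebraMap Ω 𝕃 c) = poleDivisor (Ω := Ω) x := by
  ext v
  rw [poleDivisor_apply, poleDivisor_apply]
  by_cases h : 0 ≤ v.ord x
  · have h1 : 0 ≤ v.ord (x - algebraMap Ω 𝕃 c) :=
      (reg_iff_ord v).1 (((reg_iff_ord v).2 h).sub v (reg_algebraMap v c))
    rw [max_eq_left (by omega), max_eq_left (by omega)]
  · rw [not_le] at h
    rcases eq_or_ne c 0 with rfl | hc
    · simp
    have hx0 : x ≠ 0 := by
      rintro rfl
      simp at h
    have hc0 : -algebraMap Ω 𝕃 c ≠ 0 := by simpa using hc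
    rw [sub_eq_add_neg, Fermat.Agent.S24.FF.ord_add_eq_of_lt v hx0 hc0
      (by rw [Fermat.Agent.S24.FF.ord_neg, Fermat.Agent.S24.FF.ord_algebraMap]; exact h)]

/-- (helper, `G0-Rat-Polar`) -/
theorem RatPolar_transcendental_sub {Ω 𝕃 : Type*} [Field Ω] [Field 𝕃] [Algebra Ω 𝕃]
    {x : 𝕃} (hx : Transcendental Ω x) (c : Ω) : Transcendental Ω (x - algebraMap Ω 𝕃 c) := by
  intro h
  apply hx
  have := h.add (isAlgebraic_algebraMap (R := Ω) (A := 𝕃) c)
  rwa [sub_add_cancel] at this

/-- `rD (zeros of y - a) = zeros of yt - ā` (`a ∈ A`).  As `rD_poleDivisor`: `ord_red` for `W = y - a`; the zeros of `y - a` lie over zeros of `yt - ā`, and over a zero `Q` of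
`yt - ā` the function `y - a` has no pole. -/
theorem rD_zeroDivisor_sub (hG : Good V y yt) {a : K} (ha : a ∈ A) :
    rD hG (zeroDivisor (Ω := K) (y - algebraMap K F a)) =
      zeroDivisor (Ω := k) (yt - algebraMap k Ft (res π a)) := by
  have hred : V.Red (y - algebraMap K F a) (yt - algebraMap k Ft (res π a)) :=
    hG.h₀.red_y.sub (V.red_const ha)
  have hne : yt - algebraMap k Ft (res π a) ≠ 0 := by
    intro h0
    exact RatPolar_transcendental_sub hG.h₀.trans (res π a) (h0 ▸ isAlgebraic_zero)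
  have h1 : zeroDivisor (Ω := K) (y - algebraMap K F a)
      = divisorOf (y - algebraMap K F a) + poleDivisor (Ω := K) y := by
    rw [divisorOf_eq_sub, RatPolar_poleDivisor_sub, sub_add_cancel]
  have h2 : zeroDivisor (Ω := k) (yt - algebraMap k Ft (res π a))
      = divisorOf (yt - algebraMap k Ft (res π a)) + poleDivisor (Ω := k) yt := by
    rw [divisorOf_eq_sub, RatPolar_poleDivisor_sub, sub_add_cancel]
  rw [h1, h2, map_add, rD_divisorOf hG hred hne, rD_poleDivisor hG]

/-- (helper, `G0-Rat-Polar`) `D v ≤ rD D (rP v)` for `D ≥ 0`. -/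
theorem RatPolar_apply_le_rD (hG : Good V y yt) {D : Divisor K F} (hD : ∀ v, 0 ≤ D v)
    (v : Place K F) : D v ≤ rD hG D (rP hG v) := by
  classical
  have h1 : 0 ≤ rD hG (D - Finsupp.single v (D v)) (rP hG v) := by
    refine rD_nonneg hG (fun w => ?_) _
    rw [Finsupp.sub_apply, Finsupp.single_apply]
    split_ifs with h
    · rw [h, sub_self]
    · rw [sub_zero]; exact hD w
  rw [map_sub, rD_single, Finsupp.sub_apply, Finsupp.single_eq_same] at h1
  omega

/-- **Rational functions with prescribed reduction and no poles on given classes.**  `S` a finite set of places of `Ft`, `tt ∈ Ft` regular on `S`... in the form: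
there is a fixed divisor `P ≥ 0` of positive degree none of whose points reduces into `S`. -/
theorem exists_fix_polar (hG : Good V y yt) (hR : RatStr α V ϖ y) (S : Finset (Place k Ft)) :
    ∃ P : Divisor K F, FixD α P ∧ (∀ v, 0 ≤ P v) ∧ 0 < Divisor.degree P ∧
      (∀ v, P v ≠ 0 → rP hG v ∉ S) ∧ ∀ Q ∈ S, rD hG P Q = 0 := by
  classical
  have hinf : Infinite k := IsAlgClosed.instInfinite
  obtain ⟨x, hx⟩ := Infinite.exists_notMem_finset (S.image fun Q : Place k Ft => Fermat.Agent.S37.Red.val Q yt)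
  obtain ⟨a, haA, hafix, rfl⟩ := hR.res_surj x
  have hrD := rD_zeroDivisor_sub hG haA
  have hnn : ∀ v, 0 ≤ zeroDivisor (Ω := K) (y - algebraMap K F a) v := fun v => by
    rw [zeroDivisor_apply]; exact le_max_left _ _
  have hS : ∀ Q ∈ S, rD hG (zeroDivisor (Ω := K) (y - algebraMap K F a)) Q = 0 := by
    intro Q hQ
    rw [hrD, zeroDivisor_apply]
    apply max_eq_left
    by_contra hcon
    rw [not_le] at hcon
    apply hx
    rw [Finset.mem_image]
    exact ⟨Q, hQ, val_eq_of_van Q (van_of_ord_pos Q hcon)⟩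
  refine ⟨zeroDivisor (Ω := K) (y - algebraMap K F a),
    (hR.fix_y.sub (FixF.algebraMap hafix)).fixD_zeroDivisor, hnn, ?_, ?_, hS⟩
  · rw [← degree_rD hG, hrD,
      degree_zeroDivisor (RatPolar_transcendental_sub hG.h₀.trans (res π a))]
    have := finiteDimensional_adjoin_of_transcendental
      (RatPolar_transcendental_sub hG.h₀.trans (res π a))
    exact_mod_cast (Module.finrank_pos :
      0 < Module.finrank k⟮yt - algebraMap k Ft (res π a)⟯ Ft)
  · intro v hv hmem
    have h1 := RatPolar_apply_le_rD hG hnn v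
    rw [hS _ hmem] at h1
    exact hv (le_antisymm h1 (hnn v))

/-- helper for `exists_param_fix`, `exists_val_fix`: a divisor `Pt` of positive degree on `Ft`, with support outside `S`, such that for `m` large every
element of `L(m Pt)` is the reduction of a fixed function which is regular on the classes of `S`. -/
theorem exists_fix_lift_polar (hG : Good V y yt) (hR : RatStr α V ϖ y) (S : Finset (Place k Ft)) :
    ∃ Pt : Divisor k Ft, 0 < Divisor.degree Pt ∧ (∀ Q ∈ S, Pt Q = 0) ∧ ∃ m₀ : ℕ, ∀ m ≥ m₀,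
      ∀ tt ∈ LSpace (m • Pt), ∃ t : F, FixF α t ∧ V.Red t tt ∧
        ∀ v : Place K F, rP hG v ∈ S → Reg v t := by
  obtain ⟨P, hPfix, -, hPdeg, hPS, hPS'⟩ := exists_fix_polar hG hR S
  obtain ⟨c, hc⟩ := exists_ImL_eq_of_degree hG
  refine ⟨rD hG P, by rw [degree_rD]; exact hPdeg, hPS', c.toNat, fun m hm tt htt => ?_⟩
  have hdeg : c ≤ Divisor.degree (m • P) := by
    rw [map_nsmul, nsmul_eq_mul]
    have h1 := Int.self_le_toNat c
    have h2 : (c.toNat : ℤ) ≤ m := by exact_mod_cast hm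
    nlinarith
  have h1 : tt ∈ ImL V (m • P) := by
    rw [hc _ hdeg, map_nsmul]
    exact htt
  obtain ⟨t, htfix, htL, htred⟩ := exists_fix_lift hG hR (hPfix.nsmul m) h1
  refine ⟨t, htfix, htred, fun v hv => reg_of_mem_LSpace htL (le_of_eq ?_)⟩
  have h2 : P v = 0 := by
    by_contra hne
    exact hPS v hne hv
  rw [Finsupp.smul_apply, h2, smul_zero]

/-- **(Rat6)** rational local parameters.  (`exists_fix_polar`, `exists_mem_LSpace_ord_eq` on `Ft` for `rD P`, `exists_ImL_eq_of_degree`, `exists_fix_lift`.) -/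
theorem exists_param_fix (hG : Good V y yt) (hR : RatStr α V ϖ y) (S : Finset (Place k Ft))
    {Q : Place k Ft} (hQ : Q ∈ S) :
    ∃ (t : F) (tt : Ft), FixF α t ∧ V.Red t tt ∧ (∀ v : Place K F, rP hG v ∈ S → Reg v t) ∧
      Q.ord tt = 1 ∧ ∀ Q' ∈ S, Q' ≠ Q → Q'.ord tt = 0 := by
  classical
  obtain ⟨Pt, hdeg, hPS, m₀, hm₀⟩ := exists_fix_lift_polar hG hR S
  obtain ⟨g, hg⟩ := exists_isGenus (Ω := k) (𝕃 := Ft)
  obtain ⟨m₁, hm₁⟩ := exists_mem_LSpace_ord_eq hg S hdeg hPS (fun Q' => if Q' = Q then 1 else 0)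
  obtain ⟨tt, httL, -, htt⟩ := hm₁ (max m₀ m₁) (le_max_right _ _)
  obtain ⟨t, htfix, htred, htreg⟩ := hm₀ (max m₀ m₁) (le_max_left _ _) tt httL
  refine ⟨t, tt, htfix, htred, htreg, ?_, fun Q' hQ' hne => ?_⟩
  · rw [htt Q hQ, if_pos rfl]
    rfl
  · rw [htt Q' hQ', if_neg hne]
    rfl

/-- rational functions with prescribed values of the reduction on `S`, regular on the classes of `S`. -/
theorem exists_val_fix (hG : Good V y yt) (hR : RatStr α V ϖ y) (S : Finset (Place k Ft))
    (c : Place k Ft → k) :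
    ∃ (e : F) (et : Ft), FixF α e ∧ V.Red e et ∧ (∀ v : Place K F, rP hG v ∈ S → Reg v e) ∧
      ∀ Q ∈ S, val Q et = c Q := by
  obtain ⟨Pt, hdeg, hPS, m₀, hm₀⟩ := exists_fix_lift_polar hG hR S
  obtain ⟨g, hg⟩ := exists_isGenus (Ω := k) (𝕃 := Ft)
  obtain ⟨m₁, hm₁⟩ := exists_mem_LSpace_val_eq hg S hdeg hPS c
  obtain ⟨et, hetL, het⟩ := hm₁ (max m₀ m₁) (le_max_right _ _)
  obtain ⟨e, hefix, hered, hereg⟩ := hm₀ (max m₀ m₁) (le_max_left _ _) et hetL
  exact ⟨e, et, hefix, hered, hereg, het⟩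

/-- **(Rat7)** every residue class contains a fixed place: the unique zero of a rational parameter (`exists_param_fix` with `S = {Q}`, `exists_unique_val` with `a = 0`,
`rP_smul`, `FixF.val_smul`). -/
theorem exists_fix_place (hG : Good V y yt) (hR : RatStr α V ϖ y) (Q : Place k Ft) :
    ∃ v : Place K F, FixP α v ∧ rP hG v = Q := by
  obtain ⟨t, tt, htfix, htred, htreg, hord, -⟩ :=
    exists_param_fix hG hR {Q} (Finset.mem_singleton_self Q)
  have hval : val Q tt = 0 := val_eq_zero_of_van Q (van_of_ord_pos Q (by rw [hord]; exact one_pos))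
  have hreg : ∀ v : Place K F, rP hG v = Q → Reg v t := fun v hv =>
    htreg v (by rw [hv]; exact Finset.mem_singleton_self Q)
  obtain ⟨v, ⟨hv, hvt⟩, huniq⟩ := exists_unique_val hG htred hreg
    (by rw [hval, map_zero, sub_zero]; exact hord) (a := 0) (zero_mem A)
    (by rw [res_zero, hval])
  refine ⟨v, fun σ => huniq _ ⟨?_, ?_⟩, hv⟩
  · rw [rP_smul hG hR, hv]
  · rw [htfix.val_smul, hvt, map_zero]

/-- a rational parameter at a given fixed place: `t` fixed, regular on the classes of `S`, `t(v₀) = 0`, reduction with a simple zero at `rP v₀` and no other zero on `S`. -/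
theorem exists_param_fix_at (hG : Good V y yt) (hR : RatStr α V ϖ y) (S : Finset (Place k Ft))
    {v₀ : Place K F} (hv₀ : FixP α v₀) (hS : rP hG v₀ ∈ S) :
    ∃ (t : F) (tt : Ft), FixF α t ∧ V.Red t tt ∧ (∀ v : Place K F, rP hG v ∈ S → Reg v t) ∧
      val v₀ t = 0 ∧ (rP hG v₀).ord tt = 1 ∧ ∀ Q' ∈ S, Q' ≠ rP hG v₀ → Q'.ord tt = 0 := by
  obtain ⟨t, tt, htfix, htred, htreg, hord, hord'⟩ := exists_param_fix hG hR S hS
  have hval : val (rP hG v₀) tt = 0 :=
    val_eq_zero_of_van _ (van_of_ord_pos _ (by rw [hord]; exact one_pos))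
  obtain ⟨haA, hares⟩ := (val_red hG htred (Q := rP hG v₀)
    (fun v hv => htreg v (by rw [hv]; exact hS))).2 v₀ rfl
  have hafix : FixK α (val v₀ t) := fixK_val hv₀ htfix
  refine ⟨t - algebraMap K F (val v₀ t), tt, htfix.sub (FixF.algebraMap hafix), ?_,
    fun v hv => (htreg v hv).sub v (reg_algebraMap v _), ?_, hord, hord'⟩
  · have h1 := htred.sub (V.red_const haA)
    rwa [hares, hval, map_zero, sub_zero] at h1
  · rw [val_sub v₀ (htreg v₀ hS) (reg_algebraMap v₀ _), val_algebraMap, sub_self]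

/-- **(Rat10)** every divisor of `Ft` lifts to a divisor supported on fixed places, one in each class. -/
theorem exists_fix_divisor (hG : Good V y yt) (hR : RatStr α V ϖ y) (E : Divisor k Ft) :
    ∃ D : Divisor K F, (∀ v, D v ≠ 0 → FixP α v) ∧ rD hG D = E ∧
      ∀ v v', D v ≠ 0 → D v' ≠ 0 → rP hG v = rP hG v' → v = v' := by
  classical
  choose s hsfix hs using fun Q : Place k Ft => exists_fix_place hG hR Q
  have hmem : ∀ v, (Finsupp.mapDomain s E) v ≠ 0 → ∃ Q, s Q = v := by
    intro v hv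
    have h1 := Finsupp.mapDomain_support (Finsupp.mem_support_iff.mpr hv)
    obtain ⟨Q, -, hQ⟩ := Finset.mem_image.mp h1
    exact ⟨Q, hQ⟩
  refine ⟨Finsupp.mapDomain s E, fun v hv => ?_, ?_, fun v v' hv hv' h => ?_⟩
  · obtain ⟨Q, rfl⟩ := hmem v hv
    exact hsfix Q
  · show Finsupp.mapDomain (rP hG) (Finsupp.mapDomain s E) = E
    rw [← Finsupp.mapDomain_comp]
    have h1 : rP hG ∘ s = id := funext hs
    rw [h1, Finsupp.mapDomain_id]
  · obtain ⟨Q, rfl⟩ := hmem v hv
    obtain ⟨Q', rfl⟩ := hmem v' hv'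
    rw [hs, hs] at h
    rw [h]

end Fermat.Agent.S19.Geo0
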