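import Fermat.Agent.S19.Geo0.Center

/-!
# S19 / Geo0 : semicontinuity of `ℓ(D)` and orthonormal bases of Riemann-Roch spaces

`ImL V D ⊆ Ft` is the `k`-space of reductions of the elements of `L(D) ∩ O`.
* `ImL_le`          : `ImL V D ≤ L(rD D)`;
* `finrank_ImL`     : `dim_k ImL V D = dim_K L(D)`   (no discreteness of `A` is needed);
* `finrank_LSpace_le` (SEMI) : `dim_K L(D) ≤ dim_k L(rD D)`;
* `ImL_eq_of_finrank_le`, `exists_basis_lift` (LIFT).
-/

set_option autoImplicit false
set_option linter.unusedSectionVars false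

namespace Fermat.Agent.S19.Geo0

open AlgebraicCurve Fermat.Agent.S26 Fermat.Agent.S37.Red Polynomial IntermediateField

variable {K k : Type*} [Field K] [Field k] {A : ValuationSubring K} {π : A →+* k}
variable {F Ft : Type*} [Field F] [Field Ft] [Algebra K F] [Algebra k Ft]

/-- The reductions of the elements of `L(D) ∩ O`. -/
def ImL (V : VFF A π F Ft) (D : Divisor K F) : Submodule k Ft where
  carrier := {ft | ∃ f : F, f ∈ LSpace D ∧ V.Red f ft}
  zero_mem' := ⟨0, zero_mem _, V.red_zero⟩
  add_mem' := by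
    rintro a b ⟨f, hf, hfa⟩ ⟨g, hg, hgb⟩
    exact ⟨f + g, add_mem hf hg, hfa.add hgb⟩
  smul_mem' := by
    rintro c a ⟨f, hf, hfa⟩
    obtain ⟨c', hc', rfl⟩ := exists_res_eq V.π_surjective c
    refine ⟨c' • f, Submodule.smul_mem _ _ hf, ?_⟩
    rw [Algebra.smul_def, Algebra.smul_def]
    exact (V.red_const hc').mul hfa

theorem mem_ImL {V : VFF A π F Ft} {D : Divisor K F} {ft : Ft} :
    ft ∈ ImL V D ↔ ∃ f : F, f ∈ LSpace D ∧ V.Red f ft := Iff.rfl

theorem ImL_mono {V : VFF A π F Ft} {D D' : Divisor K F} (h : ∀ v, D v ≤ D' v) :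
    ImL V D ≤ ImL V D' := by
  rintro ft ⟨f, hf, hft⟩
  exact ⟨f, LSpace_mono h hf, hft⟩

/-- In a valuation ring, finitely many elements, not all zero, can be scaled so that all lie in `A` and one of them is `1`. -/
theorem exists_scale_fin {n : ℕ} (c : Fin n → K) (hc : c ≠ 0) :
    ∃ j : Fin n, c j ≠ 0 ∧ ∀ i, c i / c j ∈ A := by
  obtain ⟨i₀, hi₀⟩ : ∃ i, c i ≠ 0 := by
    by_contra hall
    push Not at hall
    exact hc (funext hall)
  have : Nonempty (Fin n) := ⟨i₀⟩
  obtain ⟨j, hj⟩ := Finite.exists_max (fun i => A.valuation (c i))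
  have hj0 : A.valuation (c j) ≠ 0 := by
    intro h
    have h1 := hj i₀
    rw [h, le_zero_iff, map_eq_zero] at h1
    exact hi₀ h1
  refine ⟨j, fun h => hj0 (by rw [h, map_zero]), fun i => ?_⟩
  rw [← A.valuation_le_one_iff, map_div₀]
  exact (div_le_one₀ (zero_lt_iff.2 hj0)).2 (hj i)

/-- Lifts of `k`-linearly independent elements are `K`-linearly independent.
(Scale a relation by `exists_scale_fin` and reduce it: `VFF.red_sum`, `VFF.red_const`, `VFF.Red.unique` with `V.red_zero`.) -/
theorem linearIndependent_of_red (V : VFF A π F Ft) {n : ℕ} (f : Fin n → F) (ft : Fin n → Ft)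
    (h : ∀ i, V.Red (f i) (ft i)) (hli : LinearIndependent k ft) : LinearIndependent K f := by
  rw [Fintype.linearIndependent_iff]
  intro g hg
  by_contra hne
  have hg0 : g ≠ 0 := by
    intro h0
    exact hne fun i => by rw [h0]; rfl
  obtain ⟨j, hj, hA⟩ := exists_scale_fin (A := A) g hg0
  have hsum : ∑ i, algebraMap K F (g i / g j) * f i = 0 := by
    have h1 : ∑ i, algebraMap K F (g i / g j) * f i = (g j)⁻¹ • ∑ i, g i • f i := by
      rw [Finset.smul_sum]
      refine Finset.sum_congr rfl fun i _ => ?_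
      rw [smul_smul, Algebra.smul_def, div_eq_inv_mul]
    rw [h1, hg, smul_zero]
  have hred : V.Red (∑ i, algebraMap K F (g i / g j) * f i)
      (∑ i, algebraMap k Ft (res π (g i / g j)) * ft i) :=
    V.red_sum _ _ _ fun i _ => (V.red_const (hA i)).mul (h i)
  rw [hsum] at hred
  have h0 : ∑ i, res π (g i / g j) • ft i = 0 := by
    have := hred.unique V.red_zero
    simpa [Algebra.smul_def] using this
  have h1 := (Fintype.linearIndependent_iff.1 hli) _ h0 j
  rw [div_self hj, res_one] at h1
  exact one_ne_zero h1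

section FF

variable {Ω 𝕃 : Type*} [Field Ω] [Field 𝕃] [Algebra Ω 𝕃] [IsAlgClosed Ω] [FF1 Ω 𝕃]

theorem Semi_finite_not_reg (g : 𝕃) : {v : Place Ω 𝕃 | ¬ Reg v g}.Finite := by
  rcases eq_or_ne g 0 with rfl | hg
  · convert Set.finite_empty
    ext v
    simp [reg_zero]
  · refine (finite_ord_ne_zero hg).subset ?_
    intro v hv h0
    exact hv ((reg_iff_ord v).2 (by rw [h0]))

/-- **Evaluation points.**  Linearly independent functions have a non-vanishing evaluation determinant at suitable places outside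
a given finite set.
Induction on `n`.  Step: given `Q_0 .. Q_{n-1}` for `f_0 .. f_{n-1}`, expand the `(n+1) × (n+1)` determinant along the last row:
as a function of the last place it is the value of `h = ∑ ± (minor_j) f_j`, whose coefficient of `f_n` is the old determinant `≠ 0`, so `h ≠ 0`
by independence; choose the last place outside `S`, the poles of the `f_j` and the zeros of `h`
(`finite_ord_ne_zero`, `infinite_place`, `Set.Infinite.exists_notMem_finite`). -/
theorem exists_places_det_ne_zero {n : ℕ} (f : Fin n → 𝕃) (hli : LinearIndependent Ω f)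
    (S : Set (Place Ω 𝕃)) (hS : S.Finite) :
    ∃ Q : Fin n → Place Ω 𝕃, (∀ i, Q i ∉ S) ∧ (∀ i j, Reg (Q i) (f j)) ∧
      (Matrix.of fun i j => val (Q i) (f j)).det ≠ 0 := by
  induction n generalizing S with
  | zero => exact ⟨Fin.elim0, fun i => i.elim0, fun i => i.elim0, by simp⟩
  | succ n ih =>
    obtain ⟨Q', hQS, hQreg, hdet⟩ := ih (fun j => f j.castSucc)
      (hli.comp _ (Fin.castSucc_injective n)) (S ∪ {v | ¬ Reg v (f (Fin.last n))})
      (hS.union (Semi_finite_not_reg _))
    have hQreg' : ∀ i j, Reg (Q' i) (f j) := by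
      intro i j
      refine Fin.lastCases ?_ (fun j' => hQreg i j') j
      by_contra h
      exact hQS i (Or.inr h)
    obtain ⟨c, hcdef⟩ : ∃ c : Fin (n + 1) → Ω, c = fun j : Fin (n + 1) => (-1) ^ (n + (j : ℕ)) *
        (Matrix.of fun i' j' => Fermat.Agent.S37.Red.val (Q' i') (f (j.succAbove j'))).det := ⟨_, rfl⟩
    have hc : c (Fin.last n) ≠ 0 := by
      rw [hcdef]
      simp only [Fin.succAbove_last]
      exact mul_ne_zero (pow_ne_zero _ (by norm_num)) hdet
    obtain ⟨h, hdef⟩ : ∃ h : 𝕃, h = ∑ j, c j • f j := ⟨_, rfl⟩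
    have hh : h ≠ 0 := fun h0 => hc (Fintype.linearIndependent_iff.1 hli c (hdef ▸ h0) _)
    have hfin : (S ∪ (⋃ j, {v | ¬ Reg v (f j)}) ∪ {v | v.ord h ≠ 0}).Finite :=
      (hS.union (Set.finite_iUnion fun j => Semi_finite_not_reg _)).union (finite_ord_ne_zero hh)
    have : Infinite (Place Ω 𝕃) := infinite_place
    obtain ⟨P, hP⟩ := hfin.exists_notMem
    have hPS : P ∉ S := fun hx => hP (Or.inl (Or.inl hx))
    have hPreg : ∀ j, Reg P (f j) := by
      intro j
      by_contra hx
      exact hP (Or.inl (Or.inr (Set.mem_iUnion.2 ⟨j, hx⟩)))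
    have hPh : P.ord h = 0 := by
      by_contra hx
      exact hP (Or.inr hx)
    have hregterm : ∀ j ∈ Finset.univ, Reg P (c j • f j) := by
      intro j _
      rw [Algebra.smul_def]
      exact Reg.mul P (reg_algebraMap P _) (hPreg j)
    have hregh : Reg P h := by
      rw [hdef]
      exact reg_sum P _ _ hregterm
    have hval : val P h ≠ 0 := by
      rw [Ne, val_eq_zero_iff P hregh, van_iff_ord, not_or]
      exact ⟨hh, by rw [hPh]; exact lt_irrefl 0⟩
    refine ⟨Fin.snoc (α := fun _ => Place Ω 𝕃) Q' P, ?_, ?_, ?_⟩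
    · intro i
      refine Fin.lastCases ?_ (fun i' => ?_) i
      · rw [Fin.snoc_last]; exact hPS
      · rw [Fin.snoc_castSucc]; exact fun hx => hQS i' (Or.inl hx)
    · intro i j
      refine Fin.lastCases ?_ (fun i' => ?_) i
      · rw [Fin.snoc_last]; exact hPreg j
      · rw [Fin.snoc_castSucc]; exact hQreg' i' j
    · rw [Matrix.det_succ_row _ (Fin.last n)]
      have e : val P h = ∑ j, c j * val P (f j) := by
        rw [hdef, val_sum P _ _ hregterm]
        refine Finset.sum_congr rfl fun j _ => ?_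
        rw [Algebra.smul_def, val_mul P (reg_algebraMap P _) (hPreg j), val_algebraMap]
      rw [e] at hval
      convert hval using 1
      refine Finset.sum_congr rfl fun j _ => ?_
      rw [hcdef]
      simp only [Matrix.of_apply, Fin.snoc_last, Fin.val_last]
      have e2 : (Matrix.of fun i j => val (Fin.snoc (α := fun _ => Place Ω 𝕃) Q' P i) (f j)).submatrix
          (Fin.last n).succAbove j.succAbove
          = Matrix.of fun i' j' => val (Q' i') (f (j.succAbove j')) := by
        ext i' j'
        simp only [Matrix.submatrix_apply, Matrix.of_apply, Fin.succAbove_last, Fin.snoc_castSucc]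
      rw [e2]
      ring

end FF

variable [IsAlgClosed K] [FF1 K F] [IsAlgClosed k] [FF1 k Ft]
variable {V : VFF A π F Ft} {y : F} {yt : Ft}

/-- `ord_red` + `rD_apply`: `ord_Q ft = ∑_{rP v = Q} ord_v f ≥ - ∑_{rP v = Q} D v`
(`finsum_mem` over the finite set `(support D ∪ support (divisorOf f)) ∩ fibre`; or `rD_divisorOf` and positivity `rD_nonneg` of `rD (divisorOf f + D)`). -/
theorem ImL_le (hG : Good V y yt) (D : Divisor K F) : ImL V D ≤ LSpace (rD hG D) := by
  rintro ft ⟨f, hf, hft⟩
  by_cases h0 : ft = 0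
  · rw [h0]; exact zero_mem _
  have hf0 : f ≠ 0 := hft.ne_zero h0
  have hf' := (mem_LSpace.1 hf).resolve_left hf0
  refine mem_LSpace.2 (Or.inr fun Q => ?_)
  have h1 : 0 ≤ rD hG (divisorOf f + D) Q :=
    rD_nonneg hG (fun v => by rw [Finsupp.add_apply, divisorOf_apply]; exact hf' v) Q
  rw [map_add, rD_divisorOf hG hft h0, Finsupp.add_apply, divisorOf_apply] at h1
  exact h1

theorem finite_ImL (hG : Good V y yt) (D : Divisor K F) : Module.Finite k (ImL V D) := by
  have := finite_LSpace (rD hG D)
  exact Module.Finite.of_injective (Submodule.inclusion (ImL_le hG D)) (Submodule.inclusion_injective _)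

/-- elements of `L(D)` are regular on the classes which do not meet the support of `D`. -/
theorem reg_of_mem_LSpace {D : Divisor K F} {f : F} (hf : f ∈ LSpace D) {v : Place K F}
    (hv : D v ≤ 0) : Reg v f := by
  rcases mem_LSpace.1 hf with rfl | h
  · exact reg_zero v
  · rw [reg_iff_ord]
    have := h v
    omega

theorem finrank_ImL_le (hG : Good V y yt) (D : Divisor K F) :
    Module.finrank k (ImL V D) ≤ Module.finrank K (LSpace D) := by
  have := finite_ImL hG D
  have := finite_LSpace D
  set b := Module.finBasis k (ImL V D) with hb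
  have hex : ∀ i, ∃ f : F, f ∈ LSpace D ∧ V.Red f ((b i : ImL V D) : Ft) := fun i => (b i).2
  choose f hf hred using hex
  have hli : LinearIndependent k (fun i => ((b i : ImL V D) : Ft)) :=
    b.linearIndependent.map' (ImL V D).subtype (Submodule.ker_subtype _)
  have hliK : LinearIndependent K f := linearIndependent_of_red V f _ hred hli
  have hliK' : LinearIndependent K (fun i => (⟨f i, hf i⟩ : LSpace D)) :=
    LinearIndependent.of_comp (LSpace D).subtype hliK
  simpa using hliK'.fintype_card_le_finrank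

/-- a matrix with entries in `A` whose reduction has nonzero determinant has nonzero determinant. -/
theorem SemiKey_det_ne_zero {n : ℕ} (M : Matrix (Fin n) (Fin n) K) (Mt : Matrix (Fin n) (Fin n) k)
    (hM : ∀ i j, M i j ∈ A) (hres : ∀ i j, res π (M i j) = Mt i j) (hdet : Mt.det ≠ 0) :
    M.det ≠ 0 := by
  let M' : Matrix (Fin n) (Fin n) A := Matrix.of fun i j => ⟨M i j, hM i j⟩
  have h1 : M'.map A.subtype = M := by
    ext i j; rfl
  have h2 : M'.map π = Mt := by
    ext i j
    rw [← hres i j, res_of_mem (hM i j)]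
    rfl
  have h3 : π M'.det = Mt.det := by
    rw [RingHom.map_det, RingHom.mapMatrix_apply, h2]
  have h4 : A.subtype M'.det = M.det := by
    rw [RingHom.map_det, RingHom.mapMatrix_apply, h1]
  intro h0
  rw [← h4] at h0
  have h5 : M'.det = 0 := Subtype.ext h0
  rw [h5, map_zero] at h3
  exact hdet h3.symm

/-- **Key step.**  Let `ft_j` be a basis of `ImL V D` with lifts `f_j ∈ L(D)`; then the `f_j` span `L(D)`.
Proof.  `S = rP '' support D` (finite).  `exists_places_det_ne_zero` gives `Q_l ∉ S`; lifts `v_l` (`rP_surjective`).  All elements of `L(D)` are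
regular on the class of `Q_l` (`reg_of_mem_LSpace`), so by `val_red` the matrix `M = (f_j(v_l))` has entries in `A` and `res (det M) = det (ft_j(Q_l)) ≠ 0`;
in particular `det M ≠ 0`.  Given `f ∈ L(D)` solve `M c = (f(v_l))_l` and put `f' = f - ∑ c_j f_j`: it vanishes at all `v_l`.  If `f' ≠ 0`, `VFF.exists_scale'`
gives `c f'` with reduction `g ≠ 0`; `g ∈ ImL V D`, `g = ∑ a_j ft_j`, and `g(Q_l) = res ((c f')(v_l)) = 0` for all `l`, so `a = 0`: contradiction. -/
theorem span_lift_eq (hG : Good V y yt) (D : Divisor K F) {n : ℕ} (f : Fin n → F) (ft : Fin n → Ft)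
    (hf : ∀ i, f i ∈ LSpace D) (h : ∀ i, V.Red (f i) (ft i)) (hli : LinearIndependent k ft)
    (hspan : Submodule.span k (Set.range ft) = ImL V D) :
    Submodule.span K (Set.range f) = LSpace D := by
  classical
  refine le_antisymm (Submodule.span_le.mpr ?_) ?_
  · rintro _ ⟨i, rfl⟩
    exact hf i
  intro g hg
  have hS : (rP hG '' (D.support : Set (Place K F))).Finite := (Finset.finite_toSet _).image _
  obtain ⟨Q, hQS, hQreg, hdet⟩ := exists_places_det_ne_zero ft hli _ hS
  choose v hv using fun l => rP_surjective hG (Q l)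
  -- regularity on the classes of the `Q l`
  have hreg : ∀ x ∈ LSpace D, ∀ l, ∀ w : Place K F, rP hG w = Q l → Reg w x := by
    intro x hx l w hw
    refine reg_of_mem_LSpace hx (le_of_eq ?_)
    by_contra hne
    exact hQS l ⟨w, Finsupp.mem_support_iff.mpr hne, hw⟩
  have hval : ∀ (x : F) (xt : Ft), x ∈ LSpace D → V.Red x xt → ∀ l,
      val (v l) x ∈ A ∧ res π (val (v l) x) = val (Q l) xt := by
    intro x xt hx hxt l
    exact (val_red hG hxt (hreg x hx l)).2 (v l) (hv l)
  set M : Matrix (Fin n) (Fin n) K := Matrix.of fun l j => val (v l) (f j) with hM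
  have hMdet : M.det ≠ 0 :=
    SemiKey_det_ne_zero (π := π) M _ (fun l j => (hval _ _ (hf j) (h j) l).1)
      (fun l j => (hval _ _ (hf j) (h j) l).2) hdet
  have hMunit : IsUnit M.det := isUnit_iff_ne_zero.mpr hMdet
  set b : Fin n → K := fun l => val (v l) g with hb
  set c : Fin n → K := M⁻¹.mulVec b with hc
  have hMc : M.mulVec c = b := by
    rw [hc, Matrix.mulVec_mulVec, Matrix.mul_nonsing_inv _ hMunit, Matrix.one_mulVec]
  set f' : F := g - ∑ j, c j • f j with hf'
  have hsum_mem : ∑ j, c j • f j ∈ LSpace D :=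
    Submodule.sum_mem _ fun j _ => Submodule.smul_mem _ _ (hf j)
  have hf'mem : f' ∈ LSpace D := Submodule.sub_mem _ hg hsum_mem
  have hf'val : ∀ l, val (v l) f' = 0 := by
    intro l
    have hr : ∀ x ∈ LSpace D, Reg (v l) x := fun x hx => hreg x hx l (v l) (hv l)
    rw [hf', val_sub _ (hr _ hg) (hr _ hsum_mem),
      val_sum _ _ _ (fun j _ => hr _ (Submodule.smul_mem _ _ (hf j)))]
    have e : ∀ j ∈ (Finset.univ : Finset (Fin n)), val (v l) (c j • f j) = M l j * c j := by
      intro j _
      rw [Algebra.smul_def, val_mul _ (reg_algebraMap _ _) (hr _ (hf j)), val_algebraMap, hM,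
        Matrix.of_apply, mul_comm]
    rw [Finset.sum_congr rfl e]
    have := congrFun hMc l
    rw [Matrix.mulVec, dotProduct] at this
    rw [this, hb, sub_self]
  have hf'0 : f' = 0 := by
    by_contra hne
    obtain ⟨c0, gt, hc0, hgt, hred⟩ := V.exists_scale' hne
    have hmem : algebraMap K F c0 * f' ∈ LSpace D := by
      rw [← Algebra.smul_def]; exact Submodule.smul_mem _ _ hf'mem
    have hgtI : gt ∈ ImL V D := ⟨_, hmem, hred⟩
    rw [← hspan, Submodule.mem_span_range_iff_exists_fun] at hgtI
    obtain ⟨a, ha⟩ := hgtI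
    have hz : ∀ l, val (Q l) gt = 0 := by
      intro l
      have hr : Reg (v l) f' := hreg _ hf'mem l (v l) (hv l)
      rw [← (hval _ _ hmem hred l).2, val_mul _ (reg_algebraMap _ _) hr, hf'val l, mul_zero,
        res_zero]
    have hmul : (Matrix.of fun l j => val (Q l) (ft j)).mulVec a = 0 := by
      funext l
      rw [Matrix.mulVec, dotProduct, Pi.zero_apply, ← hz l, ← ha,
        val_sum _ _ _ (fun j _ => by
          rw [Algebra.smul_def]; exact Reg.mul _ (reg_algebraMap _ _) (hQreg l j))]
      refine Finset.sum_congr rfl fun j _ => ?_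
      rw [Algebra.smul_def, val_mul _ (reg_algebraMap _ _) (hQreg l j), val_algebraMap,
        Matrix.of_apply, mul_comm]
    have ha0 : a = 0 := Matrix.eq_zero_of_mulVec_eq_zero hdet hmul
    apply hgt
    rw [← ha, ha0]
    simp
  have hg' : g = ∑ j, c j • f j := sub_eq_zero.mp hf'0
  rw [hg']
  exact Submodule.sum_mem _ fun j _ =>
    Submodule.smul_mem _ _ (Submodule.subset_span (Set.mem_range_self j))

/-- a basis of `ImL V D` with lifts in `L(D)`. -/
theorem SemiKey_exists_basis (hG : Good V y yt) (D : Divisor K F) :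
    ∃ (f : Fin (Module.finrank k (ImL V D)) → F) (ft : Fin (Module.finrank k (ImL V D)) → Ft),
      (∀ i, f i ∈ LSpace D) ∧ (∀ i, V.Red (f i) (ft i)) ∧ LinearIndependent k ft ∧
      Submodule.span k (Set.range ft) = ImL V D := by
  have := finite_ImL hG D
  let bt := Module.finBasis k (ImL V D)
  have hmem : ∀ i, ∃ f : F, f ∈ LSpace D ∧ V.Red f (bt i : Ft) := fun i => (bt i).2
  choose f hf hred using hmem
  refine ⟨f, fun i => (bt i : Ft), hf, hred, ?_, ?_⟩
  · exact bt.linearIndependent.map' (ImL V D).subtype (Submodule.ker_subtype _)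
  · have h1 : Set.range (fun i => (bt i : Ft)) = (ImL V D).subtype '' Set.range bt := by
      rw [← Set.range_comp]; rfl
    rw [h1, ← Submodule.map_span, bt.span_eq, Submodule.map_subtype_top]

/-- `dim_k ImL V D = dim_K L(D)`. -/
theorem finrank_ImL (hG : Good V y yt) (D : Divisor K F) :
    Module.finrank k (ImL V D) = Module.finrank K (LSpace D) := by
  obtain ⟨f, ft, hf, hred, hli, hspan⟩ := SemiKey_exists_basis hG D
  have h1 := span_lift_eq hG D f ft hf hred hli hspan
  have h2 := linearIndependent_of_red V f ft hred hli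
  rw [← h1, finrank_span_eq_card h2, Fintype.card_fin]

/-- **(SEMI)** upper semicontinuity. -/
theorem finrank_LSpace_le (hG : Good V y yt) (D : Divisor K F) :
    Module.finrank K (LSpace D) ≤ Module.finrank k (LSpace (rD hG D)) := by
  have := finite_LSpace (rD hG D)
  rw [← finrank_ImL hG D]
  exact Submodule.finrank_mono (ImL_le hG D)

/-- **(LIFT)** -/
theorem ImL_eq_of_finrank_le (hG : Good V y yt) (D : Divisor K F)
    (h : Module.finrank k (LSpace (rD hG D)) ≤ Module.finrank K (LSpace D)) :
    ImL V D = LSpace (rD hG D) := by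
  have := finite_LSpace (rD hG D)
  exact Submodule.eq_of_le_of_finrank_le (ImL_le hG D) (by rw [finrank_ImL hG D]; exact h)

/-- **Orthonormal bases.** -/
theorem exists_basis_lift (hG : Good V y yt) (D : Divisor K F)
    (h : Module.finrank k (LSpace (rD hG D)) ≤ Module.finrank K (LSpace D)) :
    ∃ (f : Fin (Module.finrank K (LSpace D)) → F) (ft : Fin (Module.finrank K (LSpace D)) → Ft),
      (∀ i, V.Red (f i) (ft i)) ∧
      LinearIndependent k ft ∧ Submodule.span k (Set.range ft) = LSpace (rD hG D) ∧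
      LinearIndependent K f ∧ Submodule.span K (Set.range f) = LSpace D := by
  have hI := ImL_eq_of_finrank_le hG D h
  rw [← finrank_ImL hG D]
  obtain ⟨f, ft, hf, hred, hli, hspan⟩ := SemiKey_exists_basis hG D
  exact ⟨f, ft, hred, hli, hspan.trans hI, linearIndependent_of_red V f ft hred hli,
    span_lift_eq hG D f ft hf hred hli hspan⟩

/-- **Uniqueness of effective representatives**: if `ℓ(rD D) = 1`, `D, D' ≥ 0` and `D' - D` is principal then `D' = D`. -/
theorem eq_of_effective (hG : Good V y yt) {D D' : Divisor K F} (hD : ∀ v, 0 ≤ D v)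
    (hD' : ∀ v, 0 ≤ D' v) (h1 : Module.finrank k (LSpace (rD hG D)) = 1)
    (hp : D' - D ∈ Divisor.principal (K := K) (F := F)) : D' = D := by
  obtain ⟨g, hg0, hg⟩ := hp
  have hfin := finite_LSpace D
  have hle : Module.finrank K (LSpace D) ≤ 1 := h1 ▸ finrank_LSpace_le hG D
  have hgm : g ∈ LSpace D := Or.inr fun v => by
    rw [← hg v, Finsupp.sub_apply, sub_add_cancel]; exact hD' v
  have h1m : (1 : F) ∈ LSpace D := Or.inr fun v => by
    rw [Place.ord_one, zero_add]; exact hD v
  obtain ⟨w, hw⟩ := finrank_le_one_iff.mp hle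
  obtain ⟨a, ha⟩ := hw ⟨1, h1m⟩
  obtain ⟨b, hb⟩ := hw ⟨g, hgm⟩
  have ha' : a • (w : F) = 1 := congrArg Subtype.val ha
  have hb' : b • (w : F) = g := congrArg Subtype.val hb
  have ha0 : a ≠ 0 := by
    rintro rfl
    rw [zero_smul] at ha'
    exact zero_ne_one ha'
  have hgc : g = algebraMap K F (b / a) := by
    have hw' : (w : F) = a⁻¹ • (1 : F) := by
      rw [← ha', smul_smul, inv_mul_cancel₀ ha0, one_smul]
    rw [← hb', hw', smul_smul, Algebra.smul_def, mul_one, div_eq_mul_inv]
  ext v
  have := hg v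
  rw [hgc, Fermat.Agent.S24.FF.ord_algebraMap, Finsupp.sub_apply, sub_eq_zero] at this
  exact this

end Fermat.Agent.S19.Geo0
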